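import Fermat.Agent.Igusa.Irreducible
import Fermat.Agent.ModCurve.Fun.Field
import Fermat.Prelude.Def_GaloisRep_Flat

/-!
# Irreducibility over every field of characteristic `ℓ ∤ N`
-/

set_option autoImplicit false

noncomputable section

open UpperHalfPlane hiding I
open Complex Filter Function Polynomial
open scoped Real Topology MatrixGroups Manifold ModularForm

namespace FermatAgent.Igusa

open FermatAgent.ModFun ModularCurve
open GaloisRep (ratLocalizedAt)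

section Zl

variable (ℓ : ℕ) [Fact ℓ.Prime]

omit [Fact ℓ.Prime] in
theorem mem_ratLocalizedAt {q : ℚ} : q ∈ ratLocalizedAt ℓ ↔ q.den.Coprime ℓ := Iff.rfl

/-- A nonunit of `ℤ_(ℓ)` is a multiple of `ℓ`. -/
theorem exists_eq_natCast_mul_of_not_isUnit {a : ratLocalizedAt ℓ} (ha : ¬ IsUnit a) :
    ∃ b : ratLocalizedAt ℓ, a = (ℓ : ratLocalizedAt ℓ) * b := by
  have hl := (Fact.out : ℓ.Prime)
  have hnum : (ℓ : ℤ) ∣ (a : ℚ).num := by
    by_contra h
    apply ha
    have hne : (a : ℚ).num ≠ 0 := fun h0 => h (by simp [h0])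
    have hmem : (a : ℚ)⁻¹ ∈ ratLocalizedAt ℓ := by
      rw [mem_ratLocalizedAt, Rat.den_inv, if_neg hne, Nat.coprime_comm,
        hl.coprime_iff_not_dvd]
      exact fun h' => h (Int.natCast_dvd.mpr h')
    refine IsUnit.of_mul_eq_one ⟨_, hmem⟩ (Subtype.ext ?_)
    exact mul_inv_cancel₀ fun h0 => hne (by simp [h0])
  obtain ⟨m, hm⟩ := hnum
  have hb : ((m : ℚ) / (a : ℚ).den) ∈ ratLocalizedAt ℓ := by
    rw [mem_ratLocalizedAt]
    refine Nat.Coprime.coprime_dvd_left ?_ a.2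
    have := Rat.den_dvd m (a : ℚ).den
    rw [Rat.divInt_eq_div] at this
    exact_mod_cast this
  refine ⟨⟨_, hb⟩, Subtype.ext ?_⟩
  rw [Subring.coe_mul, Subring.coe_natCast]
  conv_lhs => rw [← Rat.num_div_den (a : ℚ), hm]
  push_cast
  ring

theorem not_isUnit_natCast : ¬ IsUnit (ℓ : ratLocalizedAt ℓ) := by
  intro h
  obtain ⟨b, hb⟩ := h.exists_right_inv
  have hl := (Fact.out : ℓ.Prime)
  have h1 : (b : ℚ) = (ℓ : ℚ)⁻¹ :=
    eq_inv_of_mul_eq_one_right (by simpa using congrArg Subtype.val hb)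
  have h2 := b.2
  rw [mem_ratLocalizedAt, h1, Rat.inv_natCast_den, if_neg hl.ne_zero, Nat.coprime_self] at h2
  exact hl.one_lt.ne' h2

theorem natCast_mem_of_isMaximal (P : Ideal (ratLocalizedAt ℓ)) [P.IsMaximal] :
    (ℓ : ratLocalizedAt ℓ) ∈ P := by
  by_contra hl
  obtain ⟨y, i, hi, hyi⟩ := Ideal.IsMaximal.exists_inv (inferInstance : P.IsMaximal) hl
  by_cases hu : IsUnit i
  · exact (inferInstance : P.IsPrime).ne_top (Ideal.eq_top_of_isUnit_mem _ hi hu)
  · obtain ⟨b, rfl⟩ := exists_eq_natCast_mul_of_not_isUnit ℓ hu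
    refine not_isUnit_natCast ℓ (IsUnit.of_mul_eq_one (y + b) ?_)
    linear_combination hyi

end Zl

variable (N : ℕ) [NeZero N] (ℓ : ℕ) [Fact ℓ.Prime]

/-- `exp (2 π i / N)`. -/
def zetaC : ℂ := (expUnit ((1 : ℝ) / N) : ℂˣ)

/-- `ℤ_(ℓ)[ζ_N]` inside `ℂ`. -/
def cycloRing : Subalgebra (ratLocalizedAt ℓ) ℂ := Algebra.adjoin (ratLocalizedAt ℓ) {zetaC N}

theorem zetaC_pow : zetaC N ^ N = 1 := by
  rw [zetaC, expUnit, Units.val_mk0, ← Complex.exp_nat_mul, Complex.ofReal_div,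
    Complex.ofReal_one, Complex.ofReal_natCast]
  have : (N : ℂ) ≠ 0 := Nat.cast_ne_zero.mpr (NeZero.ne N)
  rw [show (N : ℂ) * (2 * (Real.pi : ℂ) * Complex.I * (1 / N)) = 2 * (Real.pi : ℂ) * Complex.I by
    field_simp]
  exact Complex.exp_two_pi_mul_I

omit [Fact (Nat.Prime ℓ)] in
theorem hasRoots_cycloRing : HasRoots N (cycloRing N ℓ).toSubring := by
  intro r
  have h : ((expUnit ((r : ℝ) / N) : ℂˣ) : ℂ) = zetaC N ^ r := by
    rw [zetaC, expUnit, expUnit, Units.val_mk0, Units.val_mk0, ← Complex.exp_int_mul]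
    push_cast; ring_nf
  have hmem : zetaC N ∈ cycloRing N ℓ := Algebra.subset_adjoin rfl
  rw [Subalgebra.mem_toSubring, h]
  rcases r with n | n
  · simpa using pow_mem hmem n
  · have hinv : (zetaC N)⁻¹ = zetaC N ^ (N - 1) := by
      refine inv_eq_of_mul_eq_one_right ?_
      rw [← pow_succ', Nat.sub_add_cancel (NeZero.pos N), zetaC_pow]
    rw [zpow_negSucc, ← inv_pow, hinv]
    exact pow_mem (pow_mem hmem _) _

theorem inv_natCast_mem_cycloRing (hℓN : ¬ ℓ ∣ N) : (N : ℂ)⁻¹ ∈ (cycloRing N ℓ).toSubring := by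
  have h : (N : ℚ)⁻¹ ∈ ratLocalizedAt ℓ := by
    rw [mem_ratLocalizedAt, Rat.inv_natCast_den, if_neg (NeZero.ne N), Nat.coprime_comm,
      (Fact.out : ℓ.Prime).coprime_iff_not_dvd]
    exact hℓN
  have h2 := (cycloRing N ℓ).algebraMap_mem ⟨_, h⟩
  rw [Subalgebra.mem_toSubring]
  convert h2 using 1
  show (N : ℂ)⁻¹ = ((((N : ℚ)⁻¹ : ℚ)) : ℂ)
  simp

/-- A residue field of `ℤ_(ℓ)[ζ_N]`. -/
theorem exists_residue :
    ∃ (k : Type) (_ : Field k) (_ : CharP k ℓ) (ρ : (cycloRing N ℓ).toSubring →+* k),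
      Surjective ρ := by
  obtain ⟨m, hm⟩ := Ideal.exists_maximal (cycloRing N ℓ)
  have : Algebra.IsIntegral (ratLocalizedAt ℓ) (cycloRing N ℓ) :=
    Algebra.IsIntegral.adjoin fun x hx => by
      rw [Set.mem_singleton_iff.mp hx]
      exact ⟨Polynomial.X ^ N - 1, monic_X_pow_sub_C 1 (NeZero.ne N), by
        simp [zetaC_pow]⟩
  have := Ideal.isMaximal_comap_of_isIntegral_of_isMaximal (R := ratLocalizedAt ℓ) m
  let := Ideal.Quotient.field m
  let q : cycloRing N ℓ →+* cycloRing N ℓ ⧸ m := Ideal.Quotient.mk m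
  have h0 : q (algebraMap (ratLocalizedAt ℓ) (cycloRing N ℓ) (ℓ : ratLocalizedAt ℓ)) = 0 :=
    Ideal.Quotient.eq_zero_iff_mem.mpr
      (natCast_mem_of_isMaximal ℓ (m.comap (algebraMap (ratLocalizedAt ℓ) (cycloRing N ℓ))))
  rw [map_natCast, map_natCast] at h0
  refine ⟨cycloRing N ℓ ⧸ m, inferInstance, ?_, q, Ideal.Quotient.mk_surjective⟩
  exact (CharP.charP_iff_prime_eq_zero (Fact.out : ℓ.Prime)).mpr h0

theorem bEval_eq_eval₂ {K : Type*} [Field K] (P : K[X][X]) :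
    bEval K N P = P.eval₂ (aeval (jqModC K)).toRingHom (qExpand K N (jqModC K)) := rfl

/-- **Igusa**: the modular equation stays irreducible in characteristic `ℓ ∤ N`. -/
theorem eq_zero_of_bEval_charP (hℓN : ¬ ℓ ∣ N) (k : Type*) [Field k] [CharP k ℓ] {P : k[X][X]}
    (hdeg : P.natDegree < (CongruenceSubgroup.Gamma0 N).index) (h : bEval k N P = 0) : P = 0 := by
  obtain ⟨k₀, _, _, ρ, hρ⟩ := exists_residue N ℓ
  let := ZMod.algebra k ℓ
  let := ZMod.algebra k₀ ℓ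
  have key : ∀ Q : (ZMod ℓ)[X][X], Q.natDegree < (CongruenceSubgroup.Gamma0 N).index →
      bEval (ZMod ℓ) N Q = 0 → Q = 0 := by
    intro Q hQ h0
    refine Polynomial.map_injective (mapRingHom (algebraMap (ZMod ℓ) k₀))
      (Polynomial.map_injective _ (algebraMap (ZMod ℓ) k₀).injective) ?_
    rw [Polynomial.map_zero]
    refine eq_zero_of_eval_jqModC ρ (hasRoots_cycloRing N ℓ) (inv_natCast_mem_cycloRing N ℓ hℓN)
      hρ _ (natDegree_map_le.trans_lt hQ) ?_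
    rw [← bEval_eq_eval₂, ← coeffMap_bEval, h0, map_zero]
  ext i j
  rw [coeff_zero, coeff_zero]
  by_contra hc
  obtain ⟨φ, hφ⟩ := exists_functional_ne_zero (K := ZMod ℓ) hc
  have h0 : polyMap (polyMap φ.toAddMonoidHom) P = 0 :=
    key _ ((natDegree_polyMap_le _ _).trans_lt hdeg) (by rw [← coeffLin_bEval, h, map_zero])
  exact hφ (by simpa using congrArg (fun Q => (Q.coeff i).coeff j) h0)

end FermatAgent.Igusa

end
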