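import Fermat.Agent.Igusa.AnyField

/-!
# The Gauss valuation ring of the modular function field over a valued field
-/

set_option autoImplicit false

noncomputable section

open Function Polynomial

namespace FermatAgent.Igusa

open FermatAgent.ModFun ModularCurve

section Eval

variable (A : Type*) [CommRing A]

/-- `Q ↦ Q(j)` in Laurent series over any ring. -/
def gevC : A[X] →+* LaurentSeries A := eval₂RingHom HahnSeries.C (jqModC A)

variable (N : ℕ) [NeZero N]

/-- `P(X, Y) ↦ P(j, j(q^N))` in Laurent series over any ring. -/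
def gev : A[X][X] →+* LaurentSeries A := eval₂RingHom (gevC A) (jqNModC A N)

theorem gev_C (Q : A[X]) : gev A N (C Q) = gevC A Q := by simp [gev]

theorem gev_X : gev A N X = jqNModC A N := by simp [gev]

theorem gevC_X : gevC A X = jqModC A := by simp [gevC]

theorem gevC_C (a : A) : gevC A (C a) = HahnSeries.C a := by simp [gevC]

variable {A}

theorem coeffMap_C {B : Type*} [CommRing B] (f : A →+* B) (a : A) :
    coeffMap f (HahnSeries.C a) = HahnSeries.C (f a) := by
  rw [HahnSeries.C_apply, coeffMap_single, HahnSeries.C_apply]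

theorem coeffMap_gevC {B : Type*} [CommRing B] (f : A →+* B) (Q : A[X]) :
    coeffMap f (gevC A Q) = gevC B (Q.map f) := by
  have h : (coeffMap f).comp (gevC A) = (gevC B).comp (mapRingHom f) := by
    refine Polynomial.ringHom_ext (fun a => ?_) ?_
    · simp [gevC, Polynomial.map_C]
    · simp [gevC, coeffMap_jqModC]
  exact RingHom.congr_fun h Q

theorem coeffMap_gev {B : Type*} [CommRing B] (f : A →+* B) (P : A[X][X]) :
    coeffMap f (gev A N P) = gev B N (P.map (mapRingHom f)) := by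
  have h : (coeffMap f).comp (gev A N) = (gev B N).comp (mapRingHom (mapRingHom f)) := by
    refine Polynomial.ringHom_ext (fun a => ?_) ?_
    · simp [gev, coeffMap_gevC, Polynomial.map_C]
    · simp [gev, coeffMap_jqNModC]
  exact RingHom.congr_fun h P

theorem gevC_eq_aeval (K : Type*) [Field K] (Q : K[X]) : gevC K Q = aeval (jqModC K) Q := by
  rw [gevC, coe_eval₂RingHom, aeval_def]
  congr 1
  refine RingHom.ext fun c => ?_
  rw [algebraMap_laurentSeries_eq_single, HahnSeries.C_apply]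

theorem gev_eq_bEval (K : Type*) [Field K] (P : K[X][X]) : gev K N P = bEval K N P := by
  have h : gev K N = bEval K N := by
    refine Polynomial.ringHom_ext (fun a => ?_) ?_
    · rw [gev_C, bEval_C, gevC_eq_aeval]
    · rw [gev_X, bEval_X]
  rw [h]

theorem gevC_ne_zero (K : Type*) [Field K] {Q : K[X]} (hQ : Q ≠ 0) : gevC K Q ≠ 0 := by
  rw [gevC_eq_aeval]
  simpa [qExpand_one_apply] using (qExpand_jqModC_transcendental K 1 Q hQ).1

end Eval

variable {L : Type*} [Field L] (A : ValuationSubring L)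
variable {k : Type*} [Field k] (π : A →+* k) (N : ℕ) [NeZero N]

theorem gevC_ne_zero_of_map {Q : A[X]} (hQ : Q.map π ≠ 0) :
    coeffMap A.subtype (gevC A Q) ≠ 0 := by
  intro h
  rw [coeffMap_gevC] at h
  by_cases hQ' : Q.map A.subtype = 0
  · rw [Polynomial.map_eq_zero_iff A.subtype_injective] at hQ'
    exact hQ (by rw [hQ', Polynomial.map_zero])
  · exact gevC_ne_zero L hQ' h

/-- `x` is `P(j, j(q^N)) / Q(j)` with `A`-integral `P`, `Q` and `Q` nonzero after reduction. -/
def IsGaussRep (x : LaurentSeries L) (P : A[X][X]) (Q : A[X]) : Prop :=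
  Q.map π ≠ 0 ∧ x * coeffMap A.subtype (gevC A Q) = coeffMap A.subtype (gev A N P)

variable {A π N}

theorem IsGaussRep.mul {x y : LaurentSeries L} {P P' : A[X][X]} {Q Q' : A[X]}
    (h : IsGaussRep A π N x P Q) (h' : IsGaussRep A π N y P' Q') :
    IsGaussRep A π N (x * y) (P * P') (Q * Q') := by
  refine ⟨by rw [Polynomial.map_mul]; exact mul_ne_zero h.1 h'.1, ?_⟩
  rw [map_mul, map_mul, map_mul, map_mul, ← h.2, ← h'.2]
  ring

theorem IsGaussRep.add {x y : LaurentSeries L} {P P' : A[X][X]} {Q Q' : A[X]}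
    (h : IsGaussRep A π N x P Q) (h' : IsGaussRep A π N y P' Q') :
    IsGaussRep A π N (x + y) (P * C Q' + P' * C Q) (Q * Q') := by
  refine ⟨by rw [Polynomial.map_mul]; exact mul_ne_zero h.1 h'.1, ?_⟩
  simp only [map_add, map_mul, gev_C, ← h.2, ← h'.2]
  ring

theorem IsGaussRep.neg {x : LaurentSeries L} {P : A[X][X]} {Q : A[X]}
    (h : IsGaussRep A π N x P Q) : IsGaussRep A π N (-x) (-P) Q :=
  ⟨h.1, by rw [map_neg, map_neg, ← h.2, neg_mul]⟩

variable (A π N)

theorem isGaussRep_gev (P : A[X][X]) : IsGaussRep A π N (coeffMap A.subtype (gev A N P)) P 1 :=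
  ⟨by rw [Polynomial.map_one]; exact one_ne_zero, by rw [map_one, map_one, mul_one]⟩

/-- The Gauss valuation ring. -/
def gaussRing : Subring (LaurentSeries L) where
  carrier := {x | ∃ P Q, IsGaussRep A π N x P Q}
  one_mem' := ⟨1, 1, by simpa using isGaussRep_gev A π N 1⟩
  zero_mem' := ⟨0, 1, by simpa using isGaussRep_gev A π N 0⟩
  mul_mem' := fun ⟨_, _, h⟩ ⟨_, _, h'⟩ => ⟨_, _, h.mul h'⟩
  add_mem' := fun ⟨_, _, h⟩ ⟨_, _, h'⟩ => ⟨_, _, h.add h'⟩
  neg_mem' := fun ⟨_, _, h⟩ => ⟨_, _, h.neg⟩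

variable {A π N}

/-- Reduction, as a function. -/
def gaussRedFun (x : gaussRing A π N) : LaurentSeries k :=
  coeffMap π (gev A N x.2.choose) / coeffMap π (gevC A x.2.choose_spec.choose)

theorem gevC_red_ne_zero {Q : A[X]} (hQ : Q.map π ≠ 0) : coeffMap π (gevC A Q) ≠ 0 := by
  rw [coeffMap_gevC]; exact gevC_ne_zero k hQ

theorem gaussRedFun_eq (x : gaussRing A π N) {P : A[X][X]} {Q : A[X]}
    (h : IsGaussRep A π N x P Q) :
    gaussRedFun x = coeffMap π (gev A N P) / coeffMap π (gevC A Q) := by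
  have h₀ := x.2.choose_spec.choose_spec
  rw [gaussRedFun, div_eq_div_iff (gevC_red_ne_zero h₀.1) (gevC_red_ne_zero h.1), ← map_mul,
    ← map_mul]
  congr 1
  apply coeffMap_injective A.subtype_injective
  rw [map_mul, map_mul, ← h.2, ← h₀.2]
  ring

variable (A π N)

/-- Reduction modulo the maximal ideal of `A`. -/
def gaussRed : gaussRing A π N →+* LaurentSeries k where
  toFun := gaussRedFun
  map_one' := by
    rw [gaussRedFun_eq 1 (P := 1) (Q := 1) (by simpa using isGaussRep_gev A π N 1)]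
    simp
  map_zero' := by
    rw [gaussRedFun_eq 0 (P := 0) (Q := 1) (by simpa using isGaussRep_gev A π N 0)]
    simp
  map_mul' x y := by
    obtain ⟨P, Q, h⟩ := x.2
    obtain ⟨P', Q', h'⟩ := y.2
    rw [gaussRedFun_eq (x * y) (h.mul h'), gaussRedFun_eq x h, gaussRedFun_eq y h', map_mul,
      map_mul, map_mul, map_mul, div_mul_div_comm]
  map_add' x y := by
    obtain ⟨P, Q, h⟩ := x.2
    obtain ⟨P', Q', h'⟩ := y.2
    rw [gaussRedFun_eq (x + y) (h.add h'), gaussRedFun_eq x h, gaussRedFun_eq y h',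
      div_add_div _ _ (gevC_red_ne_zero h.1) (gevC_red_ne_zero h'.1)]
    simp only [map_add, map_mul, gev_C]
    ring

theorem gaussRed_eq (x : gaussRing A π N) {P : A[X][X]} {Q : A[X]}
    (h : IsGaussRep A π N x P Q) :
    gaussRed A π N x = coeffMap π (gev A N P) / coeffMap π (gevC A Q) := gaussRedFun_eq x h

theorem gev_mem_gaussRing (P : A[X][X]) : coeffMap A.subtype (gev A N P) ∈ gaussRing A π N :=
  ⟨P, 1, isGaussRep_gev A π N P⟩

theorem gaussRed_gev (P : A[X][X]) :
    gaussRed A π N ⟨_, gev_mem_gaussRing A π N P⟩ = gev k N (P.map (mapRingHom π)) := by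
  rw [gaussRed_eq A π N ⟨_, gev_mem_gaussRing A π N P⟩ (isGaussRep_gev A π N P), map_one, map_one,
    div_one, coeffMap_gev]

theorem C_mem_gaussRing (a : A) : HahnSeries.C (a : L) ∈ gaussRing A π N := by
  have h := gev_mem_gaussRing A π N (C (C a))
  rwa [gev_C, gevC_C, coeffMap_C] at h

theorem gaussRed_C (a : A) :
    gaussRed A π N ⟨_, C_mem_gaussRing A π N a⟩ = HahnSeries.C (π a) := by
  have h := gaussRed_gev A π N (C (C a))
  simp only [Polynomial.map_C, coe_mapRingHom, gev_C, gevC_C, coeffMap_C] at h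
  exact h

theorem jqModC_mem_gaussRing : jqModC L ∈ gaussRing A π N := by
  have h := gev_mem_gaussRing A π N (C X)
  rwa [gev_C, gevC_X, coeffMap_jqModC] at h

theorem jqNModC_mem_gaussRing : jqNModC L N ∈ gaussRing A π N := by
  have h := gev_mem_gaussRing A π N X
  rwa [gev_X, coeffMap_jqNModC] at h

theorem gaussRing_le_field :
    gaussRing A π N ≤ (modularFunctionFieldC L N).toSubfield.toSubring := by
  rintro x ⟨P, Q, h⟩
  have hP : ∀ R : L[X][X], gev L N R ∈ modularFunctionFieldC L N := fun R => by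
    induction R using Polynomial.induction_on' with
    | add p q hp hq => rw [map_add]; exact add_mem hp hq
    | monomial n a =>
      rw [← C_mul_X_pow_eq_monomial, map_mul, map_pow, gev_X, gev_C, gevC_eq_aeval]
      refine mul_mem ?_ (pow_mem (jqNModC_mem L N) n)
      exact IntermediateField.adjoin_simple_le_iff.mpr (jqModC_mem L N)
        (IntermediateField.algebra_adjoin_le_adjoin L _ (aeval_mem_adjoin_singleton L _))
  show x ∈ modularFunctionFieldC L N
  rw [eq_div_of_mul_eq (gevC_ne_zero_of_map A π h.1) h.2, coeffMap_gevC, coeffMap_gev,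
    ← gev_C L N]
  exact div_mem (hP _) (hP _)

variable [Algebra ℚ L]

theorem exists_rep_field {x : LaurentSeries L} (hx : x ∈ modularFunctionFieldC L N) :
    ∃ (P : L[X][X]) (Q : L[X]), Q ≠ 0 ∧ P.natDegree < (CongruenceSubgroup.Gamma0 N).index ∧
      x * gevC L Q = gev L N P := by
  set M := modPolyK N L
  set n := (CongruenceSubgroup.Gamma0 N).index
  have hn : 0 < n := index_pos N
  have hMd : M.natDegree = n := natDegree_modPolyK N L
  have hMm : M.Monic := modPolyK_monic N L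
  have hM0 : gev L N M = 0 := by rw [gev_eq_bEval]; exact bEval_modPolyK N L
  -- reduce numerators modulo `Φ_N`
  suffices h : ∃ (P : L[X][X]) (Q : L[X]), Q ≠ 0 ∧ x * gevC L Q = gev L N P by
    obtain ⟨P, Q, hQ, h⟩ := h
    refine ⟨P %ₘ M, Q, hQ, ?_, ?_⟩
    · rw [← hMd]; exact natDegree_modByMonic_lt P hMm (fun h1 => by
        rw [h1, natDegree_one] at hMd; omega)
    · rw [h]
      conv_lhs => rw [← modByMonic_add_div P M]
      rw [map_add, map_mul, hM0, zero_mul, add_zero]
  obtain ⟨a, ha, b, hb, rfl⟩ := IntermediateField.mem_adjoin_iff_div.mp hx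
  have hrange : ∀ y ∈ Algebra.adjoin L ({jqModC L, jqNModC L N} : Set (LaurentSeries L)),
      ∃ P : L[X][X], gev L N P = y := by
    intro y hy
    induction hy using Algebra.adjoin_induction with
    | mem y hy =>
      rcases hy with rfl | rfl
      · exact ⟨C X, by rw [gev_C, gevC_X]⟩
      · exact ⟨X, gev_X L N⟩
    | algebraMap c => exact ⟨C (C c), by
        rw [gev_C, gevC_C, algebraMap_laurentSeries_eq_single, HahnSeries.C_apply]⟩
    | add y z _ _ hy hz =>
      obtain ⟨P, rfl⟩ := hy; obtain ⟨P', rfl⟩ := hz; exact ⟨P + P', map_add _ _ _⟩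
    | mul y z _ _ hy hz =>
      obtain ⟨P, rfl⟩ := hy; obtain ⟨P', rfl⟩ := hz; exact ⟨P * P', map_mul _ _ _⟩
  obtain ⟨Pa, rfl⟩ := hrange a ha
  obtain ⟨Pb, rfl⟩ := hrange b hb
  rcases eq_or_ne (gev L N Pb) 0 with h0 | h0
  · exact ⟨0, 1, one_ne_zero, by rw [h0, div_zero, zero_mul, map_zero]⟩
  -- `gev Pb` is integral over `L[j]`
  let : Algebra L[X] (LaurentSeries L) := (gevC L).toAlgebra
  have hint : IsIntegral L[X] (gev L N Pb) := by
    have hN : IsIntegral L[X] (jqNModC L N) := ⟨M, hMm, hM0⟩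
    have : gev L N Pb = aeval (jqNModC L N) Pb := rfl
    rw [this]
    exact IsIntegral.of_mem_of_fg _ hN.fg_adjoin_singleton _
      (aeval_mem_adjoin_singleton L[X] (jqNModC L N))
  set p := minpoly L[X] (gev L N Pb) with hp
  have hroot : p.eval₂ (gevC L) (gev L N Pb) = 0 := minpoly.aeval L[X] (gev L N Pb)
  have hc0 : p.coeff 0 ≠ 0 := by
    intro hc
    obtain ⟨q, hq⟩ := X_dvd_iff.mpr hc
    have hqr : q.eval₂ (gevC L) (gev L N Pb) = 0 := by
      rw [hq, eval₂_mul, eval₂_X] at hroot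
      exact (mul_eq_zero.mp hroot).resolve_left h0
    have hqm : q.Monic := by
      have := minpoly.monic hint
      rw [← hp, hq] at this
      exact Monic.of_mul_monic_left monic_X this
    have hdle := minpoly.min L[X] (gev L N Pb) hqm hqr
    rw [← hp, hq, degree_mul, degree_X, degree_eq_natDegree hqm.ne_zero] at hdle
    norm_cast at hdle
    omega
  -- `p(b) = b * (stuff) + c₀`
  have hsplit : gev L N Pb * (p.divX.eval₂ (gevC L) (gev L N Pb)) = - gevC L (p.coeff 0) := by
    have h1 := congrArg (eval₂ (gevC L) (gev L N Pb)) p.X_mul_divX_add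
    rw [eval₂_add, eval₂_mul, eval₂_X, eval₂_C, hroot] at h1
    linear_combination h1
  obtain ⟨S, hS⟩ : ∃ S : L[X][X], gev L N S = p.divX.eval₂ (gevC L) (gev L N Pb) := by
    refine ⟨p.divX.eval₂ C Pb, ?_⟩
    rw [hom_eval₂]
    congr 1
    exact RingHom.ext fun Q => gev_C L N Q
  refine ⟨-(Pa * S), p.coeff 0, hc0, ?_⟩
  rw [map_neg, map_mul, hS, div_mul_eq_mul_div, div_eq_iff h0]
  linear_combination gev L N Pa * hsplit

variable [hπ : Fact (Surjective π)]

omit [Algebra ℚ L] in
theorem isUnit_iff_of_surjective (a : A) : IsUnit a ↔ π a ≠ 0 := by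
  refine ⟨fun h => (h.map π).ne_zero, fun h => ?_⟩
  have hmax : (RingHom.ker π).IsMaximal := RingHom.ker_isMaximal_of_surjective π hπ.out
  by_contra hu
  exact h (RingHom.mem_ker.mp
    ((IsLocalRing.eq_maximalIdeal hmax).symm ▸ (IsLocalRing.mem_maximalIdeal a).mpr hu))

omit [Algebra ℚ L] hπ in
/-- Scaling a nonzero family to an integral family, primitive after reduction. -/
theorem exists_scale {P : L[X][X]} (hP : P ≠ 0) :
    ∃ (c : L) (P₀ : A[X][X]), c ≠ 0 ∧ P₀.map (mapRingHom π) ≠ 0 ∧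
      P = C (C c) * P₀.map (mapRingHom A.subtype) := by
  classical
  set s := P.support.sigma fun i => (P.coeff i).support
  have hs : s.Nonempty := by
    obtain ⟨i, hi⟩ := support_nonempty.mpr hP
    obtain ⟨j, hj⟩ := support_nonempty.mpr (mem_support_iff.mp hi)
    exact ⟨⟨i, j⟩, Finset.mem_sigma.mpr ⟨hi, hj⟩⟩
  obtain ⟨x₀, hx₀, hmax⟩ := Finset.exists_max_image s
    (fun x => A.valuation ((P.coeff x.1).coeff x.2)) hs
  set c := (P.coeff x₀.1).coeff x₀.2 with hc
  have hc0 : c ≠ 0 := mem_support_iff.mp (Finset.mem_sigma.mp hx₀).2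
  have hmem : ∀ i j, c⁻¹ * (P.coeff i).coeff j ∈ A := by
    intro i j
    rcases eq_or_ne ((P.coeff i).coeff j) 0 with h | h
    · rw [h, mul_zero]; exact zero_mem A
    · have hi : i ∈ P.support := mem_support_iff.mpr fun h' => h (by rw [h', coeff_zero])
      have hle := hmax ⟨i, j⟩ (Finset.mem_sigma.mpr ⟨hi, mem_support_iff.mpr h⟩)
      rw [← A.valuation_le_one_iff, map_mul, map_inv₀]
      have hv : 0 < A.valuation c := zero_lt_iff.mpr ((A.valuation).ne_zero_iff.mpr hc0)
      rw [inv_mul_le_iff₀ hv, mul_one]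
      exact hle
  set P' := C (C c⁻¹) * P with hP'
  have hl : P' ∈ lifts (mapRingHom A.subtype) := by
    refine (lifts_iff_coeff_lifts P').mpr fun i => ?_
    have h2 : P'.coeff i ∈ lifts A.subtype := (lifts_iff_coeff_lifts _).mpr fun j =>
      ⟨⟨_, hmem i j⟩, by simp [hP', coeff_C_mul]⟩
    exact h2
  obtain ⟨P₀, hP₀⟩ := hl
  rw [coe_mapRingHom] at hP₀
  refine ⟨c, P₀, hc0, fun h => ?_, ?_⟩
  · have h1 : ((P₀.coeff x₀.1).coeff x₀.2 : L) = 1 := by
      have := congrArg (fun R : L[X][X] => (R.coeff x₀.1).coeff x₀.2) hP₀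
      simp [hP', coeff_C_mul, ← hc, inv_mul_cancel₀ hc0] at this
      exact congrArg Subtype.val this
    have h2 := congrArg (fun R : k[X][X] => (R.coeff x₀.1).coeff x₀.2) h
    simp only [coeff_map, coe_mapRingHom, coeff_zero] at h2
    rw [show (P₀.coeff x₀.1).coeff x₀.2 = 1 from Subtype.ext h1, map_one] at h2
    exact one_ne_zero h2
  · rw [hP₀, hP', ← mul_assoc, ← C_mul, ← C_mul, mul_inv_cancel₀ hc0]
    simp

variable (ℓ : ℕ) [Fact ℓ.Prime] [CharP k ℓ] (hℓN : ¬ ℓ ∣ N)

include hℓN in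
omit [Algebra ℚ L] hπ in
theorem gev_red_ne_zero {P : A[X][X]} (hP : P.map (mapRingHom π) ≠ 0)
    (hd : P.natDegree < (CongruenceSubgroup.Gamma0 N).index) : coeffMap π (gev A N P) ≠ 0 := by
  rw [coeffMap_gev, gev_eq_bEval]
  exact fun h => hP (eq_zero_of_bEval_charP N ℓ hℓN k (natDegree_map_le.trans_lt hd) h)

include hℓN in
omit hπ in
/-- Every nonzero element of the function field is a constant times a unit. -/
theorem exists_eq_C_mul {x : LaurentSeries L} (hx : x ∈ modularFunctionFieldC L N) (hx0 : x ≠ 0) :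
    ∃ (c : L) (o : LaurentSeries L) (P : A[X][X]) (Q : A[X]) (h : IsGaussRep A π N o P Q),
      c ≠ 0 ∧ x = HahnSeries.C c * o ∧ P.natDegree < (CongruenceSubgroup.Gamma0 N).index ∧
      gaussRed A π N ⟨o, P, Q, h⟩ ≠ 0 := by
  obtain ⟨P, Q, hQ, hdeg, hPQ⟩ := exists_rep_field N hx
  have hP : P ≠ 0 := fun h => mul_ne_zero hx0 (gevC_ne_zero L hQ) (by rw [hPQ, h, map_zero])
  obtain ⟨d, P₀, hd, hP₀, rfl⟩ := exists_scale A π hP
  obtain ⟨e, Q₁, he, hQ₁, hQe⟩ := exists_scale A π (P := C Q) (by simpa using hQ)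
  have hinj : Injective (mapRingHom A.subtype : A[X] →+* L[X]) :=
    Polynomial.map_injective _ A.subtype_injective
  have hdeg₀ : P₀.natDegree < (CongruenceSubgroup.Gamma0 N).index := by
    rwa [natDegree_C_mul (by simpa using hd), natDegree_map_eq_of_injective hinj] at hdeg
  have hQ₁C : Q₁ = C (Q₁.coeff 0) := by
    refine eq_C_of_natDegree_eq_zero ?_
    have h := congrArg natDegree hQe
    rw [natDegree_C, natDegree_C_mul (by simpa using he),
      natDegree_map_eq_of_injective hinj] at h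
    exact h.symm
  set Q₀ := Q₁.coeff 0
  have hQ₀ : Q₀.map π ≠ 0 := fun h => hQ₁ (by rw [hQ₁C, Polynomial.map_C, coe_mapRingHom, h, C_0])
  set o := coeffMap A.subtype (gev A N P₀) / coeffMap A.subtype (gevC A Q₀) with ho
  have hrep : IsGaussRep A π N o P₀ Q₀ :=
    ⟨hQ₀, div_mul_cancel₀ _ (gevC_ne_zero_of_map A π hQ₀)⟩
  refine ⟨d / e, o, P₀, Q₀, hrep, div_ne_zero hd he, ?_, hdeg₀, ?_⟩
  · have hQeq : gevC L Q = HahnSeries.C e * coeffMap A.subtype (gevC A Q₀) := by
      rw [← gev_C L N Q, hQe, hQ₁C, map_mul, gev_C, gevC_C, ← coeffMap_gev, gev_C]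
    rw [map_mul, gev_C, gevC_C, ← coeffMap_gev, hQeq] at hPQ
    have hCe : (HahnSeries.C e : LaurentSeries L) ≠ 0 := by simpa using he
    have hne := gevC_ne_zero_of_map A π hQ₀
    rw [ho, map_div₀]
    field_simp
    linear_combination hPQ
  · rw [gaussRed_eq A π N ⟨o, _, _, hrep⟩ hrep]
    exact div_ne_zero (gev_red_ne_zero A π N ℓ hℓN hP₀ hdeg₀) (gevC_red_ne_zero hQ₀)

omit [Algebra ℚ L] [Fact ℓ.Prime] [CharP k ℓ] in
/-- If a product of a constant and a unit of the Gauss ring is integral, so is the constant. -/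
theorem mem_of_red_ne_zero {c : L} {o y : gaussRing A π N}
    (h : (y : LaurentSeries L) = HahnSeries.C c * (o : LaurentSeries L)) (ho : gaussRed A π N o ≠ 0) : c ∈ A := by
  rcases eq_or_ne c 0 with rfl | hc0
  · exact zero_mem A
  rcases A.mem_or_inv_mem c with hc | hc
  · exact hc
  have h' : (o : LaurentSeries L) = HahnSeries.C c⁻¹ * (y : LaurentSeries L) := by
    rw [h, ← mul_assoc, ← map_mul, inv_mul_cancel₀ hc0, map_one, one_mul]
  have h2 : o = ⟨_, C_mem_gaussRing A π N ⟨c⁻¹, hc⟩⟩ * y := Subtype.ext h'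
  have hu : IsUnit (⟨c⁻¹, hc⟩ : A) := (isUnit_iff_of_surjective A π _).mpr fun h0 => ho (by
    rw [h2, map_mul, gaussRed_C, h0, map_zero, zero_mul])
  obtain ⟨v, hv⟩ := hu.exists_right_inv
  have : (v : L) = c := by
    have := congrArg Subtype.val hv
    simpa [inv_mul_eq_iff_eq_mul₀ hc0] using this
  exact this ▸ v.2

include hℓN in
/-- The Gauss ring is a valuation ring of the function field. -/
theorem mem_or_inv_mem_gaussRing {x : LaurentSeries L} (hx : x ∈ modularFunctionFieldC L N) :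
    x ∈ gaussRing A π N ∨ x⁻¹ ∈ gaussRing A π N := by
  rcases eq_or_ne x 0 with rfl | hx0
  · exact Or.inl (zero_mem _)
  obtain ⟨c, o, P, Q, hrep, hc, rfl, -, hred⟩ := exists_eq_C_mul A π N ℓ hℓN hx hx0
  have ho : o ∈ gaussRing A π N := ⟨P, Q, hrep⟩
  rcases A.mem_or_inv_mem c with h | h
  · exact Or.inl (mul_mem (C_mem_gaussRing A π N ⟨c, h⟩) ho)
  refine Or.inr ?_
  rw [mul_inv, ← map_inv₀]
  refine mul_mem (C_mem_gaussRing A π N ⟨c⁻¹, h⟩) ?_
  have ho0 : o ≠ 0 := right_ne_zero_of_mul hx0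
  have hoF := gaussRing_le_field A π N ho
  obtain ⟨e, o', P', Q', hrep', he, heq, -, hred'⟩ :=
    exists_eq_C_mul A π N ℓ hℓN (inv_mem hoF) (inv_ne_zero ho0)
  have ho' : o' ∈ gaussRing A π N := ⟨P', Q', hrep'⟩
  rw [heq]
  refine mul_mem (C_mem_gaussRing A π N ⟨e, ?_⟩) ho'
  refine mem_of_red_ne_zero A π N (c := e) (o := ⟨o, ho⟩ * ⟨o', ho'⟩) (y := 1) ?_ ?_
  · show (1 : LaurentSeries L) = _ * (o * o')
    rw [mul_left_comm, ← heq, mul_inv_cancel₀ ho0]
  · rw [map_mul]; exact mul_ne_zero hred hred'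

include hℓN in
/-- A function with integral expansion lies in the Gauss ring, with the expected reduction. -/
theorem coeffMap_mem_gaussRing {y : LaurentSeries A}
    (hy : coeffMap A.subtype y ∈ modularFunctionFieldC L N) :
    ∃ h : coeffMap A.subtype y ∈ gaussRing A π N,
      gaussRed A π N ⟨_, h⟩ = coeffMap π y := by
  have key : ∀ (z : LaurentSeries A) (h : coeffMap A.subtype z ∈ gaussRing A π N),
      gaussRed A π N ⟨_, h⟩ = coeffMap π z := by
    intro z h
    obtain ⟨P, Q, hrep⟩ := id h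
    rw [gaussRed_eq A π N ⟨_, h⟩ hrep, div_eq_iff (gevC_red_ne_zero hrep.1), ← map_mul]
    congr 1
    apply coeffMap_injective A.subtype_injective
    rw [map_mul]
    exact hrep.2.symm
  suffices h : coeffMap A.subtype y ∈ gaussRing A π N from ⟨h, key y h⟩
  rcases eq_or_ne (coeffMap A.subtype y) 0 with h0 | h0
  · rw [h0]; exact zero_mem _
  obtain ⟨c, o, P, Q, hrep, hc, heq, -, hred⟩ := exists_eq_C_mul A π N ℓ hℓN hy h0
  have ho : o ∈ gaussRing A π N := ⟨P, Q, hrep⟩
  rw [heq]
  rcases A.mem_or_inv_mem c with hca | hca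
  · exact mul_mem (C_mem_gaussRing A π N ⟨c, hca⟩) ho
  have ho2 : o = coeffMap A.subtype (HahnSeries.C (⟨c⁻¹, hca⟩ : A) * y) := by
    rw [map_mul, coeffMap_C, heq, ← mul_assoc, ← map_mul]
    show o = HahnSeries.C (c⁻¹ * c) * o
    rw [inv_mul_cancel₀ hc, map_one, one_mul]
  have hm : coeffMap A.subtype (HahnSeries.C (⟨c⁻¹, hca⟩ : A) * y) ∈ gaussRing A π N := ho2 ▸ ho
  have hu : IsUnit (⟨c⁻¹, hca⟩ : A) := (isUnit_iff_of_surjective A π _).mpr fun h0' => hred (by
    have := key _ hm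
    rw [map_mul (coeffMap π), coeffMap_C π, h0', map_zero, zero_mul] at this
    exact (congrArg _ (Subtype.ext ho2)).trans this)
  obtain ⟨v, hv⟩ := hu.exists_right_inv
  have hv' : (v : L) = c := by
    have := congrArg Subtype.val hv
    simpa [inv_mul_eq_iff_eq_mul₀ hc] using this
  exact mul_mem (C_mem_gaussRing A π N ⟨c, hv' ▸ v.2⟩) ho

include hℓN in
/-- The Gauss ring is integrally closed in the function field. -/
theorem mem_gaussRing_of_isIntegral {x : LaurentSeries L}
    (hx : x ∈ modularFunctionFieldC L N) {S : Type*} [CommRing S] (f : S →+* LaurentSeries L)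
    (hf : ∀ s, f s ∈ gaussRing A π N) {p : S[X]} (hp : p.Monic) (hpx : p.eval₂ f x = 0) :
    x ∈ gaussRing A π N := by
  rcases mem_or_inv_mem_gaussRing A π N ℓ hℓN hx with h | h
  · exact h
  rcases eq_or_ne x 0 with rfl | hx0
  · exact zero_mem _
  rcases Nat.eq_zero_or_pos p.natDegree with hd | hd
  · rw [hp.natDegree_eq_zero.mp hd, eval₂_one] at hpx
    exact absurd hpx one_ne_zero
  have h1 : x ^ p.natDegree = -∑ i ∈ Finset.range p.natDegree, f (p.coeff i) * x ^ i := by
    rw [eval₂_eq_sum_range, Finset.sum_range_succ, hp.coeff_natDegree, map_one, one_mul] at hpx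
    linear_combination hpx
  have h2 : x = -∑ i ∈ Finset.range p.natDegree, f (p.coeff i) * (x⁻¹) ^ (p.natDegree - 1 - i) := by
    conv_lhs =>
      rw [show x = x ^ p.natDegree * (x⁻¹) ^ (p.natDegree - 1) by
        obtain ⟨m, hm⟩ : ∃ m, p.natDegree = m + 1 := ⟨p.natDegree - 1, by omega⟩
        rw [hm, Nat.add_sub_cancel, pow_succ, mul_comm, ← mul_assoc, ← mul_pow,
          inv_mul_cancel₀ hx0, one_pow, one_mul]]
    rw [h1, neg_mul, Finset.sum_mul]
    congr 1
    refine Finset.sum_congr rfl fun i hi => ?_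
    rw [mul_assoc]
    congr 1
    have hi' : i < p.natDegree := Finset.mem_range.mp hi
    obtain ⟨m, hm⟩ : ∃ m, p.natDegree - 1 = i + m := ⟨p.natDegree - 1 - i, by omega⟩
    rw [hm, pow_add, ← mul_assoc, ← mul_pow, mul_inv_cancel₀ hx0, one_pow, one_mul,
      Nat.add_sub_cancel_left]
  rw [h2]
  exact neg_mem (sum_mem fun i _ => mul_mem (hf _) (pow_mem h _))

end FermatAgent.Igusa

end
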