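import Fermat.Agent.Igusa.Gauss

/-!
# Saturation of the integral closures of `A[j]` and `A[1/j]` in the function field
-/

set_option autoImplicit false

noncomputable section

open Function Polynomial

namespace FermatAgent.Igusa

open FermatAgent.ModFun ModularCurve

variable {L : Type*} [Field L] [Algebra ℚ L] (A : ValuationSubring L)
variable {k : Type*} [Field k] (π : A →+* k) (N : ℕ) [NeZero N] [hπ : Fact (Surjective π)]
variable (ℓ : ℕ) [Fact ℓ.Prime] [CharP k ℓ] (hℓN : ¬ ℓ ∣ N)

include hℓN in
/-- Normal form of elements of the Gauss ring. -/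
theorem exists_normalForm {y : LaurentSeries L} (hy : y ∈ gaussRing A π N) :
    ∃ (P : A[X][X]) (Q : A[X]), IsGaussRep A π N y P Q ∧
      P.natDegree < (CongruenceSubgroup.Gamma0 N).index := by
  rcases eq_or_ne y 0 with rfl | hy0
  · exact ⟨0, 1, ⟨by rw [Polynomial.map_one]; exact one_ne_zero, by simp⟩,
      by rw [natDegree_zero]; exact index_pos N⟩
  obtain ⟨c, o, P, Q, hrep, -, heq, hdeg, hred⟩ :=
    exists_eq_C_mul A π N ℓ hℓN (gaussRing_le_field A π N hy) hy0
  have hc : c ∈ A :=
    mem_of_red_ne_zero A π N (c := c) (o := ⟨o, P, Q, hrep⟩) (y := ⟨y, hy⟩) heq hred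
  refine ⟨C (C (⟨c, hc⟩ : A)) * P, Q, ⟨hrep.1, ?_⟩, (natDegree_C_mul_le _ _).trans_lt hdeg⟩
  rw [map_mul, gev_C, gevC_C, map_mul, coeffMap_C, ← hrep.2, heq]
  show HahnSeries.C c * o * _ = HahnSeries.C c * (o * _)
  ring

include hℓN in
/-- Every element of the Gauss ring satisfies an `A[j]`-polynomial with leading coefficient
nonzero after reduction. -/
theorem exists_integral_relation {y : LaurentSeries L} (hy : y ∈ gaussRing A π N) :
    ∃ G : A[X][X], G.leadingCoeff.map π ≠ 0 ∧
      G.eval₂ ((coeffMap A.subtype).comp (gevC A)) y = 0 := by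
  classical
  set n := (CongruenceSubgroup.Gamma0 N).index with hn_def
  have hn : 0 < n := index_pos N
  set ι : LaurentSeries A →+* LaurentSeries L := coeffMap A.subtype
  set θ := jqNModC L N with hθ
  have hmem : ∀ i : Fin n, y * θ ^ (i : ℕ) ∈ gaussRing A π N := fun i =>
    mul_mem hy (pow_mem (jqNModC_mem_gaussRing A π N) _)
  choose P Q hrep hdeg using fun i => exists_normalForm A π N ℓ hℓN (hmem i)
  set D : A[X] := ∏ i, Q i with hD
  set M : Matrix (Fin n) (Fin n) A[X] :=
    fun i l => (P i).coeff (l : ℕ) * ∏ r ∈ Finset.univ.erase i, Q r with hM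
  have hrow : ∀ i : Fin n,
      ι (gevC A D) * y * θ ^ (i : ℕ) = ∑ l : Fin n, ι (gevC A (M i l)) * θ ^ (l : ℕ) := by
    intro i
    have hsplit : D = Q i * ∏ r ∈ Finset.univ.erase i, Q r :=
      (Finset.mul_prod_erase _ _ (Finset.mem_univ i)).symm
    have hsum : ι (gev A N (P i)) = ∑ l : Fin n, ι (gevC A ((P i).coeff (l : ℕ))) * θ ^ (l : ℕ) := by
      conv_lhs => rw [(P i).as_sum_range_C_mul_X_pow' (hdeg i)]
      simp only [map_sum, map_mul, map_pow, gev_C, gev_X, ι, coeffMap_jqNModC, hθ]
      rw [Finset.sum_range]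
    calc ι (gevC A D) * y * θ ^ (i : ℕ)
        = (y * θ ^ (i : ℕ) * ι (gevC A (Q i))) *
            ι (gevC A (∏ r ∈ Finset.univ.erase i, Q r)) := by
          rw [hsplit, map_mul, map_mul]; ring
      _ = ι (gev A N (P i)) * ι (gevC A (∏ r ∈ Finset.univ.erase i, Q r)) := by rw [(hrep i).2]
      _ = _ := by
          rw [hsum, Finset.sum_mul]
          refine Finset.sum_congr rfl fun l _ => ?_
          rw [hM]; simp only [map_mul]; ring
  set f : A[X] →+* LaurentSeries L := ι.comp (gevC A) with hf
  have hdet : (M.charpoly.map f).eval (f D * y) = 0 := by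
    rw [← Matrix.charpoly_map, Matrix.eval_charpoly]
    refine Matrix.exists_mulVec_eq_zero_iff.mp ⟨fun l : Fin n => θ ^ (l : ℕ), fun h => ?_, ?_⟩
    · have := congrFun h ⟨0, hn⟩
      simp at this
    · funext i
      simp only [Matrix.mulVec, dotProduct, Matrix.sub_apply, sub_mul, Finset.sum_sub_distrib,
        Pi.zero_apply, sub_eq_zero]
      rw [Finset.sum_eq_single i (fun l _ hl => by simp [Matrix.scalar_apply, Ne.symm hl])
        (by simp)]
      simp only [Matrix.scalar_apply, Matrix.diagonal_apply_eq, Matrix.map_apply]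
      exact hrow i
  refine ⟨M.charpoly.comp (C D * X), ?_, ?_⟩
  · have hD0 : D.map π ≠ 0 := by
      rw [hD, Polynomial.map_prod]
      exact Finset.prod_ne_zero_iff.mpr fun i _ => (hrep i).1
    have hD1 : D ≠ 0 := fun h => hD0 (by rw [h, Polynomial.map_zero])
    rw [leadingCoeff_comp (by rw [natDegree_C_mul hD1, natDegree_X]; exact one_ne_zero),
      (Matrix.charpoly_monic M).leadingCoeff, one_mul, leadingCoeff_mul, leadingCoeff_C,
      leadingCoeff_X, mul_one, Polynomial.map_pow]
    exact pow_ne_zero _ hD0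
  · rw [eval₂_comp, eval₂_mul, eval₂_C, eval₂_X, ← eval_map]
    exact hdet

omit [Algebra ℚ L] in
/-- Gauss's lemma: a divisor over `L[X]` of a polynomial over `A[X]` with primitive leading
coefficient can be made monic over `A[X]`. -/
theorem exists_monic_of_dvd {p : L[X][X]} (hp : p.Monic) {G : A[X][X]}
    (hG : G.leadingCoeff.map π ≠ 0) (hdvd : p ∣ G.map (mapRingHom A.subtype)) :
    ∃ p' : A[X][X], p'.Monic ∧ p'.map (mapRingHom A.subtype) = p := by
  obtain ⟨H, hH⟩ := hdvd
  have hinj : Injective (mapRingHom A.subtype : A[X] →+* L[X]) :=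
    Polynomial.map_injective _ A.subtype_injective
  have hG0 : G ≠ 0 := fun h => hG (by simp [h])
  have hGred : G.map (mapRingHom π) ≠ 0 := fun h => hG (by
    simpa [coeff_map] using congrArg (fun q : k[X][X] => q.coeff G.natDegree) h)
  have hGdeg : (G.map (mapRingHom π)).natDegree = G.natDegree :=
    natDegree_map_of_leadingCoeff_ne_zero _ hG
  have hH0 : H ≠ 0 := fun h => hG0 (Polynomial.map_injective _ hinj (by simp [hH, h]))
  obtain ⟨a, p₀, ha, hp₀, rfl⟩ := exists_scale A π hp.ne_zero
  obtain ⟨b, H₀, hb, hH₀, rfl⟩ := exists_scale A π hH0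
  -- `Ḡ` is a nonzero multiple of `p̄₀ H̄₀`
  obtain ⟨u, hu, hred⟩ : ∃ u : k, u ≠ 0 ∧
      p₀.map (mapRingHom π) * H₀.map (mapRingHom π) = C (C u) * G.map (mapRingHom π) := by
    have hne : p₀.map (mapRingHom π) * H₀.map (mapRingHom π) ≠ 0 := mul_ne_zero hp₀ hH₀
    have hH' : G.map (mapRingHom A.subtype) =
        C (C (a * b)) * (p₀ * H₀).map (mapRingHom A.subtype) := by
      rw [hH, Polynomial.map_mul, C_mul, C_mul]; ring
    rcases A.mem_or_inv_mem (a * b) with hab | hab
    · have hG' : G = C (C (⟨a * b, hab⟩ : A)) * (p₀ * H₀) :=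
        Polynomial.map_injective _ hinj (by
          simp only [Polynomial.map_mul, Polynomial.map_C, coe_mapRingHom] at hH' ⊢
          exact hH')
      have hne' : π ⟨a * b, hab⟩ ≠ 0 := fun h => hGred (by
        rw [hG', Polynomial.map_mul, Polynomial.map_C, coe_mapRingHom, Polynomial.map_C, h, C_0,
          C_0, zero_mul])
      refine ⟨(π ⟨a * b, hab⟩)⁻¹, inv_ne_zero hne', ?_⟩
      rw [hG', Polynomial.map_mul, Polynomial.map_C, coe_mapRingHom, Polynomial.map_C, ← mul_assoc,
        ← C_mul, ← C_mul, inv_mul_cancel₀ hne', C_1, C_1, one_mul, Polynomial.map_mul]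
    · have hG' : C (C (⟨(a * b)⁻¹, hab⟩ : A)) * G = p₀ * H₀ :=
        Polynomial.map_injective _ hinj (by
          simp only [Polynomial.map_mul, Polynomial.map_C, coe_mapRingHom] at hH' ⊢
          rw [hH', ← mul_assoc, ← C_mul, ← C_mul]
          show C (C ((a * b)⁻¹ * (a * b))) * _ = _
          rw [inv_mul_cancel₀ (mul_ne_zero ha hb), C_1, C_1, one_mul])
      refine ⟨π ⟨(a * b)⁻¹, hab⟩, fun h => hne ?_, ?_⟩
      · rw [← Polynomial.map_mul, ← hG', Polynomial.map_mul, Polynomial.map_C, coe_mapRingHom,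
          Polynomial.map_C, h, C_0, C_0, zero_mul]
      · rw [← Polynomial.map_mul, ← hG', Polynomial.map_mul, Polynomial.map_C, coe_mapRingHom,
          Polynomial.map_C]
  -- degree count
  have hdegs : p₀.natDegree + H₀.natDegree = G.natDegree := by
    have := congrArg natDegree hH
    rwa [natDegree_map_eq_of_injective hinj,
      natDegree_mul hp.ne_zero hH0, natDegree_C_mul (by simpa using ha),
      natDegree_C_mul (by simpa using hb), natDegree_map_eq_of_injective hinj,
      natDegree_map_eq_of_injective hinj, eq_comm] at this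
  have hpdeg : (p₀.map (mapRingHom π)).natDegree = p₀.natDegree := by
    have h1 := congrArg natDegree hred
    rw [natDegree_mul hp₀ hH₀, natDegree_C_mul (by simpa using hu), hGdeg] at h1
    have h2 := natDegree_map_le (f := mapRingHom π) (p := p₀)
    have h3 := natDegree_map_le (f := mapRingHom π) (p := H₀)
    omega
  have hlead : p₀.leadingCoeff.map π ≠ 0 := by
    have h := leadingCoeff_ne_zero.mpr hp₀
    rwa [Polynomial.leadingCoeff, hpdeg, coeff_map, coe_mapRingHom] at h
  have hlead1 : C a * p₀.leadingCoeff.map A.subtype = 1 := by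
    have := hp.leadingCoeff
    rwa [leadingCoeff_mul, leadingCoeff_C, leadingCoeff_map_of_injective hinj,
      coe_mapRingHom] at this
  have hd : p₀.leadingCoeff.natDegree = 0 := by
    have := congrArg natDegree hlead1
    rwa [natDegree_C_mul ha, natDegree_map_eq_of_injective A.subtype_injective,
      natDegree_one] at this
  rw [eq_C_of_natDegree_eq_zero hd] at hlead hlead1
  set e := p₀.leadingCoeff.coeff 0 with he
  have hlead' : π e ≠ 0 := by simpa using hlead
  obtain ⟨v, hv⟩ := ((isUnit_iff_of_surjective A π e).mpr hlead').exists_right_inv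
  have hav : a = (v : L) := by
    rw [Polynomial.map_C, ← C_mul, ← C_1, C_inj] at hlead1
    have hv' : (e : L) * (v : L) = 1 := by simpa using congrArg Subtype.val hv
    calc a = a * ((e : L) * v) := by rw [hv', mul_one]
      _ = (a * A.subtype e) * v := by rw [mul_assoc]; rfl
      _ = v := by rw [hlead1, one_mul]
  refine ⟨C (C v) * p₀, ?_, ?_⟩
  · rw [Monic, leadingCoeff_mul, leadingCoeff_C, eq_C_of_natDegree_eq_zero hd, ← C_mul, ← he,
      mul_comm, hv, C_1]
  · simp only [Polynomial.map_mul, Polynomial.map_C, coe_mapRingHom]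
    rw [hav]
    rfl

/-- Evaluation of an `L`-polynomial at `t`. -/
def evalAt (t : LaurentSeries L) : L[X] →+* LaurentSeries L := eval₂RingHom HahnSeries.C t

/-- Evaluation of an `A`-polynomial at `t`. -/
def evalAtInt (t : LaurentSeries L) : A[X] →+* LaurentSeries L :=
  (evalAt t).comp (mapRingHom A.subtype)

/-- `t` is transcendental and integral relations in `j` can be rewritten in `t`. -/
structure IsChartVar (t : LaurentSeries L) : Prop where
  inj : Injective (evalAt t)
  mem : t ∈ gaussRing A π N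
  rewrite : ∀ (G : A[X][X]) (y : LaurentSeries L), G.leadingCoeff.map π ≠ 0 →
    G.eval₂ ((coeffMap A.subtype).comp (gevC A)) y = 0 →
    ∃ G' : A[X][X], G'.leadingCoeff.map π ≠ 0 ∧ G'.eval₂ (evalAtInt A t) y = 0

omit [Algebra ℚ L] in
theorem evalAt_jqModC : evalAt (jqModC L) = gevC L := rfl

omit hπ in
omit [Algebra ℚ L] in
theorem isChartVar_jqModC : IsChartVar A π N (jqModC L) where
  inj := (injective_iff_map_eq_zero _).mpr fun Q h => by
    by_contra hQ
    exact gevC_ne_zero L hQ h
  mem := jqModC_mem_gaussRing A π N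
  rewrite G y hG h := by
    refine ⟨G, hG, ?_⟩
    rw [← h]
    congr 1
    refine RingHom.ext fun Q => ?_
    rw [evalAtInt, evalAt_jqModC, RingHom.comp_apply, RingHom.comp_apply, coeffMap_gevC,
      coe_mapRingHom]

omit [Algebra ℚ L] in
theorem evalAt_reflect {t : LaurentSeries L} (ht : t ≠ 0) {m : ℕ} {Q : L[X]}
    (hQ : Q.natDegree ≤ m) : evalAt t⁻¹ (Q.reflect m) * t ^ m = evalAt t Q := by
  let _ : Invertible t := invertibleOfNonzero ht
  simpa [evalAt, invOf_eq_inv] using eval₂_reflect_mul_pow HahnSeries.C t m Q hQ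

include hℓN in
theorem isChartVar_inv : IsChartVar A π N (jqModC L)⁻¹ where
  inj := (injective_iff_map_eq_zero _).mpr fun Q h => by
    by_contra hQ
    have hj : jqModC L ≠ 0 := jqModC_ne_zero_of_nontrivial L
    have h2 := evalAt_reflect hj (m := Q.natDegree) (Q := Q.reflect Q.natDegree)
      (natDegree_reflect_le.trans (max_le le_rfl le_rfl))
    rw [reflect_reflect, h, zero_mul, evalAt_jqModC] at h2
    exact gevC_ne_zero L (by rwa [Ne, reflect_eq_zero_iff]) h2.symm
  mem := by
    have hy : coeffMap A.subtype (HahnSeries.single (1 : ℤ) 1 * HahnSeries.ofPowerSeries ℤ A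
        ((jNum.map (Int.castRingHom A)).invOfUnit 1)) = (jqModC L)⁻¹ := by
      refine eq_inv_of_mul_eq_one_left ?_
      rw [← coeffMap_jqModC A.subtype, ← map_mul, jqModC, mul_mul_mul_comm,
        HahnSeries.single_mul_single, ← map_mul,
        mul_comm _ (jNum.map (Int.castRingHom A)),
        PowerSeries.mul_invOfUnit _ 1 (by
          rw [← PowerSeries.coeff_zero_eq_constantCoeff, PowerSeries.coeff_map,
            PowerSeries.coeff_zero_eq_constantCoeff, constantCoeff_jNum, map_one, Units.val_one]),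
        map_one, mul_one, mul_one, add_neg_cancel, HahnSeries.single_zero_one, map_one]
    obtain ⟨h, -⟩ := coeffMap_mem_gaussRing A π N ℓ hℓN
      (hy ▸ inv_mem (jqModC_mem L N))
    exact hy ▸ h
  rewrite G y hG h := by
    classical
    set m := G.support.sup fun i => (G.coeff i).natDegree with hm
    have hle : ∀ i, (G.coeff i).natDegree ≤ m := fun i => by
      by_cases hi : i ∈ G.support
      · exact Finset.le_sup (f := fun i => (G.coeff i).natDegree) hi
      · simp [notMem_support_iff.mp hi]
    set G' : A[X][X] := ∑ i ∈ Finset.range (G.natDegree + 1), C ((G.coeff i).reflect m) * X ^ i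
      with hG'
    have hcoeff : G'.coeff G.natDegree = (G.coeff G.natDegree).reflect m := by
      simp [hG']
    have hne : ((G.coeff G.natDegree).reflect m).map π ≠ 0 := by
      rw [← reflect_map, Ne, reflect_eq_zero_iff]; exact hG
    have hdeg : G'.natDegree = G.natDegree := by
      refine le_antisymm ?_ (le_natDegree_of_ne_zero (fun h' => hne (by rw [← hcoeff, h', Polynomial.map_zero])))
      refine natDegree_sum_le_of_forall_le _ _ fun i hi => (natDegree_C_mul_X_pow_le _ _).trans ?_
      simp only [Finset.mem_range] at hi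
      omega
    refine ⟨G', by rw [Polynomial.leadingCoeff, hdeg, hcoeff]; exact hne, ?_⟩
    have hj : jqModC L ≠ 0 := jqModC_ne_zero_of_nontrivial L
    refine (mul_eq_zero.mp ?_).resolve_right (pow_ne_zero m hj)
    rw [← h, eval₂_finsetSum, Finset.sum_mul, eval₂_eq_sum_range]
    refine Finset.sum_congr rfl fun i _ => ?_
    rw [eval₂_mul, eval₂_C, eval₂_X_pow, mul_right_comm, evalAtInt, RingHom.comp_apply,
      coe_mapRingHom, ← reflect_map, evalAt_reflect hj (natDegree_map_le.trans (hle i)),
      evalAt_jqModC, RingHom.comp_apply, coeffMap_gevC]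

include hℓN in
/-- **Saturation**: if `x` is integral over `A[t]` and `x/c` lies in the Gauss ring then `x/c`
is integral over `A[t]`. -/
theorem exists_monic_root_div {t : LaurentSeries L} (ht : IsChartVar A π N t)
    {x : LaurentSeries L} {p : A[X][X]} (hp : p.Monic) (hpx : p.eval₂ (evalAtInt A t) x = 0)
    {c : L} (_hc : c ≠ 0) (hy : HahnSeries.C c⁻¹ * x ∈ gaussRing A π N) :
    ∃ p' : A[X][X], p'.Monic ∧ p'.eval₂ (evalAtInt A t) (HahnSeries.C c⁻¹ * x) = 0 := by
  set y := HahnSeries.C c⁻¹ * x with hy_def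
  obtain ⟨G, hG, hGy⟩ := exists_integral_relation A π N ℓ hℓN hy
  obtain ⟨G', hG', hG'y⟩ := ht.rewrite G y hG hGy
  let : Algebra L[X] (LaurentSeries L) := (evalAt t).toAlgebra
  have : Module.IsTorsionFree L[X] (LaurentSeries L) :=
    (faithfulSMul_iff_algebraMap_injective L[X] (LaurentSeries L)).mpr ht.inj |>.to_isTorsionFree
  have hint : IsIntegral L[X] y := by
    refine ⟨(p.map (mapRingHom A.subtype)).scaleRoots (C c⁻¹),
      (monic_scaleRoots_iff _).mpr (hp.map _), ?_⟩
    show eval₂ (evalAt t) y _ = 0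
    have : y = evalAt t (C c⁻¹) * x := by
      rw [hy_def]; simp [evalAt]
    rw [this, scaleRoots_eval₂_mul, eval₂_map]
    exact mul_eq_zero_of_right _ hpx
  have hdvd : minpoly L[X] y ∣ G'.map (mapRingHom A.subtype) :=
    minpoly.isIntegrallyClosed_dvd hint (by
      show eval₂ (evalAt t) y _ = 0
      rw [eval₂_map]; exact hG'y)
  obtain ⟨p', hp', hmap⟩ := exists_monic_of_dvd A π (minpoly.monic hint) hG' hdvd
  refine ⟨p', hp', ?_⟩
  rw [evalAtInt, ← eval₂_map, hmap]
  exact minpoly.aeval L[X] y

end FermatAgent.Igusa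

end
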