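import Fermat.Agent.Igusa.Saturation
import Fermat.Prelude.Def_ModularCurve_IgusaScheme

/-!
# Reduction of the chart algebras of the Igusa model over `ℤ_(ℓ)`
-/

set_option autoImplicit false

noncomputable section

open Function Polynomial TensorProduct

namespace FermatAgent.Igusa

open FermatAgent.ModFun ModularCurve ModularCurve.IgusaScheme
open GaloisRep (ratLocalizedAt)

variable (N : ℕ) [NeZero N] (ℓ : ℕ) [Fact ℓ.Prime]

/-- `ℤ_(ℓ)` as a valuation subring of `ℚ`. -/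
def zlVal : ValuationSubring ℚ where
  toSubring := ratLocalizedAt ℓ
  mem_or_inv_mem' q := by
    by_cases h : q.den.Coprime ℓ
    · exact Or.inl h
    right
    have hl := (Fact.out : ℓ.Prime)
    have hd : ℓ ∣ q.den := by
      by_contra h'
      exact h (Nat.coprime_comm.mp ((hl.coprime_iff_not_dvd).mpr h'))
    show q⁻¹.den.Coprime ℓ
    rw [Rat.den_inv]
    split_ifs with h0
    · simp
    · rw [Nat.coprime_comm, hl.coprime_iff_not_dvd]
      intro h'
      exact hl.one_lt.ne' (Nat.eq_one_of_dvd_coprimes q.reduced h' hd)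

theorem mem_zlVal {q : ℚ} : q ∈ zlVal ℓ ↔ q.den.Coprime ℓ := Iff.rfl

theorem den_cast_ne_zero (a : zlVal ℓ) : (((a : ℚ).den : ℕ) : ZMod ℓ) ≠ 0 := by
  rw [Ne, ZMod.natCast_eq_zero_iff, ← (Fact.out : ℓ.Prime).coprime_iff_not_dvd, Nat.coprime_comm]
  exact a.2

/-- Reduction `ℤ_(ℓ) → 𝔽_ℓ`. -/
def zlRes : zlVal ℓ →+* ZMod ℓ where
  toFun a := ((a : ℚ) : ZMod ℓ)
  map_one' := by simp
  map_zero' := by simp
  map_mul' a b := by
    simp only [MulMemClass.coe_mul]
    exact Rat.cast_mul_of_ne_zero (den_cast_ne_zero ℓ a) (den_cast_ne_zero ℓ b)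
  map_add' a b := by
    simp only [AddMemClass.coe_add]
    exact Rat.cast_add_of_ne_zero (den_cast_ne_zero ℓ a) (den_cast_ne_zero ℓ b)

instance fact_zlRes_surjective : Fact (Surjective (zlRes ℓ)) :=
  ⟨fun x => ⟨(x.val : zlVal ℓ), by rw [map_natCast, ZMod.natCast_val, ZMod.cast_id', id]⟩⟩

/-- The identity, from `zlVal ℓ` to `ratLocalizedAt ℓ`. -/
def zlCast : zlVal ℓ →+* ratLocalizedAt ℓ :=
  (zlVal ℓ).subtype.codRestrict (ratLocalizedAt ℓ) fun a => a.2

/-- The identity, from `ratLocalizedAt ℓ` to `zlVal ℓ`. -/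
def zlCast' : ratLocalizedAt ℓ →+* zlVal ℓ :=
  (ratLocalizedAt ℓ).subtype.codRestrict (zlVal ℓ).toSubring fun a => a.2

theorem exists_eq_mul_of_zlRes_eq_zero {a : zlVal ℓ} (h : zlRes ℓ a = 0) :
    ∃ b : zlVal ℓ, a = (ℓ : zlVal ℓ) * b := by
  have hu : ¬ IsUnit (zlCast ℓ a) := fun hu => by
    have : IsUnit a := hu.map (zlCast' ℓ)
    exact (isUnit_iff_of_surjective (zlVal ℓ) (zlRes ℓ) a).mp this h
  obtain ⟨b, hb⟩ := exists_eq_natCast_mul_of_not_isUnit ℓ hu
  refine ⟨zlCast' ℓ b, ?_⟩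
  have := congrArg (zlCast' ℓ) hb
  rw [map_mul, map_natCast] at this
  exact this

variable {N ℓ}

theorem full_le_fieldC (x : modularFunctionFieldFull N) :
    (x : LaurentSeries ℚ) ∈ modularFunctionFieldC ℚ N := by
  rw [modularFunctionFieldC_rat, ← modularFunctionFieldFull_eq]
  exact x.2

variable (N ℓ)

/-- The inclusion of the function field into Laurent series. -/
def fieldCoe : modularFunctionFieldFull N →+* LaurentSeries ℚ :=
  (modularFunctionFieldFull N).toSubfield.subtype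

omit [NeZero N] in
theorem fieldCoe_apply (x : modularFunctionFieldFull N) : fieldCoe N x = (x : LaurentSeries ℚ) := rfl

omit [NeZero N] [Fact (Nat.Prime ℓ)] in
theorem fieldCoe_algebraMap_zl (a : ratLocalizedAt ℓ) :
    fieldCoe N (algebraMap (ratLocalizedAt ℓ) (modularFunctionFieldFull N) a) =
      HahnSeries.C (a : ℚ) := by
  rw [RingHom.algebraMap_toAlgebra, RingHom.comp_apply, ← RingHom.comp_apply (fieldCoe N)]
  exact RingHom.congr_fun (Subsingleton.elim _ _) _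

/-- Evaluation at `s` in the function field. -/
def evalField (s : modularFunctionFieldFull N) :
    (zlVal ℓ)[X] →+* modularFunctionFieldFull N :=
  eval₂RingHom ((algebraMap (ratLocalizedAt ℓ) (modularFunctionFieldFull N)).comp (zlCast ℓ)) s

omit [NeZero N] in
theorem coe_evalField (s : modularFunctionFieldFull N) :
    (fieldCoe N).comp (evalField N ℓ s) =
      evalAtInt (zlVal ℓ) (s : LaurentSeries ℚ) := by
  refine Polynomial.ringHom_ext (fun a => ?_) ?_
  · simp only [RingHom.comp_apply, evalField, coe_eval₂RingHom, eval₂_C, evalAtInt, evalAt,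
      coe_mapRingHom, Polynomial.map_C]
    exact fieldCoe_algebraMap_zl N ℓ (zlCast ℓ a)
  · simp [evalField, evalAtInt, evalAt, fieldCoe_apply]

/-- An element of a chart algebra is a root of a monic polynomial over `ℤ_(ℓ)[s]`. -/
theorem exists_monic_root_of_mem_chartAlg {s x : modularFunctionFieldFull N}
    (hx : x ∈ chartAlg N ℓ {s}) :
    ∃ p : (zlVal ℓ)[X][X], p.Monic ∧
      p.eval₂ (evalAtInt (zlVal ℓ) (s : LaurentSeries ℚ)) (x : LaurentSeries ℚ) = 0 := by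
  obtain ⟨q, hqm, hq⟩ := (mem_chartAlg_iff N ℓ).mp hx
  have hl : q.map (algebraMap (Algebra.adjoin (ratLocalizedAt ℓ) {s})
      (modularFunctionFieldFull N)) ∈ lifts (evalField N ℓ s) := by
    refine (lifts_iff_coeff_lifts _).mpr fun i => ?_
    rw [coeff_map]
    obtain ⟨g, hg⟩ : ∃ g : (ratLocalizedAt ℓ)[X], aeval s g = (q.coeff i : modularFunctionFieldFull N) := by
      have h : (q.coeff i : modularFunctionFieldFull N) ∈ (aeval (R := ratLocalizedAt ℓ) s).range := by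
        rw [← Algebra.adjoin_singleton_eq_range_aeval]
        exact (q.coeff i).2
      exact h
    refine ⟨g.map (zlCast' ℓ), ?_⟩
    rw [evalField, coe_eval₂RingHom, eval₂_map]
    exact hg
  obtain ⟨p, hp, -, hpm⟩ := lifts_and_natDegree_eq_and_monic hl (hqm.map _)
  refine ⟨p, hpm, ?_⟩
  have h0 : p.eval₂ (evalField N ℓ s) x = 0 := by
    rw [eval₂_eq_eval_map, hp, eval_map]; exact hq
  have := congrArg (fieldCoe N) h0
  rw [hom_eval₂, coe_evalField, map_zero] at this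
  exact this

theorem mem_chartAlg_of_monic_root {s x : modularFunctionFieldFull N} {p : (zlVal ℓ)[X][X]}
    (hp : p.Monic) (hroot : p.eval₂ (evalAtInt (zlVal ℓ) (s : LaurentSeries ℚ)) (x : LaurentSeries ℚ) = 0) :
    x ∈ chartAlg N ℓ {s} := by
  have hmem : ∀ Q, evalField N ℓ s Q ∈ Algebra.adjoin (ratLocalizedAt ℓ) {s} := fun Q => by
    rw [Algebra.adjoin_singleton_eq_range_aeval]
    refine ⟨Q.map (zlCast ℓ), ?_⟩
    show aeval s _ = _
    rw [aeval_def, eval₂_map]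
    rfl
  refine (mem_chartAlg_iff N ℓ).mpr
    ⟨p.map ((evalField N ℓ s).codRestrict (Algebra.adjoin (ratLocalizedAt ℓ) {s}).toSubring hmem),
      hp.map _, ?_⟩
  rw [eval₂_map]
  apply Subtype.ext
  have h := hom_eval₂ p (evalField N ℓ s) (fieldCoe N) x
  rw [coe_evalField] at h
  exact h.trans hroot

variable (s : modularFunctionFieldFull N) (hℓN : ¬ ℓ ∣ N)

include hℓN

theorem chartVar_mem_gauss (hs : IsChartVar (zlVal ℓ) (zlRes ℓ) N (s : LaurentSeries ℚ))
    (x : chartAlg N ℓ {s}) :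
    ((x : modularFunctionFieldFull N) : LaurentSeries ℚ) ∈ gaussRing (zlVal ℓ) (zlRes ℓ) N := by
  obtain ⟨p, hp, hroot⟩ := exists_monic_root_of_mem_chartAlg N ℓ x.2
  refine mem_gaussRing_of_isIntegral (zlVal ℓ) (zlRes ℓ) N ℓ hℓN (full_le_fieldC _)
    (evalAtInt (zlVal ℓ) (s : LaurentSeries ℚ)) (fun Q => ?_) hp hroot
  induction Q using Polynomial.induction_on' with
  | add a b ha hb => rw [map_add]; exact add_mem ha hb
  | monomial n a =>
    rw [evalAtInt, RingHom.comp_apply, coe_mapRingHom, map_monomial, evalAt, coe_eval₂RingHom,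
      eval₂_monomial]
    exact mul_mem (C_mem_gaussRing _ _ N a) (pow_mem hs.mem _)

/-- The reduction map of a chart algebra into `𝔽_ℓ((q))`. -/
def chartRed (hs : IsChartVar (zlVal ℓ) (zlRes ℓ) N (s : LaurentSeries ℚ)) :
    chartAlg N ℓ {s} →+* LaurentSeries (ZMod ℓ) :=
  (gaussRed (zlVal ℓ) (zlRes ℓ) N).comp
    (((fieldCoe N).comp (chartAlg N ℓ {s}).val.toRingHom).codRestrict
      _ (chartVar_mem_gauss N ℓ s hℓN hs))

theorem chartRed_algebraMap (hs : IsChartVar (zlVal ℓ) (zlRes ℓ) N (s : LaurentSeries ℚ))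
    (a : ratLocalizedAt ℓ) :
    chartRed N ℓ s hℓN hs (algebraMap (ratLocalizedAt ℓ) (chartAlg N ℓ {s}) a) =
      HahnSeries.C (zlRes ℓ (zlCast' ℓ a)) := by
  rw [← gaussRed_C (zlVal ℓ) (zlRes ℓ) N, chartRed, RingHom.comp_apply]
  exact congrArg (gaussRed (zlVal ℓ) (zlRes ℓ) N) (Subtype.ext (fieldCoe_algebraMap_zl N ℓ a))

/-- **The kernel of reduction on a chart algebra is generated by `ℓ`.** -/
theorem exists_eq_mul_of_chartRed_eq_zero
    (hs : IsChartVar (zlVal ℓ) (zlRes ℓ) N (s : LaurentSeries ℚ))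
    {x : chartAlg N ℓ {s}} (hx : chartRed N ℓ s hℓN hs x = 0) :
    ∃ y : chartAlg N ℓ {s}, x = (ℓ : chartAlg N ℓ {s}) * y := by
  set X₀ : LaurentSeries ℚ := ((x : modularFunctionFieldFull N) : LaurentSeries ℚ) with hX₀
  rcases eq_or_ne X₀ 0 with h0 | h0
  · exact ⟨0, Subtype.ext (Subtype.ext (by rw [mul_zero]; exact h0))⟩
  have hxg := chartVar_mem_gauss N ℓ s hℓN hs x
  obtain ⟨c, o, P, Q, hrep, hc, heq, -, hred⟩ :=
    exists_eq_C_mul (zlVal ℓ) (zlRes ℓ) N ℓ hℓN (full_le_fieldC _) h0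
  have hcA : c ∈ zlVal ℓ :=
    mem_of_red_ne_zero (zlVal ℓ) (zlRes ℓ) N (c := c) (o := ⟨o, P, Q, hrep⟩) (y := ⟨X₀, hxg⟩)
      heq hred
  have hsplit : (⟨X₀, hxg⟩ : gaussRing (zlVal ℓ) (zlRes ℓ) N) =
      ⟨_, C_mem_gaussRing (zlVal ℓ) (zlRes ℓ) N ⟨c, hcA⟩⟩ * ⟨o, P, Q, hrep⟩ :=
    Subtype.ext heq
  have hπc : zlRes ℓ ⟨c, hcA⟩ = 0 := by
    have h := (congrArg (gaussRed (zlVal ℓ) (zlRes ℓ) N) hsplit).symm.trans hx
    rw [map_mul, gaussRed_C] at h
    exact (map_eq_zero (HahnSeries.C : ZMod ℓ →+* LaurentSeries (ZMod ℓ))).mp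
      ((mul_eq_zero.mp h).resolve_right hred)
  obtain ⟨b, hb⟩ := exists_eq_mul_of_zlRes_eq_zero ℓ hπc
  have hl : (ℓ : ℚ) ≠ 0 := Nat.cast_ne_zero.mpr (Fact.out : ℓ.Prime).ne_zero
  have hy : HahnSeries.C (ℓ : ℚ)⁻¹ * X₀ ∈ gaussRing (zlVal ℓ) (zlRes ℓ) N := by
    have : HahnSeries.C (ℓ : ℚ)⁻¹ * X₀ = HahnSeries.C (b : ℚ) * o := by
      have hc' : c = (ℓ : ℚ) * b := by simpa using congrArg Subtype.val hb
      rw [hX₀, heq, ← mul_assoc, ← map_mul, hc', ← mul_assoc, inv_mul_cancel₀ hl, one_mul]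
    rw [this]
    exact mul_mem (C_mem_gaussRing _ _ N b) ⟨P, Q, hrep⟩
  obtain ⟨p, hp, hroot⟩ := exists_monic_root_of_mem_chartAlg N ℓ x.2
  obtain ⟨p', hp', hroot'⟩ :=
    exists_monic_root_div (zlVal ℓ) (zlRes ℓ) N ℓ hℓN hs hp hroot hl hy
  set y₀ : modularFunctionFieldFull N :=
    (ℓ : modularFunctionFieldFull N)⁻¹ * (x : modularFunctionFieldFull N) with hy₀
  have hy₀' : (y₀ : LaurentSeries ℚ) = HahnSeries.C (ℓ : ℚ)⁻¹ * X₀ := by
    rw [← fieldCoe_apply, hy₀, map_mul, map_inv₀, map_natCast, map_inv₀, map_natCast]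
    rfl
  rw [← hy₀'] at hroot'
  refine ⟨⟨y₀, mem_chartAlg_of_monic_root N ℓ hp' hroot'⟩, Subtype.ext ?_⟩
  show (x : modularFunctionFieldFull N) = ((ℓ : chartAlg N ℓ {s}) : modularFunctionFieldFull N) * y₀
  have hlF : (ℓ : modularFunctionFieldFull N) ≠ 0 := fun h => hl (by
    have := congrArg (fieldCoe N) h
    rw [map_natCast, map_zero, ← map_natCast (HahnSeries.C : ℚ →+* LaurentSeries ℚ)] at this
    exact (map_eq_zero _).mp this)
  rw [show (((ℓ : chartAlg N ℓ {s})) : modularFunctionFieldFull N) = (ℓ : modularFunctionFieldFull N)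
    from map_natCast (chartAlg N ℓ {s}).val ℓ, hy₀, mul_inv_cancel_left₀ hlF]

end FermatAgent.Igusa

end
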