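import Fermat.Agent.Igusa.IntFun
import Fermat.Prelude.Def_ModularCurve_X0ModL

/-!
# `τ ↦ d (γ τ)` written as `γ' ((a τ + b) / e)` and the expansions of translates
-/

set_option autoImplicit false

noncomputable section

open UpperHalfPlane hiding I
open Complex Filter Function
open scoped Real Topology MatrixGroups Manifold ModularForm

namespace FermatAgent.Igusa

open FermatAgent.ModFun ModularCurve

/-- `R` contains all `M`-th roots of unity. -/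
def HasRoots (M : ℕ) (R : Subring ℂ) : Prop :=
  ∀ r : ℤ, ((expUnit ((r : ℝ) / M) : ℂˣ) : ℂ) ∈ R

/-- The affine map `τ ↦ (a τ + b) / e`. -/
def ut (a e : ℕ) [NeZero a] [NeZero e] (b : ℤ) (τ : ℍ) : ℍ :=
  ((b : ℝ) / e) +ᵥ (⟨(a : ℝ) / e, div_pos (Nat.cast_pos.mpr (NeZero.pos a))
    (Nat.cast_pos.mpr (NeZero.pos e))⟩ : {x : ℝ // 0 < x}) • τ

@[simp] theorem coe_ut (a e : ℕ) [NeZero a] [NeZero e] (b : ℤ) (τ : ℍ) :
    (ut a e b τ : ℂ) = ((a : ℂ) * τ + b) / e := by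
  simp [ut]; ring

theorem ut_dil (a e : ℕ) [NeZero a] [NeZero e] (b : ℤ) {M : ℕ} [NeZero M] {c : ℕ} [NeZero c]
    (hc : e * c = M) (τ : ℍ) : ut a e b (dil M τ) = ((b : ℝ) / e) +ᵥ dil (a * c) τ := by
  have he : (e : ℂ) ≠ 0 := Nat.cast_ne_zero.mpr (NeZero.ne e)
  ext
  subst hc
  simp
  field_simp
  ring

theorem coe_sl_smul (γ : SL(2, ℤ)) (τ : ℍ) :
    ((γ • τ : ℍ) : ℂ) = ((γ 0 0 : ℂ) * τ + γ 0 1) / ((γ 1 0 : ℂ) * τ + γ 1 1) := by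
  rw [coe_specialLinearGroup_apply]
  simp

theorem sl_denom_ne_zero (γ : SL(2, ℤ)) (τ : ℍ) : (γ 1 0 : ℂ) * τ + γ 1 1 ≠ 0 := by
  simpa [denom] using denom_ne_zero (γ : GL (Fin 2) ℝ) τ

/-- `d (γ τ) = γ' ((a τ + b) / e)` with `a e = d`, `a ∣ γ₁₀`. -/
theorem exists_dil_smul (d : ℕ) [NeZero d] (γ : SL(2, ℤ)) :
    ∃ (γ' : SL(2, ℤ)) (a e : ℕ) (_ : NeZero a) (_ : NeZero e) (b : ℤ),
      a * e = d ∧ (a : ℤ) ∣ γ 1 0 ∧
      (∀ τ : ℍ, dil d (γ • τ) = γ' • ut a e b τ) ∧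
      ∀ τ : ℍ, (e : ℂ) * ((γ' 1 0 : ℂ) * (ut a e b τ : ℂ) + γ' 1 1) =
        (γ 1 0 : ℂ) * τ + γ 1 1 := by
  set A := γ 0 0 with hA
  set B := γ 0 1 with hB
  set C := γ 1 0 with hC
  set D := γ 1 1 with hD
  have hdet : A * D - B * C = 1 := by
    have := γ.det_coe
    rwa [Matrix.det_fin_two] at this
  have hd0 : (d : ℤ) ≠ 0 := by exact_mod_cast NeZero.ne d
  have hgne : Int.gcd ((d : ℤ) * A) C ≠ 0 := by
    intro h
    obtain ⟨h1, h2⟩ := Int.gcd_eq_zero_iff.mp h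
    rw [(mul_eq_zero.mp h1).resolve_left hd0, h2] at hdet
    simp at hdet
  obtain ⟨x, hx⟩ : (Int.gcd ((d : ℤ) * A) C : ℤ) ∣ (d : ℤ) * A := Int.gcd_dvd_left _ _
  obtain ⟨y, hy⟩ : (Int.gcd ((d : ℤ) * A) C : ℤ) ∣ C := Int.gcd_dvd_right _ _
  have hbz := Int.gcd_eq_gcd_ab ((d : ℤ) * A) C
  set a := Int.gcd ((d : ℤ) * A) C with ha
  set s := Int.gcdA ((d : ℤ) * A) C
  set t := Int.gcdB ((d : ℤ) * A) C
  have ha0 : (a : ℤ) ≠ 0 := by exact_mod_cast hgne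
  have hxy : x * s + y * t = 1 := by
    apply mul_left_cancel₀ ha0
    rw [mul_one]
    conv_rhs => rw [hbz, hx, hy]
    ring
  obtain ⟨γ', h00, h01, h10, h11⟩ : ∃ γ' : SL(2, ℤ),
      γ' 0 0 = x ∧ γ' 0 1 = -t ∧ γ' 1 0 = y ∧ γ' 1 1 = s :=
    ⟨⟨!![x, -t; y, s], by rw [Matrix.det_fin_two_of]; linarith⟩, rfl, rfl, rfl, rfl⟩
  set e' : ℤ := -y * ((d : ℤ) * B) + x * D with he'
  set b : ℤ := s * ((d : ℤ) * B) + t * D with hb
  have hae : (a : ℤ) * e' = d := by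
    linear_combination (-D) * hx + ((d : ℤ) * B) * hy + (d : ℤ) * hdet
  have he0 : 0 < e' := by
    have h1 : (0 : ℤ) < a := by omega
    by_contra h
    have : (a : ℤ) * e' ≤ 0 := mul_nonpos_of_nonneg_of_nonpos h1.le (not_lt.mp h)
    omega
  obtain ⟨e, he⟩ : ∃ e : ℕ, (e : ℤ) = e' := ⟨e'.toNat, Int.toNat_of_nonneg he0.le⟩
  have : NeZero a := ⟨hgne⟩
  have : NeZero e := ⟨by omega⟩
  have e1 : x * b - t * e' = d * B := by
    linear_combination ((d : ℤ) * B) * hxy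
  have e2 : y * b + s * e' = D := by
    linear_combination D * hxy
  have key : ∀ τ : ℍ, (y : ℂ) * ((a : ℂ) * τ + b) + (s : ℂ) * e = (C : ℂ) * τ + D := by
    intro τ
    have hy' : (C : ℂ) = (a : ℂ) * y := by exact_mod_cast hy
    have e2' : (y : ℂ) * b + s * (e' : ℂ) = D := by exact_mod_cast e2
    have he2 : (e : ℂ) = (e' : ℂ) := by exact_mod_cast congrArg (fun z : ℤ => (z : ℂ)) he
    rw [he2, hy', ← e2']; ring
  refine ⟨γ', a, e, inferInstance, inferInstance, b, ?_, ⟨y, hy⟩, fun τ => ?_, fun τ => ?_⟩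
  · exact_mod_cast he ▸ hae
  · have hne : (C : ℂ) * τ + D ≠ 0 := sl_denom_ne_zero γ τ
    have hxe : (x : ℂ) * ((a : ℂ) * τ + b) + (-(t : ℂ)) * e = d * (A * τ + B) := by
      have hx' : (d : ℂ) * A = (a : ℂ) * x := by exact_mod_cast hx
      have e1' : (x : ℂ) * b - t * (e' : ℂ) = d * B := by exact_mod_cast e1
      have he2 : (e : ℂ) = (e' : ℂ) := by exact_mod_cast congrArg (fun z : ℤ => (z : ℂ)) he
      rw [he2, mul_add (d : ℂ), ← mul_assoc (d : ℂ), hx', ← e1']; ring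
    ext
    rw [coe_dil, coe_sl_smul, coe_sl_smul, coe_ut, h00, h01, h10, h11, ← mul_div_assoc]
    have hne' : (y : ℂ) * ((a : ℂ) * τ + b) + (s : ℂ) * e ≠ 0 := key τ ▸ hne
    have he0' : (e : ℂ) ≠ 0 := Nat.cast_ne_zero.mpr (NeZero.ne e)
    push_cast
    rw [← hA, ← hB, ← hC, ← hD, ← hxe, ← key τ]
    field_simp
  · rw [h10, h11, coe_ut, ← key τ]
    have he0' : (e : ℂ) ≠ 0 := Nat.cast_ne_zero.mpr (NeZero.ne e)
    field_simp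

/-- For `γ ∈ Γ₀(d)` the translate `d (γ τ)` is `γ' (d τ)`. -/
theorem exists_dil_smul_of_dvd (d : ℕ) [NeZero d] (γ : SL(2, ℤ)) (h : (d : ℤ) ∣ γ 1 0) :
    ∃ γ' : SL(2, ℤ), (∀ τ : ℍ, dil d (γ • τ) = γ' • dil d τ) ∧
      ∀ τ : ℍ, (γ' 1 0 : ℂ) * (dil d τ : ℂ) + γ' 1 1 = (γ 1 0 : ℂ) * τ + γ 1 1 := by
  obtain ⟨c, hc⟩ := h
  have hdet : γ 0 0 * γ 1 1 - γ 0 1 * γ 1 0 = 1 := by
    have := γ.det_coe
    rwa [Matrix.det_fin_two] at this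
  obtain ⟨γ', h00, h01, h10, h11⟩ : ∃ γ' : SL(2, ℤ),
      γ' 0 0 = γ 0 0 ∧ γ' 0 1 = d * γ 0 1 ∧ γ' 1 0 = c ∧ γ' 1 1 = γ 1 1 := by
    refine ⟨⟨!![γ 0 0, d * γ 0 1; c, γ 1 1], ?_⟩, rfl, rfl, rfl, rfl⟩
    rw [Matrix.det_fin_two_of]
    rw [hc] at hdet
    linarith
  have hden : ∀ τ : ℍ, (γ' 1 0 : ℂ) * (dil d τ : ℂ) + γ' 1 1 = (γ 1 0 : ℂ) * τ + γ 1 1 := by
    intro τ
    rw [coe_dil, h10, h11, hc]; push_cast; ring
  refine ⟨γ', fun τ => ?_, hden⟩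
  ext
  rw [coe_dil, coe_sl_smul, coe_sl_smul, hden, ← mul_div_assoc, coe_dil, h00, h01]
  push_cast; ring

variable {M : ℕ} [NeZero M] {R : Subring ℂ}

theorem HasRoots.expUnit_zpow_mem (hR : HasRoots M R) {e : ℕ} [NeZero e] (he : e ∣ M) (b n : ℤ) :
    (((expUnit ((b : ℝ) / e)) ^ n : ℂˣ) : ℂ) ∈ R := by
  obtain ⟨c, hc⟩ := he
  have hc0 : c ≠ 0 := fun h => NeZero.ne M (by simp [hc, h])
  have h1 : ((((b * n * (c : ℤ)) : ℤ) : ℝ) / M) = (n : ℝ) * ((b : ℝ) / e) := by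
    rw [hc]; push_cast
    field_simp
  convert hR (b * n * (c : ℤ)) using 1
  rw [h1]
  simp only [expUnit, Units.val_zpow_eq_zpow_val, Units.val_mk0, ← Complex.exp_int_mul]
  push_cast
  ring_nf

theorem twist_mem_seriesSubring {s : LaurentSeries ℂ} (hs : s ∈ seriesSubring R) {ζ : ℂˣ}
    (hζ : ∀ n : ℤ, ((ζ ^ n : ℂˣ) : ℂ) ∈ R) : twist ζ s ∈ seriesSubring R :=
  mem_seriesSubring.mpr fun n => by
    rw [twist_coeff]; exact mul_mem (hζ n) (mem_seriesSubring.mp hs n)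

theorem mem_cuspRingAt_comp_ut {f : ℍ → ℂ} (hf : f ∈ cuspRing) {a e : ℕ} [NeZero a] [NeZero e]
    (b : ℤ) {c : ℕ} [NeZero c] (hc : e * c = M) : f ∘ ut a e b ∈ cuspRingAt M := by
  rw [mem_cuspRingAt]
  convert mem_cuspRing_comp_dil (mem_cuspRing_comp_vadd hf ((b : ℝ) / e)) (a * c) using 1
  funext τ
  simp [ut_dil a e b hc]

theorem qExp_comp_ut {f : ℍ → ℂ} (hf : f ∈ cuspRing) {a e : ℕ} [NeZero a] [NeZero e]
    (b : ℤ) {c : ℕ} [NeZero c] (hc : e * c = M) :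
    qExp M (f ∘ ut a e b) = qExpand ℂ (a * c) (twist (expUnit ((b : ℝ) / e)) (qLaurent f)) := by
  rw [qExp, ← qLaurent_comp_vadd hf, ← qLaurent_comp_dil (mem_cuspRing_comp_vadd hf _)]
  congr 1
  funext τ
  simp [ut_dil a e b hc]

theorem qExp_comp_ut_mem {f : ℍ → ℂ} (hf : f ∈ cuspRing) (hfR : qLaurent f ∈ seriesSubring R)
    (hR : HasRoots M R) {a e : ℕ} [NeZero a] [NeZero e] (b : ℤ) (he : e ∣ M) :
    f ∘ ut a e b ∈ expSubring M R := by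
  obtain ⟨c, hc⟩ := he
  have : NeZero c := ⟨fun h => NeZero.ne M (by simp [hc, h])⟩
  refine (mem_expSubring M R).mpr ⟨mem_cuspRingAt_comp_ut hf b hc.symm, mem_seriesSubring.mp ?_⟩
  rw [qExp_comp_ut hf b hc.symm]
  obtain ⟨t, ht⟩ := twist_mem_seriesSubring hfR (hR.expUnit_zpow_mem ⟨c, hc⟩ b)
  exact ⟨qExpand R (a * c) t, by rw [← ht, coeffMap_qExpand]⟩

end FermatAgent.Igusa

end
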