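import Fermat.Agent.Igusa.Invariant
import Fermat.Agent.Igusa.UpperTriangular

/-!
# `j(d τ)` and `Δ(d τ)/Δ(τ)` as elements of `intFun M R`
-/

set_option autoImplicit false

noncomputable section

open UpperHalfPlane hiding I
open Complex Filter Function
open scoped Real Topology MatrixGroups Manifold ModularForm

namespace FermatAgent.Igusa

open FermatAgent.ModFun ModularCurve

local notation "Δ" => ModularForm.discriminant

/-- The expansion of `Δ`. -/
def deltaModC (A : Type*) [CommRing A] : LaurentSeries A :=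
  HahnSeries.single (1 : ℤ) 1 *
    HahnSeries.ofPowerSeries ℤ A (dedekindEtaUnit.map (Int.castRingHom A))

/-- The expansion of `1/Δ`. -/
def invDeltaModC (A : Type*) [CommRing A] : LaurentSeries A :=
  HahnSeries.single (-1 : ℤ) 1 *
    HahnSeries.ofPowerSeries ℤ A (dedekindEtaUnitInv.map (Int.castRingHom A))

theorem deltaModC_mul_inv (A : Type*) [CommRing A] : deltaModC A * invDeltaModC A = 1 := by
  rw [deltaModC, invDeltaModC, mul_mul_mul_comm, HahnSeries.single_mul_single, ← map_mul,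
    ← map_mul, dedekindEtaUnit_mul_inv, map_one, map_one]
  simp

theorem coeffMap_deltaModC {A B : Type*} [CommRing A] [CommRing B] (f : A →+* B) :
    coeffMap f (deltaModC A) = deltaModC B := by
  rw [deltaModC, map_mul, coeffMap_single, map_one, coeffMap_ofPowerSeries, deltaModC,
    ← RingHom.comp_apply (PowerSeries.map f), ← PowerSeries.map_comp,
    RingHom.ext_int (f.comp (Int.castRingHom A)) (Int.castRingHom B)]

theorem coeffMap_invDeltaModC {A B : Type*} [CommRing A] [CommRing B] (f : A →+* B) :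
    coeffMap f (invDeltaModC A) = invDeltaModC B := by
  rw [invDeltaModC, map_mul, coeffMap_single, map_one, coeffMap_ofPowerSeries, invDeltaModC,
    ← RingHom.comp_apply (PowerSeries.map f), ← PowerSeries.map_comp,
    RingHom.ext_int (f.comp (Int.castRingHom A)) (Int.castRingHom B)]

/-- `1/Δ`. -/
def invDelta (τ : ℍ) : ℂ := (Δ τ)⁻¹

theorem invDelta_mem_cuspRing : invDelta ∈ cuspRing := by
  refine ⟨?_, fun τ => by simp only [invDelta, discriminant_mem_cuspRing.2.1], isTame_iff.mpr ⟨1, ?_⟩⟩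
  · rw [UpperHalfPlane.mdifferentiable_iff]
    exact (UpperHalfPlane.mdifferentiable_iff.mp discriminant_mem_cuspRing.1).inv
      fun z _ => ModularForm.discriminant_ne_zero _
  · have h : invDelta * Δ ^ 1 = fun _ => (1 : ℂ) := by
      funext τ
      simp [invDelta, inv_mul_cancel₀ (ModularForm.discriminant_ne_zero τ)]
    rw [h]
    exact const_boundedAtFilter atImInfty (1 : ℂ)

theorem qLaurent_discriminant : qLaurent Δ = deltaModC ℂ := by
  rw [qLaurent_of_bounded discriminant_mem_cuspRing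
    ModularForm.discriminant_isZeroAtImInfty.isBoundedAtImInfty, toLS_discriminant_eq]
  rfl

theorem qLaurent_invDelta : qLaurent invDelta = invDeltaModC ℂ := by
  have h1 : qLaurent (Δ * invDelta) = qLaurent Δ * qLaurent invDelta :=
    map_mul qLaurentHom ⟨_, discriminant_mem_cuspRing⟩ ⟨_, invDelta_mem_cuspRing⟩
  rw [show Δ * invDelta = (1 : ℍ → ℂ) from funext fun τ =>
      mul_inv_cancel₀ (ModularForm.discriminant_ne_zero τ),
    show qLaurent (1 : ℍ → ℂ) = 1 from map_one qLaurentHom, qLaurent_discriminant] at h1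
  calc qLaurent invDelta
      = (deltaModC ℂ * invDeltaModC ℂ) * qLaurent invDelta := by rw [deltaModC_mul_inv, one_mul]
    _ = invDeltaModC ℂ * (deltaModC ℂ * qLaurent invDelta) := by ring
    _ = invDeltaModC ℂ := by rw [← h1, mul_one]

theorem discriminant_smul_eq (γ : SL(2, ℤ)) (τ : ℍ) :
    Δ (γ • τ) = ((γ 1 0 : ℂ) * τ + γ 1 1) ^ 12 * Δ τ := by
  rw [discriminant_smul]
  simp [denom]

variable {M : ℕ} [NeZero M] {R : Subring ℂ}

/-- `j(d τ)`. -/
def jDil (d : ℕ) [NeZero d] : ℍ → ℂ := jFun ∘ dil d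

/-- `Δ(d τ)/Δ(τ)`. -/
def deltaRatio (d : ℕ) [NeZero d] : ℍ → ℂ := fun τ => Δ (dil d τ) * invDelta τ

/-- `Δ(τ)/Δ(d τ)`. -/
def deltaRatioInv (d : ℕ) [NeZero d] : ℍ → ℂ := fun τ => invDelta (dil d τ) * Δ τ

theorem jDil_smul_of_dvd (d : ℕ) [NeZero d] {γ : SL(2, ℤ)} (h : (d : ℤ) ∣ γ 1 0) (τ : ℍ) :
    jDil d (γ • τ) = jDil d τ := by
  obtain ⟨γ', h1, -⟩ := exists_dil_smul_of_dvd d γ h
  show jFun (dil d (γ • τ)) = jFun (dil d τ)
  rw [h1, jFun_smul]

theorem deltaRatio_smul_of_dvd (d : ℕ) [NeZero d] {γ : SL(2, ℤ)} (h : (d : ℤ) ∣ γ 1 0) (τ : ℍ) :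
    deltaRatio d (γ • τ) = deltaRatio d τ ∧ deltaRatioInv d (γ • τ) = deltaRatioInv d τ := by
  obtain ⟨γ', h1, h2⟩ := exists_dil_smul_of_dvd d γ h
  have hne := sl_denom_ne_zero γ τ
  have := ModularForm.discriminant_ne_zero τ
  have := ModularForm.discriminant_ne_zero (dil d τ)
  constructor <;>
  · simp only [deltaRatio, deltaRatioInv, invDelta, h1, discriminant_smul_eq, h2]
    field_simp

omit [NeZero M] in
theorem dvd_of_mem_gamma {d : ℕ} (hd : d ∣ M) {γ : SL(2, ℤ)}
    (hγ : γ ∈ CongruenceSubgroup.Gamma M) : (d : ℤ) ∣ γ 1 0 := by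
  have h := (CongruenceSubgroup.Gamma_mem.mp hγ).2.2.1
  rw [ZMod.intCast_zmod_eq_zero_iff_dvd] at h
  exact (Int.natCast_dvd_natCast.mpr hd).trans h

theorem jqModC_mem' : qLaurent jFun ∈ seriesSubring R :=
  qLaurent_jFun ▸ jqModC_mem_seriesSubring R

theorem deltaModC_mem' : qLaurent Δ ∈ seriesSubring R :=
  qLaurent_discriminant ▸ ⟨deltaModC R, coeffMap_deltaModC _⟩

theorem invDeltaModC_mem' : qLaurent invDelta ∈ seriesSubring R :=
  qLaurent_invDelta ▸ ⟨invDeltaModC R, coeffMap_invDeltaModC _⟩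

theorem comp_dil_mem_expSubring {f : ℍ → ℂ} (hf : f ∈ cuspRing)
    (hfR : qLaurent f ∈ seriesSubring R) : f ∈ expSubring M R := by
  refine (mem_expSubring M R).mpr ⟨mem_cuspRing_comp_dil hf M, mem_seriesSubring.mp ?_⟩
  rw [qExp, qLaurent_comp_dil hf]
  exact qExpand_mem_seriesSubring M R hfR

theorem jDil_mem_intFun (hR : HasRoots M R) {d : ℕ} [NeZero d] (hd : d ∣ M) :
    jDil d ∈ intFun M R := by
  refine ⟨fun γ hγ τ => jDil_smul_of_dvd d (dvd_of_mem_gamma hd hγ) τ, fun γ => ?_⟩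
  obtain ⟨γ', a, e, _, _, b, hae, -, h1, -⟩ := exists_dil_smul d γ
  have he : e ∣ M := (Dvd.intro_left a hae).trans hd
  convert qExp_comp_ut_mem jFun_mem_cuspRing jqModC_mem' hR (a := a) b he using 1
  funext τ
  show jFun (dil d (γ • τ)) = jFun (ut a e b τ)
  rw [h1, jFun_smul]

theorem natCast_zpow_mem {d : ℕ} (hd : d ∣ M) (hM : (M : ℂ)⁻¹ ∈ R) (n : ℤ) :
    (d : ℂ) ^ n ∈ R := by
  obtain ⟨c, hc⟩ := hd
  have hd0 : (d : ℂ) ≠ 0 := Nat.cast_ne_zero.mpr fun h => NeZero.ne M (by simp [hc, h])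
  have hc0 : (c : ℂ) ≠ 0 := Nat.cast_ne_zero.mpr fun h => NeZero.ne M (by simp [hc, h])
  have hinv : (d : ℂ)⁻¹ ∈ R := by
    rw [show (d : ℂ)⁻¹ = (c : ℂ) * (M : ℂ)⁻¹ by rw [hc]; push_cast; field_simp]
    exact mul_mem (natCast_mem R c) hM
  rcases n with n | n
  · simpa using pow_mem (natCast_mem R d) n
  · simpa [zpow_negSucc, ← inv_pow] using pow_mem hinv (n + 1)

theorem deltaRatio_mem_intFun (hR : HasRoots M R) (hM : (M : ℂ)⁻¹ ∈ R) {d : ℕ} [NeZero d]
    (hd : d ∣ M) : deltaRatio d ∈ intFun M R ∧ deltaRatioInv d ∈ intFun M R := by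
  refine ⟨⟨fun γ hγ τ => (deltaRatio_smul_of_dvd d (dvd_of_mem_gamma hd hγ) τ).1, fun γ => ?_⟩,
    ⟨fun γ hγ τ => (deltaRatio_smul_of_dvd d (dvd_of_mem_gamma hd hγ) τ).2, fun γ => ?_⟩⟩
  all_goals
    obtain ⟨γ', a, e, _, _, b, hae, -, h1, h2⟩ := exists_dil_smul d γ
    have he : e ∣ M := (Dvd.intro_left a hae).trans hd
    have he0 : (e : ℂ) ≠ 0 := Nat.cast_ne_zero.mpr (NeZero.ne e)
  · have key : compSmul γ (deltaRatio d) =
        algebraMap ℂ (ℍ → ℂ) ((e : ℂ) ^ (-12 : ℤ)) * ((Δ ∘ ut a e b) * invDelta) := by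
      funext τ
      simp only [compSmul_apply, deltaRatio, invDelta, Pi.mul_apply, Pi.algebraMap_apply,
        Algebra.algebraMap_self, RingHom.id_apply, comp_apply, h1, discriminant_smul_eq, ← h2 τ]
      have := sl_denom_ne_zero γ' (ut a e b τ)
      have := ModularForm.discriminant_ne_zero τ
      rw [zpow_neg, show ((12 : ℤ)) = ((12 : ℕ) : ℤ) from rfl, zpow_natCast]
      field_simp
    rw [key]
    refine mul_mem ((intFun_le_expSubring M R) (const_mem_intFun M R (natCast_zpow_mem he hM _ : (e : ℂ) ^ (-12 : ℤ) ∈ R)))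
      (mul_mem (qExp_comp_ut_mem discriminant_mem_cuspRing deltaModC_mem' hR b he)
        (comp_dil_mem_expSubring invDelta_mem_cuspRing invDeltaModC_mem'))
  · have key : compSmul γ (deltaRatioInv d) =
        algebraMap ℂ (ℍ → ℂ) ((e : ℂ) ^ (12 : ℤ)) * ((invDelta ∘ ut a e b) * Δ) := by
      funext τ
      simp only [compSmul_apply, deltaRatioInv, invDelta, Pi.mul_apply, Pi.algebraMap_apply,
        Algebra.algebraMap_self, RingHom.id_apply, comp_apply, h1, discriminant_smul_eq, ← h2 τ]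
      have := sl_denom_ne_zero γ' (ut a e b τ)
      have := ModularForm.discriminant_ne_zero (ut a e b τ)
      rw [show ((12 : ℤ)) = ((12 : ℕ) : ℤ) from rfl, zpow_natCast]
      field_simp
    rw [key]
    refine mul_mem ((intFun_le_expSubring M R) (const_mem_intFun M R (natCast_zpow_mem he hM _ : (e : ℂ) ^ (12 : ℤ) ∈ R)))
      (mul_mem (qExp_comp_ut_mem invDelta_mem_cuspRing invDeltaModC_mem' hR b he)
        (comp_dil_mem_expSubring discriminant_mem_cuspRing deltaModC_mem'))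

/-- The expansion of `j(d τ)` at `∞`. -/
theorem qExp_jDil (d : ℕ) [NeZero d] [NeZero (M * d)] :
    qExp M (jDil d) = qExpand ℂ (M * d) (jqModC ℂ) := by
  have h : jDil d ∘ dil M = jFun ∘ dil (M * d) := funext fun τ =>
    congrArg jFun (UpperHalfPlane.ext (by simp only [coe_dil, Nat.cast_mul]; ring))
  rw [qExp, h, qLaurent_comp_dil jFun_mem_cuspRing, qLaurent_jFun]

/-- The expansion of `Δ(d τ)/Δ(τ)` at `∞`. -/
theorem qExp_deltaRatio (d : ℕ) [NeZero d] [NeZero (M * d)] :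
    qExp M (deltaRatio d) =
      qExpand ℂ (M * d) (deltaModC ℂ) * qExpand ℂ M (invDeltaModC ℂ) := by
  have h : deltaRatio d ∘ dil M = (Δ ∘ dil (M * d)) * (invDelta ∘ dil M) := funext fun τ =>
    congrArg (fun w => Δ w * invDelta (dil M τ))
      (UpperHalfPlane.ext (by simp only [coe_dil, Nat.cast_mul]; ring) :
        dil d (dil M τ) = dil (M * d) τ)
  have hmul : qLaurent ((Δ ∘ dil (M * d)) * (invDelta ∘ dil M)) =
      qLaurent (Δ ∘ dil (M * d)) * qLaurent (invDelta ∘ dil M) :=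
    map_mul qLaurentHom ⟨_, mem_cuspRing_comp_dil discriminant_mem_cuspRing (M * d)⟩
      ⟨_, mem_cuspRing_comp_dil invDelta_mem_cuspRing M⟩
  rw [qExp, h, hmul, qLaurent_comp_dil discriminant_mem_cuspRing,
    qLaurent_comp_dil invDelta_mem_cuspRing, qLaurent_discriminant, qLaurent_invDelta]

end FermatAgent.Igusa

end
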