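import Fermat.Agent.Igusa.IntFun
import Fermat.Prelude.Def_ModularCurve_X0ModL

/-!
# Invariant elements of `intFun M R` are polynomials in `j` with coefficients in `R`
-/

set_option autoImplicit false

noncomputable section

open UpperHalfPlane hiding I
open Complex Filter Function Polynomial
open scoped Real Topology MatrixGroups Manifold ModularForm

namespace FermatAgent.Igusa

open FermatAgent.ModFun ModularCurve

variable (M : ℕ) [NeZero M] (R : Subring ℂ)

theorem qExpand_mem_seriesSubring {s : LaurentSeries ℂ} (hs : s ∈ seriesSubring R) :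
    qExpand ℂ M s ∈ seriesSubring R := by
  obtain ⟨t, rfl⟩ := hs
  exact ⟨qExpand R M t, coeffMap_qExpand _ _ _⟩

theorem jqModC_mem_seriesSubring : jqModC ℂ ∈ seriesSubring R :=
  ⟨jqModC R, coeffMap_jqModC _⟩

theorem qExp_jFun : qExp M jFun = qExpand ℂ M (jqModC ℂ) := by
  rw [qExp, qLaurent_comp_dil jFun_mem_cuspRing, qLaurent_jFun]

theorem compSmul_jFun (γ : SL(2, ℤ)) : compSmul γ jFun = jFun :=
  funext fun τ => jFun_smul γ τ

theorem jFun_mem_intFun : jFun ∈ intFun M R :=
  (mem_intFun M R).mpr ⟨fun γ _ τ => jFun_smul γ τ, fun γ => by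
    rw [compSmul_jFun]
    exact ⟨mem_cuspRing_comp_dil jFun_mem_cuspRing M, mem_seriesSubring.mp
      (qExp_jFun M ▸ qExpand_mem_seriesSubring M R (jqModC_mem_seriesSubring R))⟩⟩

/-- `j` as an element of `intFun M R`. -/
def jInt : intFun M R := ⟨jFun, jFun_mem_intFun M R⟩

@[simp] theorem coe_jInt : (jInt M R : ℍ → ℂ) = jFun := rfl

theorem smul_jInt (γ : SL(2, ℤ)) : γ • jInt M R = jInt M R :=
  Subtype.ext (funext fun τ => jFun_smul γ⁻¹ τ)

theorem intExp_jInt : intExp M R (jInt M R) = qExpand R M (jqModC R) := by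
  apply coeffMap_injective R.subtype_injective
  rw [coeffMap_intExp, coe_jInt, qExp_jFun, coeffMap_qExpand, coeffMap_jqModC]

theorem redExp_jInt {k : Type*} [CommRing k] (ρ : R →+* k) :
    redExp M R ρ (jInt M R) = qExpand k M (jqModC k) := by
  rw [redExp, RingHom.comp_apply, intExp_jInt, coeffMap_qExpand, coeffMap_jqModC]

theorem const_mem_intFun {c : ℂ} (hc : c ∈ R) : (fun _ : ℍ => c) ∈ intFun M R := by
  refine (mem_intFun M R).mpr ⟨fun _ _ _ => rfl, fun γ => ?_⟩
  have h : compSmul γ (fun _ : ℍ => c) = algebraMap ℂ (ℍ → ℂ) c := rfl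
  rw [h]
  refine ⟨algebraMap_mem _ c, fun n => ?_⟩
  rw [show qExp M (algebraMap ℂ (ℍ → ℂ) c) = HahnSeries.single 0 c from
    ((qExpHom M).commutes c).trans (algebraMap_laurentSeries_eq_single ℂ c)]
  by_cases hn : n = 0
  · subst hn; simpa using hc
  · simp [hn]

/-- The constants. -/
def constHom : R →+* intFun M R where
  toFun c := ⟨fun _ => (c : ℂ), const_mem_intFun M R c.2⟩
  map_one' := rfl
  map_mul' _ _ := rfl
  map_zero' := rfl
  map_add' _ _ := rfl

@[simp] theorem constHom_apply (c : R) (τ : ℍ) : ((constHom M R c : intFun M R) : ℍ → ℂ) τ = c := rfl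

theorem smul_constHom (γ : SL(2, ℤ)) (c : R) : γ • constHom M R c = constHom M R c := rfl

/-- Evaluation of an `R`-polynomial at `j`. -/
def polyInt : R[X] →+* intFun M R := eval₂RingHom (constHom M R) (jInt M R)

theorem polyInt_apply (P : R[X]) (τ : ℍ) :
    ((polyInt M R P : intFun M R) : ℍ → ℂ) τ = (P.map R.subtype).eval (jFun τ) := by
  have h : ((Pi.evalRingHom (fun _ : ℍ => ℂ) τ).comp (intFun M R).subtype).comp (polyInt M R) =
      (evalRingHom (jFun τ)).comp (mapRingHom R.subtype) := by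
    refine Polynomial.ringHom_ext (fun c => ?_) ?_ <;> simp [polyInt]
  exact RingHom.congr_fun h P

theorem smul_polyInt (γ : SL(2, ℤ)) (P : R[X]) : γ • polyInt M R P = polyInt M R P := by
  refine Subtype.ext (funext fun τ => ?_)
  rw [smul_apply, polyInt_apply, polyInt_apply, jFun_smul]

theorem intExp_constHom (c : R) : intExp M R (constHom M R c) = HahnSeries.C c := by
  apply coeffMap_injective R.subtype_injective
  rw [coeffMap_intExp, HahnSeries.C_apply, coeffMap_single]
  exact ((qExpHom M).commutes (c : ℂ)).trans (algebraMap_laurentSeries_eq_single ℂ _)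

theorem redExp_polyInt {k : Type*} [CommRing k] (ρ : R →+* k) (P : R[X]) :
    redExp M R ρ (polyInt M R P) = P.eval₂ (HahnSeries.C.comp ρ) (qExpand k M (jqModC k)) := by
  have h : (redExp M R ρ).comp (polyInt M R) =
      eval₂RingHom (HahnSeries.C.comp ρ) (qExpand k M (jqModC k)) := by
    refine Polynomial.ringHom_ext (fun c => ?_) ?_
    · simp only [RingHom.comp_apply, polyInt, coe_eval₂RingHom, eval₂_C, redExp, intExp_constHom]
      rw [HahnSeries.C_apply, coeffMap_single, HahnSeries.C_apply]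
    · simp [polyInt, redExp_jInt]
  exact RingHom.congr_fun h P

/-- A complex polynomial in `jqModC` with expansion coefficients in `R` has coefficients in `R`. -/
theorem mem_lifts_of_aeval_jqModC_mem (P : ℂ[X]) (h : aeval (jqModC ℂ) P ∈ seriesSubring R) :
    P ∈ lifts R.subtype := by
  induction hd : P.natDegree using Nat.strong_induction_on generalizing P with
  | _ d ih =>
    have hlead : (aeval (jqModC ℂ) P).coeff (-(d : ℤ)) = P.coeff d := by
      rw [aeval_eq_sum_range, hd, HahnSeries.coeff_sum, Finset.sum_eq_single d]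
      · rw [Algebra.smul_def, algebraMap_laurentSeries_eq_single, HahnSeries.coeff_single_zero_mul,
          coeff_jqModC_pow_self, mul_one]
      · intro i hi hne
        have : i < d := by simp only [Finset.mem_range] at hi; omega
        rw [Algebra.smul_def, algebraMap_laurentSeries_eq_single, HahnSeries.coeff_single_zero_mul,
          coeff_jqModC_pow_of_lt ℂ (by omega), mul_zero]
      · simp
    have hc : P.coeff d ∈ R := hlead ▸ mem_seriesSubring.mp h _
    have hmon : C (P.coeff d) * X ^ d ∈ lifts R.subtype :=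
      ⟨C (⟨P.coeff d, hc⟩ : R) * X ^ d, by simp⟩
    rcases Nat.eq_zero_or_pos d with rfl | hpos
    · rw [eq_C_of_natDegree_eq_zero hd]
      exact ⟨C (⟨P.coeff 0, hc⟩ : R), by simp⟩
    set Q := P - C (P.coeff d) * X ^ d with hQ
    have hQd : Q.natDegree < d := by
      have hle : Q.natDegree ≤ d :=
        (natDegree_sub_le _ _).trans (max_le hd.le (natDegree_C_mul_X_pow_le _ _))
      refine lt_of_le_of_ne hle fun he => ?_
      have h0 : Q.coeff d = 0 := by simp [hQ]
      rw [← he] at h0
      rw [leadingCoeff_eq_zero.mp h0, natDegree_zero] at he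
      omega
    have hQm : aeval (jqModC ℂ) Q ∈ seriesSubring R := by
      rw [hQ, map_sub]
      refine sub_mem h ?_
      rw [map_mul, aeval_C, map_pow, aeval_X]
      refine mul_mem ?_ (pow_mem (jqModC_mem_seriesSubring R) d)
      exact ⟨HahnSeries.single 0 (⟨P.coeff d, hc⟩ : R), by
        rw [coeffMap_single, algebraMap_laurentSeries_eq_single]; rfl⟩
    have := ih Q.natDegree hQd Q hQm rfl
    rw [show P = Q + C (P.coeff d) * X ^ d by simp [hQ]]
    exact (lifts R.subtype).add_mem this hmon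

/-- An invariant element of `intFun M R` is a polynomial in `j` over `R`. -/
theorem exists_polyInt_eq (f : intFun M R) (hf : ∀ γ : SL(2, ℤ), γ • f = f) :
    ∃ P : R[X], polyInt M R P = f := by
  obtain ⟨hinv₀, hexp⟩ := (mem_intFun M R).mp f.2
  obtain ⟨hfc, hcoeff⟩ := hexp 1
  rw [compSmul_one] at hfc hcoeff
  have hinv : ∀ (γ : SL(2, ℤ)) (τ : ℍ), (f : ℍ → ℂ) (γ • τ) = (f : ℍ → ℂ) τ := fun γ τ => by
    conv_rhs => rw [← congrArg (fun g : intFun M R => (g : ℍ → ℂ) τ) (hf γ⁻¹)]
    rw [smul_apply, inv_inv]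
  have hM : (0 : ℝ) < M := Nat.cast_pos.mpr (NeZero.pos M)
  let g : ℍ → ℍ := fun τ => (⟨((M : ℝ))⁻¹, inv_pos.mpr hM⟩ : {x : ℝ // 0 < x}) • τ
  have hg : ∀ τ, dil M (g τ) = τ := fun τ => by ext; simp [g, NeZero.ne M]
  have hmd : MDiff (f : ℍ → ℂ) := by
    have hd : MDiff fun τ => (g τ : ℂ) := by
      simp only [g, coe_pos_real_smul, Complex.real_smul]
      exact mdifferentiable_const.mul mdifferentiable_coe
    convert mdiff_comp hfc.1 hd using 1
    funext τ; simp [hg]
  have ht : IsTame (f : ℍ → ℂ) := by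
    convert hfc.2.2.comp (g := g) (inv_pos.mpr hM) (fun τ => by simp [g]) using 1
    funext τ; simp [hg]
  obtain ⟨P, hP⟩ := exists_eq_aeval_jFun hmd hinv ht
  have hPf : (f : ℍ → ℂ) = aeval jFun P := by
    funext τ
    rw [hP τ, Polynomial.aeval_fn_apply]
    simp
  have hser : qExp M (f : ℍ → ℂ) = qExpand ℂ M (aeval (jqModC ℂ) P) := by
    rw [hPf, qExp,
      qLaurent_comp_dil (aeval_mem_adjoin_singleton ℂ jFun |> fun h =>
        Algebra.adjoin_le (Set.singleton_subset_iff.mpr jFun_mem_cuspRing) h) M]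
    congr 1
    have := (aeval_algHom_apply qLaurentHom (⟨jFun, jFun_mem_cuspRing⟩ : cuspRing) P).symm
    rw [qLaurentHom_apply, qLaurentHom_apply, qLaurent_jFun] at this
    rw [← this]
    congr 1
    exact (aeval_algHom_apply cuspRing.val (⟨jFun, jFun_mem_cuspRing⟩ : cuspRing) P).trans rfl
  have hP' : aeval (jqModC ℂ) P ∈ seriesSubring R := mem_seriesSubring.mpr fun n => by
    rw [← qExpand_coeff_mul M _ n, ← hser]
    exact hcoeff _
  obtain ⟨P', hP'⟩ := mem_lifts_of_aeval_jqModC_mem R P hP'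
  refine ⟨P', Subtype.ext (funext fun τ => ?_)⟩
  rw [polyInt_apply, hP τ, ← hP']
  rfl

end FermatAgent.Igusa

end
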