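import Fermat.Agent.Igusa.Generators

/-!
# The decomposition group of the reduced expansion at `∞`
-/

set_option autoImplicit false

noncomputable section

open UpperHalfPlane hiding I
open Complex Filter Function Polynomial
open scoped Real Topology MatrixGroups Manifold ModularForm

namespace FermatAgent.Igusa

open FermatAgent.ModFun ModularCurve

variable {M : ℕ} [NeZero M] {R : Subring ℂ} {k : Type*} [Field k] (ρ : R →+* k)

/-- The stabilizer of `redKer M R ρ` in `SL(2, ℤ)`. -/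
def decompGroup : Subgroup SL(2, ℤ) where
  carrier := {γ | ∀ x : intFun M R, γ • x ∈ redKer M R ρ ↔ x ∈ redKer M R ρ}
  one_mem' x := by rw [one_smul]
  mul_mem' {γ δ} hγ hδ x := by rw [mul_smul]; exact (hγ _).trans (hδ x)
  inv_mem' {γ} hγ x := by
    have h := hγ (γ⁻¹ • x)
    rw [smul_inv_smul] at h
    exact h.symm

theorem gamma_le_decompGroup : CongruenceSubgroup.Gamma M ≤ decompGroup (M := M) ρ := fun γ hγ x => by
  rw [smul_of_mem_gamma M R hγ]

instance : (decompGroup (M := M) ρ).FiniteIndex :=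
  Subgroup.finiteIndex_of_le (gamma_le_decompGroup ρ)

instance : Fintype (SL(2, ℤ) ⧸ decompGroup (M := M) ρ) := Fintype.ofFinite _

theorem smul_out_smul {G α : Type*} [Group G] [MulAction G α] {H : Subgroup G} {x : α}
    (hx : ∀ h ∈ H, h • x = x) (γ : G) (c : G ⧸ H) : γ • c.out • x = (γ • c).out • x := by
  obtain ⟨h, hh⟩ : ∃ h ∈ H, (γ • c).out = γ * c.out * h := by
    refine ⟨(γ * c.out)⁻¹ * (γ • c).out, ?_, by group⟩
    rw [← QuotientGroup.eq]
    conv_rhs => rw [QuotientGroup.out_eq']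
    conv_rhs => rw [← QuotientGroup.out_eq' c]
    rfl
  rw [hh.2, mul_smul, hx h hh.1, mul_smul]

/-- Sum over the cosets of a subgroup fixing `x` is invariant. -/
theorem smul_sum_out {G α : Type*} [Group G] [AddCommMonoid α] [DistribMulAction G α]
    {H : Subgroup G} [Fintype (G ⧸ H)] {x : α} (hx : ∀ h ∈ H, h • x = x) (γ : G) :
    γ • ∑ c : G ⧸ H, c.out • x = ∑ c : G ⧸ H, c.out • x := by
  rw [Finset.smul_sum]
  exact Fintype.sum_equiv (MulAction.toPerm γ) _ _ fun c => smul_out_smul hx γ c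

/-- No translate of `redKer` by an element outside the decomposition group lies inside it. -/
theorem exists_smul_mem_notMem {γ : SL(2, ℤ)} (hγ : γ ∉ decompGroup (M := M) ρ) :
    ∃ x : intFun M R, γ • x ∈ redKer M R ρ ∧ x ∉ redKer M R ρ := by
  by_contra hne
  push Not at hne
  apply hγ
  intro x
  refine ⟨hne x, fun hx => ?_⟩
  obtain ⟨m, hm⟩ : ∃ m, (CongruenceSubgroup.Gamma M).index = m + 1 :=
    Nat.exists_eq_succ_of_ne_zero Subgroup.FiniteIndex.index_ne_zero
  have := CongruenceSubgroup.Gamma_normal M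
  have hpow : γ ^ (m + 1) ∈ CongruenceSubgroup.Gamma M :=
    hm ▸ Subgroup.pow_index_mem _ γ
  have hstep : ∀ (n : ℕ) (y : intFun M R), γ ^ n • y ∈ redKer M R ρ → y ∈ redKer M R ρ := by
    intro n
    induction n with
    | zero => simp
    | succ n ih => intro y hy; rw [pow_succ, mul_smul] at hy; exact hne _ (ih _ hy)
  refine hstep m (γ • x) ?_
  rw [← mul_smul, ← pow_succ, smul_of_mem_gamma M R hpow]
  exact hx

/-- An idempotent-like element: invariant under the decomposition group, nonzero after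
reduction, killed by reduction after translation by any other element. -/
theorem exists_separator : ∃ e : intFun M R, e ∉ redKer M R ρ ∧
    (∀ δ ∈ decompGroup (M := M) ρ, δ • e = e) ∧
    ∀ γ, γ ∉ decompGroup (M := M) ρ → γ • e ∈ redKer M R ρ := by
  classical
  let Γ := CongruenceSubgroup.Gamma M
  have hx : ∀ c : SL(2, ℤ) ⧸ Γ, ∃ x : intFun M R, x ∉ redKer M R ρ ∧
      (c.out ∉ decompGroup (M := M) ρ → c.out • x ∈ redKer M R ρ) := by
    intro c
    by_cases hc : c.out ∈ decompGroup (M := M) ρ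
    · exact ⟨1, fun h => (inferInstance : (redKer M R ρ).IsPrime).ne_top
        ((Ideal.eq_top_iff_one _).mpr h), fun h => absurd hc h⟩
    · obtain ⟨x, h1, h2⟩ := exists_smul_mem_notMem ρ hc
      exact ⟨x, h2, fun _ => h1⟩
  choose x hx1 hx2 using hx
  have : Fintype (SL(2, ℤ) ⧸ Γ) := Fintype.ofFinite _
  set e0 : intFun M R := ∏ c, x c with he0
  have h0 : e0 ∉ redKer M R ρ := fun h => by
    obtain ⟨c, -, hc⟩ := (inferInstance : (redKer M R ρ).IsPrime).prod_mem_iff.mp h
    exact hx1 c hc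
  have h1 : ∀ γ, γ ∉ decompGroup (M := M) ρ → γ • e0 ∈ redKer M R ρ := by
    intro γ hγ
    set c : SL(2, ℤ) ⧸ Γ := QuotientGroup.mk γ with hc
    obtain ⟨h, hh, he⟩ : ∃ h ∈ Γ, γ = c.out * h :=
      ⟨c.out⁻¹ * γ, QuotientGroup.eq.mp (QuotientGroup.out_eq' c), by group⟩
    have hout : c.out ∉ decompGroup (M := M) ρ := fun hm =>
      hγ (he ▸ mul_mem hm (gamma_le_decompGroup ρ hh))
    rw [he0, Finset.smul_prod']
    refine Ideal.prod_mem _ (Finset.mem_univ c) ?_
    rw [he, mul_smul, smul_of_mem_gamma M R hh]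
    exact hx2 c hout
  have hfix : ∀ h ∈ Γ, h • e0 = e0 := fun h hh => smul_of_mem_gamma M R hh e0
  set T : Finset (SL(2, ℤ) ⧸ Γ) := Finset.univ.filter fun c => c.out ∈ decompGroup (M := M) ρ
    with hT
  refine ⟨∏ c ∈ T, c.out • e0, fun h => ?_, fun δ hδ => ?_, fun γ hγ => ?_⟩
  · obtain ⟨c, hc, hm⟩ := (inferInstance : (redKer M R ρ).IsPrime).prod_mem_iff.mp h
    exact h0 (((Finset.mem_filter.mp hc).2 e0).mp hm)
  · have hmem : ∀ (g₁ : SL(2, ℤ)), g₁ ∈ decompGroup (M := M) ρ → ∀ c ∈ T, g₁ • c ∈ T := by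
      intro g₁ hg₁ c hc
      refine Finset.mem_filter.mpr ⟨Finset.mem_univ _, ?_⟩
      have h : (g₁ * c.out)⁻¹ * (g₁ • c).out ∈ Γ := by
        rw [← QuotientGroup.eq]
        conv_rhs => rw [QuotientGroup.out_eq', ← QuotientGroup.out_eq' c]
        rfl
      have := mul_mem (mul_mem hg₁ (Finset.mem_filter.mp hc).2) (gamma_le_decompGroup ρ h)
      rwa [← mul_assoc (g₁ * c.out), mul_inv_cancel, one_mul] at this
    rw [Finset.smul_prod']
    exact Finset.prod_nbij' (fun c => δ • c) (fun c => δ⁻¹ • c) (fun c hc => hmem δ hδ c hc)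
      (fun c hc => hmem δ⁻¹ (inv_mem hδ) c hc) (fun c _ => inv_smul_smul δ c)
      (fun c _ => smul_inv_smul δ c) (fun c _ => smul_out_smul hfix δ c)
  · rw [Finset.smul_prod']
    refine Ideal.prod_mem _ (i := QuotientGroup.mk 1)
      (Finset.mem_filter.mpr ⟨Finset.mem_univ _, ?_⟩) ?_
    · refine gamma_le_decompGroup ρ ?_
      have := QuotientGroup.eq.mp (QuotientGroup.out_eq' (QuotientGroup.mk 1 : SL(2, ℤ) ⧸ Γ))
      rwa [mul_one, inv_mem_iff] at this
    · rw [← mul_smul]
      refine h1 _ fun hm => hγ ?_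
      have hd : (QuotientGroup.mk 1 : SL(2, ℤ) ⧸ Γ).out ∈ decompGroup (M := M) ρ := by
        refine gamma_le_decompGroup ρ ?_
        have := QuotientGroup.eq.mp (QuotientGroup.out_eq' (QuotientGroup.mk 1 : SL(2, ℤ) ⧸ Γ))
        rwa [mul_one, inv_mem_iff] at this
      exact ((decompGroup (M := M) ρ).mul_mem_cancel_right hd).mp hm

/-- The reduced expansion of an element fixed by the decomposition group is a rational
function of the reduced `j`. -/
theorem exists_rational_of_fixed {u : intFun M R}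
    (hu : ∀ δ ∈ decompGroup (M := M) ρ, δ • u = u) :
    ∃ P Q : R[X], redExp M R ρ (polyInt M R Q) ≠ 0 ∧
      redExp M R ρ u * redExp M R ρ (polyInt M R Q) = redExp M R ρ (polyInt M R P) := by
  classical
  obtain ⟨e, he0, heD, heout⟩ := exists_separator (M := M) ρ
  have key : ∀ y : intFun M R, (∀ δ ∈ decompGroup (M := M) ρ, δ • y = y) →
      ∃ P : R[X], redExp M R ρ (polyInt M R P) = redExp M R ρ (e * y) := by
    intro y hy
    have hey : ∀ δ ∈ decompGroup (M := M) ρ, δ • (e * y) = e * y := fun δ hδ => by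
      rw [smul_mul', heD δ hδ, hy δ hδ]
    obtain ⟨P, hP⟩ := exists_polyInt_eq M R _ (smul_sum_out hey)
    refine ⟨P, ?_⟩
    rw [hP, map_sum]
    set c₁ : SL(2, ℤ) ⧸ decompGroup (M := M) ρ := QuotientGroup.mk 1
    have hc₁ : c₁.out ∈ decompGroup (M := M) ρ := by
      have := QuotientGroup.eq.mp (QuotientGroup.out_eq' c₁)
      rwa [mul_one, inv_mem_iff] at this
    rw [Fintype.sum_eq_single c₁, hey _ hc₁]
    intro c hc
    have hout : c.out ∉ decompGroup (M := M) ρ := fun h => hc (by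
      rw [← QuotientGroup.out_eq' c]
      exact QuotientGroup.eq.mpr (by simpa using h))
    rw [smul_mul', map_mul, RingHom.mem_ker.mp (heout _ hout), zero_mul]
  obtain ⟨P, hP⟩ := key u hu
  obtain ⟨Q, hQ⟩ := key 1 fun δ _ => smul_one δ
  rw [mul_one] at hQ
  refine ⟨P, Q, fun h => he0 (RingHom.mem_ker.mpr (hQ ▸ h)), ?_⟩
  rw [hP, hQ, map_mul, mul_comm]

/-- Every element is a root of a monic polynomial over `R[j]`. -/
theorem exists_monic_root (x : intFun M R) :
    ∃ F : Polynomial R[X], F.Monic ∧ F.eval₂ (polyInt M R) x = 0 := by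
  classical
  let Γ := CongruenceSubgroup.Gamma M
  have : Fintype (SL(2, ℤ) ⧸ Γ) := Fintype.ofFinite _
  set G : Polynomial (intFun M R) := ∏ c : SL(2, ℤ) ⧸ Γ, (X - C (c.out • x)) with hG
  have hmonic : G.Monic := monic_prod_of_monic _ _ fun c _ => monic_X_sub_C _
  have hinv : ∀ γ : SL(2, ℤ), G.map (MulSemiringAction.toRingHom _ (intFun M R) γ) = G := by
    intro γ
    rw [hG, Polynomial.map_prod]
    refine Fintype.prod_equiv (MulAction.toPerm γ) _ _ fun c => ?_
    simp only [Polynomial.map_sub, Polynomial.map_X, Polynomial.map_C,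
      MulSemiringAction.toRingHom_apply, MulAction.toPerm_apply]
    rw [smul_out_smul (fun h hh => smul_of_mem_gamma M R hh x)]
  have hlifts : G ∈ lifts (polyInt M R) := (lifts_iff_coeff_lifts G).mpr fun i => by
    obtain ⟨P, hP⟩ := exists_polyInt_eq M R (G.coeff i) fun γ => by
      conv_rhs => rw [← hinv γ, Polynomial.coeff_map]
      rfl
    exact ⟨P, hP⟩
  obtain ⟨F, hF, -, hFm⟩ := lifts_and_natDegree_eq_and_monic hlifts hmonic
  refine ⟨F, hFm, ?_⟩
  rw [eval₂_eq_eval_map, hF, hG, eval_prod]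
  refine Finset.prod_eq_zero (Finset.mem_univ (QuotientGroup.mk 1)) ?_
  have := QuotientGroup.eq.mp (QuotientGroup.out_eq' (QuotientGroup.mk 1 : SL(2, ℤ) ⧸ Γ))
  rw [mul_one, inv_mem_iff] at this
  rw [eval_sub, eval_X, eval_C, smul_of_mem_gamma M R this, sub_self]

end FermatAgent.Igusa

end
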