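import Fermat.Agent.Igusa.Transitive

/-!
# Igusa's irreducibility

Igusa's irreducibility: `j(q^N)` has degree at least `[SL₂(ℤ) : Γ₀(N)]` over `k(j)` after
reduction of coefficients.
-/

set_option autoImplicit false

noncomputable section

open UpperHalfPlane hiding I
open Complex Filter Function Polynomial
open scoped Real Topology MatrixGroups Manifold ModularForm

namespace FermatAgent.Igusa

open FermatAgent.ModFun ModularCurve

variable {N : ℕ} [NeZero N] {R : Subring ℂ} {k : Type*} [Field k] (ρ : R →+* k)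

/-- `j(N τ)` in `intFun N R`. -/
def thetaInt (hR : HasRoots N R) : intFun N R := ⟨jDil N, jDil_mem_intFun hR dvd_rfl⟩

theorem redExp_thetaInt (hR : HasRoots N R) :
    redExp N R ρ (thetaInt hR) = qExpand k N (qExpand k N (jqModC k)) := by
  have : intExp N R (thetaInt hR) = qExpand R (N * N) (jqModC R) := by
    apply coeffMap_injective R.subtype_injective
    rw [coeffMap_intExp, coeffMap_qExpand, coeffMap_jqModC, thetaInt, qExp_jDil]
  rw [redExp, RingHom.comp_apply, this, coeffMap_qExpand, coeffMap_jqModC, qExpand_qExpand]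

/-- The reduced translates of `j(N τ)` separate the cosets of `Γ₀(N)`. -/
theorem mem_gamma0_of_redExp_eq (hR : HasRoots N R) {δ : SL(2, ℤ)}
    (h : redExp N R ρ (δ • thetaInt hR) = redExp N R ρ (thetaInt hR)) :
    δ ∈ CongruenceSubgroup.Gamma0 N := by
  obtain ⟨γ', a, e, _, _, b, hae, hdvd, h1, -⟩ := exists_dil_smul N δ⁻¹
  have he : e ∣ N := Dvd.intro_left a hae
  obtain ⟨c, hc⟩ := he
  have : NeZero c := ⟨fun h => NeZero.ne N (by simp [hc, h])⟩
  by_cases haN : a = N
  · rw [haN] at hdvd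
    rw [← Subgroup.inv_mem_iff, CongruenceSubgroup.Gamma0_mem, ZMod.intCast_zmod_eq_zero_iff_dvd]
    exact hdvd
  exfalso
  have hne : e ≠ 0 := NeZero.ne e
  have ha : a < N := lt_of_le_of_ne
    (hae ▸ Nat.le_mul_of_pos_right a (Nat.pos_of_ne_zero hne)) haN
  have hcN : c ≤ N := hc ▸ Nat.le_mul_of_pos_left c (Nat.pos_of_ne_zero hne)
  have hlt : a * c < N * N := Nat.mul_lt_mul_of_lt_of_le ha hcN (NeZero.pos N)
  have hq : qExp N ((δ • thetaInt hR : intFun N R) : ℍ → ℂ) =
      qExpand ℂ (a * c) (twist (expUnit ((b : ℝ) / e)) (jqModC ℂ)) := by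
    rw [← qLaurent_jFun, ← qExp_comp_ut jFun_mem_cuspRing b hc.symm]
    congr 1
    funext τ
    show jFun (dil N (δ⁻¹ • τ)) = jFun (ut a e b τ)
    rw [h1, jFun_smul]
  have hzero : (qExp N ((δ • thetaInt hR : intFun N R) : ℍ → ℂ)).coeff
      (((N * N : ℕ) : ℤ) * (-1)) = 0 := by
    rw [hq]
    by_cases hd : ((a * c : ℕ) : ℤ) ∣ ((N * N : ℕ) : ℤ) * (-1)
    · obtain ⟨m, hm⟩ := hd
      rw [hm, qExpand_coeff_mul, twist_coeff, coeff_jqModC_of_lt ℂ (k := m) ?_, mul_zero]
      by_contra hcon
      have h2 : ((a * c : ℕ) : ℤ) * (-1) ≤ ((a * c : ℕ) : ℤ) * m :=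
        mul_le_mul_of_nonneg_left (not_lt.mp hcon) (Int.natCast_nonneg _)
      omega
    · exact qExpand_coeff_of_not_dvd _ _ hd
  have h0 : (intExp N R (δ • thetaInt hR)).coeff (((N * N : ℕ) : ℤ) * (-1)) = 0 :=
    Subtype.ext (by rw [coe_intExp_coeff, hzero, Subring.coe_zero])
  have h3 := congrArg (fun s : LaurentSeries k => s.coeff (((N * N : ℕ) : ℤ) * (-1))) h
  simp only [redExp_thetaInt, qExpand_qExpand] at h3
  rw [qExpand_coeff_mul, coeff_jqModC_neg_one, redExp, RingHom.comp_apply, coeffMap_coeff, h0,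
    map_zero] at h3
  exact zero_ne_one h3

/-- **Irreducibility of the modular equation after reduction.** -/
theorem eq_zero_of_eval_jqModC (hR : HasRoots N R) (hN : (N : ℂ)⁻¹ ∈ R) (hρ : Surjective ρ)
    (G : Polynomial k[X]) (hdeg : G.natDegree < (CongruenceSubgroup.Gamma0 N).index)
    (h0 : G.eval₂ (aeval (jqModC k)).toRingHom (qExpand k N (jqModC k)) = 0) : G = 0 := by
  classical
  set Γ₀ := CongruenceSubgroup.Gamma0 N
  have : Fintype (SL(2, ℤ) ⧸ Γ₀) := Fintype.ofFinite _
  set J : LaurentSeries k := qExpand k N (jqModC k) with hJ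
  set φ : k[X] →+* LaurentSeries k := (aeval J).toRingHom with hφ
  have hφq : φ = (qExpand k N).comp (aeval (jqModC k)).toRingHom := by
    refine RingHom.ext fun P => ?_
    rw [hφ, RingHom.comp_apply]
    exact aeval_algHom_apply (qExpandAlgHomC k N) (jqModC k) P
  obtain ⟨G', hG'⟩ := Polynomial.map_surjective (mapRingHom ρ) (Polynomial.map_surjective ρ hρ) G
  -- the translates of `θ` by the decomposition group are roots of `G`
  have hroot : ∀ δ ∈ decompGroup (M := N) ρ,
      G.eval₂ φ (redExp N R ρ (δ • thetaInt hR)) = 0 := by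
    intro δ hδ
    have key : ∀ x : intFun N R,
        redExp N R ρ (G'.eval₂ (polyInt N R) x) = G.eval₂ φ (redExp N R ρ x) := by
      intro x
      rw [hom_eval₂, ← hG', eval₂_map]
      congr 1
      refine RingHom.ext fun P => ?_
      simp only [RingHom.comp_apply, coe_mapRingHom, redExp_polyInt', hφ, hJ,
        AlgHom.toRingHom_eq_coe, AlgHom.coe_toRingHom]
    have hx : G'.eval₂ (polyInt N R) (thetaInt hR) ∈ redKer N R ρ := by
      rw [redKer, RingHom.mem_ker, key, redExp_thetaInt, hφq, ← hom_eval₂, h0, map_zero]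
    have hx' := (hδ _).mpr hx
    have hsmul : δ • G'.eval₂ (polyInt N R) (thetaInt hR) =
        G'.eval₂ (polyInt N R) (δ • thetaInt hR) := by
      rw [← MulSemiringAction.toRingHom_apply _ (intFun N R) δ, hom_eval₂]
      congr 1
      exact RingHom.ext fun P => smul_polyInt N R δ P
    rwa [hsmul, redKer, RingHom.mem_ker, key] at hx'
  choose δ hδ hδγ using fun c : SL(2, ℤ) ⧸ Γ₀ =>
    exists_decompGroup_mul_mem_gamma0 ρ hR hN c.out
  set r : SL(2, ℤ) ⧸ Γ₀ → LaurentSeries k := fun c =>
    redExp N R ρ ((δ c)⁻¹ • thetaInt hR) with hr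
  have hinj : Injective r := by
    intro c c' hcc
    have h1 : (δ c)⁻¹ • thetaInt hR - (δ c')⁻¹ • thetaInt hR ∈ redKer N R ρ := by
      rw [redKer, RingHom.mem_ker, map_sub]; exact sub_eq_zero.mpr hcc
    have h2 := ((hδ c') _).mpr h1
    rw [smul_sub, smul_inv_smul, ← mul_smul, redKer, RingHom.mem_ker, map_sub, sub_eq_zero] at h2
    have h3 := mem_gamma0_of_redExp_eq ρ hR h2
    rw [← QuotientGroup.out_eq' c, ← QuotientGroup.out_eq' c']
    refine (QuotientGroup.eq.mpr ?_)
    have h4 := mul_mem (mul_mem (inv_mem (hδγ c)) (inv_mem h3)) (hδγ c')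
    convert h4 using 1
    group
  by_contra hG0
  have hGm : G.map φ ≠ 0 := by
    rwa [Polynomial.map_ne_zero_iff]
    refine (injective_iff_map_eq_zero _).mpr fun P h => ?_
    by_contra hP
    exact (qExpand_jqModC_transcendental k N P hP).1 h
  have hsub : (Finset.univ.image r).val ⊆ (G.map φ).roots := by
    intro x hx
    obtain ⟨c, -, rfl⟩ := Finset.mem_image.mp hx
    rw [mem_roots hGm, IsRoot, eval_map]
    exact hroot _ (inv_mem (hδ c))
  have hcard := Finset.card_le_card (show Finset.univ.image r ⊆ (G.map φ).roots.toFinset from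
    fun x hx => Multiset.mem_toFinset.mpr (hsub hx))
  rw [Finset.card_image_of_injective _ hinj, Finset.card_univ, ← Nat.card_eq_fintype_card] at hcard
  have := hcard.trans ((Multiset.toFinset_card_le _).trans ((card_roots' _).trans natDegree_map_le))
  rw [← Subgroup.index] at this
  omega

end FermatAgent.Igusa

end
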