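import Mathlib.AlgebraicGeometry.Pullbacks
import Mathlib.AlgebraicGeometry.Properties
import Mathlib.AlgebraicGeometry.Morphisms.UnderlyingMap
import Mathlib.AlgebraicGeometry.PullbackCarrier

/-!
# Integral fibres from two charts

A fibre of a scheme covered by two affine charts is integral if the fibres of the charts are
domains and meet.
-/

set_option autoImplicit false

noncomputable section

open AlgebraicGeometry CategoryTheory CategoryTheory.Limits TensorProduct

namespace FermatAgent.Igusa

theorem range_iso_comp {X Y Z : Scheme} (e : X ⟶ Y) [IsIso e] (f : Y ⟶ Z) :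
    Set.range (e ≫ f).base = Set.range f.base := by
  rw [Scheme.Hom.comp_base, TopCat.coe_comp, Set.range_comp,
    Set.range_eq_univ.mpr e.surjective, Set.image_univ]

variable {R : Type} [CommRing R] (K : Type) [CommRing K] [Algebra R K] {X : Scheme}
  (π : X ⟶ Spec (CommRingCat.of R))

/-- The fibre of an affine chart, as an open piece of the fibre. -/
theorem exists_chart_fibre (A : Type) [CommRing A] [Algebra R A]
    (ι : Spec (CommRingCat.of A) ⟶ X) [IsOpenImmersion ι]
    (h : ι ≫ π = Spec.map (CommRingCat.ofHom (algebraMap R A))) :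
    ∃ p : Spec (CommRingCat.of (A ⊗[R] K)) ⟶
        pullback π (Spec.map (CommRingCat.ofHom (algebraMap R K))),
      IsOpenImmersion p ∧ Set.range p.base =
        (pullback.fst π (Spec.map (CommRingCat.ofHom (algebraMap R K)))).base ⁻¹'
          Set.range ι.base := by
  set g := Spec.map (CommRingCat.ofHom (algebraMap R K))
  set e : Spec (CommRingCat.of (A ⊗[R] K)) ≅ pullback ι (pullback.fst π g) :=
    (pullbackSpecIso R A K).symm ≪≫ pullback.congrHom h.symm rfl ≪≫
      (pullbackRightPullbackFstIso π g ι).symm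
  refine ⟨e.hom ≫ pullback.snd ι (pullback.fst π g), inferInstance, ?_⟩
  rw [range_iso_comp, Scheme.Pullback.range_snd]

theorem isIntegral_fibre_of_two_charts (A B M : Type) [CommRing A] [CommRing B] [CommRing M]
    [Algebra R A] [Algebra R B] [Algebra R M]
    (ι₁ : Spec (CommRingCat.of A) ⟶ X) (ι₂ : Spec (CommRingCat.of B) ⟶ X)
    [IsOpenImmersion ι₁] [IsOpenImmersion ι₂]
    (h₁ : ι₁ ≫ π = Spec.map (CommRingCat.ofHom (algebraMap R A)))
    (h₂ : ι₂ ≫ π = Spec.map (CommRingCat.ofHom (algebraMap R B)))
    (f₁ : Spec (CommRingCat.of M) ⟶ Spec (CommRingCat.of A))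
    (f₂ : Spec (CommRingCat.of M) ⟶ Spec (CommRingCat.of B))
    (hf : f₁ ≫ ι₁ = f₂ ≫ ι₂)
    (hM : f₁ ≫ ι₁ ≫ π = Spec.map (CommRingCat.ofHom (algebraMap R M)))
    (cov : ∀ x, x ∈ Set.range ι₁.base ∨ x ∈ Set.range ι₂.base)
    [IsDomain (A ⊗[R] K)] [IsDomain (B ⊗[R] K)] [Nontrivial (M ⊗[R] K)] :
    IsIntegral (pullback π (Spec.map (CommRingCat.ofHom (algebraMap R K)))) := by
  set g := Spec.map (CommRingCat.ofHom (algebraMap R K))
  obtain ⟨p₁, i₁, r₁⟩ := exists_chart_fibre K π A ι₁ h₁
  obtain ⟨p₂, i₂, r₂⟩ := exists_chart_fibre K π B ι₂ h₂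
  have o₁ : IsOpen (Set.range p₁.base) := p₁.isOpenEmbedding.isOpen_range
  have o₂ : IsOpen (Set.range p₂.base) := p₂.isOpenEmbedding.isOpen_range
  have hcov : ∀ x, x ∈ Set.range p₁.base ∨ x ∈ Set.range p₂.base := fun x => by
    rw [r₁, r₂]
    exact cov _
  have ir₁ : IsPreirreducible (Set.range p₁.base) := by
    rw [← Set.image_univ]
    exact (PreirreducibleSpace.isPreirreducible_univ).image _ p₁.continuous.continuousOn
  have ir₂ : IsPreirreducible (Set.range p₂.base) := by
    rw [← Set.image_univ]
    exact (PreirreducibleSpace.isPreirreducible_univ).image _ p₂.continuous.continuousOn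
  have hI : (Set.range p₁.base ∩ Set.range p₂.base).Nonempty := by
    obtain ⟨t⟩ : Nonempty (PrimeSpectrum (M ⊗[R] K)) := inferInstance
    let q : Spec (CommRingCat.of (M ⊗[R] K)) ⟶ pullback π g :=
      (pullbackSpecIso R M K).inv ≫ pullback.lift
        (pullback.fst (Spec.map (CommRingCat.ofHom (algebraMap R M))) g ≫ f₁ ≫ ι₁)
        (pullback.snd (Spec.map (CommRingCat.ofHom (algebraMap R M))) g)
        (by rw [Category.assoc, Category.assoc, hM, pullback.condition])
    have hq : q ≫ pullback.fst π g = ((pullbackSpecIso R M K).inv ≫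
        pullback.fst (Spec.map (CommRingCat.ofHom (algebraMap R M))) g ≫ f₁) ≫ ι₁ := by
      simp only [q, Category.assoc]
      exact congrArg _ (pullback.lift_fst _ _ _)
    have key : ∀ (Y : Scheme) (ι : Y ⟶ X) (m : Spec (CommRingCat.of (M ⊗[R] K)) ⟶ Y),
        q ≫ pullback.fst π g = m ≫ ι → (pullback.fst π g).base (q.base t) ∈ Set.range ι.base := by
      intro Y ι m hm
      refine ⟨m.base t, ?_⟩
      have := congrArg (fun f : Spec (CommRingCat.of (M ⊗[R] K)) ⟶ X => f.base t) hm.symm
      exact this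
    refine ⟨q.base t, ?_, ?_⟩
    · rw [r₁]
      exact key _ ι₁ _ hq
    · rw [r₂]
      refine key _ ι₂ ((pullbackSpecIso R M K).inv ≫
        pullback.fst (Spec.map (CommRingCat.ofHom (algebraMap R M))) g ≫ f₂) (hq.trans ?_)
      simp only [Category.assoc, hf]
  have hirr : IrreducibleSpace (pullback π g : Scheme) := by
    have s₁ := subset_closure_inter_of_isPreirreducible_of_isOpen ir₁ o₂ hI
    have s₂ := subset_closure_inter_of_isPreirreducible_of_isOpen ir₂ o₁ (by rwa [Set.inter_comm])
    rw [Set.inter_comm (Set.range p₂.base)] at s₂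
    have hu : closure (Set.range p₁.base ∩ Set.range p₂.base) = Set.univ :=
      Set.eq_univ_of_forall fun x => (hcov x).elim (fun h => s₁ h) (fun h => s₂ h)
    have hp := (ir₁.open_subset (o₁.inter o₂) Set.inter_subset_left).closure
    rw [hu] at hp
    exact { isPreirreducible_univ := hp, toNonempty := hI.to_subtype.map Subtype.val }
  have hred : IsReduced (pullback π g) := by
    refine @isReduced_of_isReduced_stalk _ fun x => ?_
    rcases hcov x with ⟨a, rfl⟩ | ⟨a, rfl⟩
    · exact isReduced_of_injective (p₁.stalkMap a).hom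
        (asIso (p₁.stalkMap a)).commRingCatIsoToRingEquiv.injective
    · exact isReduced_of_injective (p₂.stalkMap a).hom
        (asIso (p₂.stalkMap a)).commRingCatIsoToRingEquiv.injective
  exact isIntegral_of_irreducibleSpace_of_isReduced _

end FermatAgent.Igusa

end
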