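import Fermat.Agent.ModCurve.Fun.JFun
import Mathlib.NumberTheory.ModularForms.CongruenceSubgroups

/-!
# Integral modular functions on `Γ(M)`

Modular functions on `Γ(M)` without poles on `ℍ` whose expansions at all cusps have
coefficients in a given subring of `ℂ`.

Shared foundation of the Igusa model files. The expansion parameter is `exp (2 π i τ / M)`.
-/

set_option autoImplicit false

noncomputable section

open UpperHalfPlane hiding I
open Complex Filter Function Polynomial CongruenceSubgroup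
open scoped Real Topology MatrixGroups Manifold ModularForm

namespace FermatAgent.Igusa

open FermatAgent.ModFun ModularCurve

/-- The Laurent series with all coefficients in `R`. -/
def seriesSubring (R : Subring ℂ) : Subring (LaurentSeries ℂ) := (coeffMap R.subtype).range

theorem mem_seriesSubring {R : Subring ℂ} {s : LaurentSeries ℂ} :
    s ∈ seriesSubring R ↔ ∀ n, s.coeff n ∈ R := by
  refine ⟨?_, fun h => ⟨⟨fun n => ⟨s.coeff n, h n⟩, s.isPWO_support'.mono ?_⟩, ?_⟩⟩
  · rintro ⟨t, rfl⟩ n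
    exact (t.coeff n).2
  · intro n hn hs
    exact hn (Subtype.ext hs)
  · ext n; rfl

theorem coeffMap_injective {A B : Type*} [CommRing A] [CommRing B] {f : A →+* B}
    (hf : Injective f) : Injective (coeffMap f) := fun s t h => by
  ext n
  exact hf (by simpa using congrArg (fun u : LaurentSeries B => u.coeff n) h)

variable (M : ℕ) [NeZero M] (R : Subring ℂ)

/-- Precomposition with `τ ↦ M τ`. -/
def compDil : (ℍ → ℂ) →ₐ[ℂ] (ℍ → ℂ) where
  toFun f := f ∘ dil M
  map_one' := rfl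
  map_mul' _ _ := rfl
  map_zero' := rfl
  map_add' _ _ := rfl
  commutes' _ := rfl

@[simp] theorem compDil_apply (f : ℍ → ℂ) : compDil M f = f ∘ dil M := rfl

/-- The Laurent expansion in `exp (2 π i τ / M)`. -/
def qExp (f : ℍ → ℂ) : LaurentSeries ℂ := qLaurent (f ∘ dil M)

/-- Functions with a Laurent expansion in `exp (2 π i τ / M)`. -/
def cuspRingAt : Subalgebra ℂ (ℍ → ℂ) := cuspRing.comap (compDil M)

theorem mem_cuspRingAt {f : ℍ → ℂ} : f ∈ cuspRingAt M ↔ f ∘ dil M ∈ cuspRing := Iff.rfl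

/-- `qExp` as a homomorphism. -/
def qExpHom : cuspRingAt M →ₐ[ℂ] LaurentSeries ℂ :=
  qLaurentHom.comp (((compDil M).comp (cuspRingAt M).val).codRestrict cuspRing fun f => f.2)

@[simp] theorem qExpHom_apply (f : cuspRingAt M) : qExpHom M f = qExp M f := rfl

/-- `f` has an expansion in `exp (2 π i τ / M)` with coefficients in `R`. -/
def expSubring : Subring (ℍ → ℂ) :=
  ((seriesSubring R).comap (qExpHom M).toRingHom).map (cuspRingAt M).val.toRingHom

theorem mem_expSubring {f : ℍ → ℂ} :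
    f ∈ expSubring M R ↔ f ∈ cuspRingAt M ∧ ∀ n, (qExp M f).coeff n ∈ R := by
  constructor
  · rintro ⟨g, hg, rfl⟩
    exact ⟨g.2, mem_seriesSubring.mp hg⟩
  · rintro ⟨h1, h2⟩
    exact ⟨⟨f, h1⟩, mem_seriesSubring.mpr h2, rfl⟩

/-- Precomposition with the action of `γ`. -/
def compSmul (γ : SL(2, ℤ)) : (ℍ → ℂ) →+* (ℍ → ℂ) where
  toFun f τ := f (γ • τ)
  map_one' := rfl
  map_mul' _ _ := rfl
  map_zero' := rfl
  map_add' _ _ := rfl

@[simp] theorem compSmul_apply (γ : SL(2, ℤ)) (f : ℍ → ℂ) (τ : ℍ) :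
    compSmul γ f τ = f (γ • τ) := rfl

/-- Holomorphic `Γ(M)`-invariant functions on `ℍ` whose expansions at all cusps have
coefficients in `R`. -/
def intFun : Subring (ℍ → ℂ) where
  carrier := {f | (∀ γ ∈ CongruenceSubgroup.Gamma M, ∀ τ : ℍ, f (γ • τ) = f τ) ∧
    ∀ γ : SL(2, ℤ), compSmul γ f ∈ expSubring M R}
  one_mem' := ⟨fun _ _ _ => rfl, fun _ => one_mem (expSubring M R)⟩
  zero_mem' := ⟨fun _ _ _ => rfl, fun _ => zero_mem (expSubring M R)⟩
  mul_mem' {f g} hf hg := ⟨fun γ hγ τ => by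
      show f (γ • τ) * g (γ • τ) = f τ * g τ; rw [hf.1 γ hγ, hg.1 γ hγ], fun γ => by
    rw [map_mul]; exact mul_mem (hf.2 γ) (hg.2 γ)⟩
  add_mem' {f g} hf hg := ⟨fun γ hγ τ => by
      show f (γ • τ) + g (γ • τ) = f τ + g τ; rw [hf.1 γ hγ, hg.1 γ hγ], fun γ => by
    rw [map_add]; exact add_mem (hf.2 γ) (hg.2 γ)⟩
  neg_mem' {f} hf := ⟨fun γ hγ τ => by
      show -f (γ • τ) = -f τ; rw [hf.1 γ hγ], fun γ => by
    rw [map_neg]; exact neg_mem (hf.2 γ)⟩

theorem mem_intFun {f : ℍ → ℂ} :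
    f ∈ intFun M R ↔ (∀ γ ∈ CongruenceSubgroup.Gamma M, ∀ τ : ℍ, f (γ • τ) = f τ) ∧
      ∀ γ : SL(2, ℤ), compSmul γ f ∈ cuspRingAt M ∧ ∀ n, (qExp M (compSmul γ f)).coeff n ∈ R := by
  show (_ ∧ _) ↔ _
  simp only [mem_expSubring]

theorem compSmul_one (f : ℍ → ℂ) : compSmul 1 f = f := by
  funext τ; simp

theorem intFun_le_expSubring : intFun M R ≤ expSubring M R := fun f hf => by
  simpa [compSmul_one] using hf.2 1

variable {M R} in
theorem compSmul_mem_intFun {f : ℍ → ℂ} (hf : f ∈ intFun M R) (γ : SL(2, ℤ)) :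
    compSmul γ f ∈ intFun M R := by
  refine ⟨fun δ hδ τ => ?_, fun δ => ?_⟩
  · have hN : γ * δ * γ⁻¹ ∈ CongruenceSubgroup.Gamma M := (CongruenceSubgroup.Gamma_normal M).conj_mem δ hδ γ
    simp only [compSmul_apply]
    rw [show γ • δ • τ = (γ * δ * γ⁻¹) • γ • τ by simp [mul_smul], hf.1 _ hN]
  · convert hf.2 (γ * δ) using 1
    funext τ
    simp [mul_smul]

instance : MulSemiringAction SL(2, ℤ) (intFun M R) where
  smul γ f := ⟨compSmul γ⁻¹ (f : ℍ → ℂ), compSmul_mem_intFun f.2 _⟩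
  one_smul f := Subtype.ext <| funext fun τ => by
    show (f : ℍ → ℂ) ((1 : SL(2, ℤ))⁻¹ • τ) = _
    simp
  mul_smul γ δ f := Subtype.ext <| funext fun τ => by
    show (f : ℍ → ℂ) ((γ * δ)⁻¹ • τ) = (f : ℍ → ℂ) (δ⁻¹ • γ⁻¹ • τ)
    rw [mul_inv_rev, mul_smul]
  smul_zero _ := rfl
  smul_add _ _ _ := rfl
  smul_one _ := rfl
  smul_mul _ _ _ := rfl

theorem smul_apply (γ : SL(2, ℤ)) (f : intFun M R) (τ : ℍ) :
    ((γ • f : intFun M R) : ℍ → ℂ) τ = (f : ℍ → ℂ) (γ⁻¹ • τ) := rfl

theorem smul_of_mem_gamma {γ : SL(2, ℤ)} (hγ : γ ∈ CongruenceSubgroup.Gamma M) (f : intFun M R) : γ • f = f :=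
  Subtype.ext <| funext fun τ => by rw [smul_apply]; exact f.2.1 _ (inv_mem hγ) τ

/-- The expansion at `∞` with coefficients in `R`. -/
def intExp : intFun M R →+* LaurentSeries R :=
  let φ : intFun M R →+* LaurentSeries ℂ := (qExpHom M).toRingHom.comp
    ((intFun M R).subtype.codRestrict (cuspRingAt M)
      fun f => ((mem_expSubring M R).mp (intFun_le_expSubring M R f.2)).1)
  have hφ : ∀ f, φ f ∈ seriesSubring R := fun f =>
    mem_seriesSubring.mpr ((mem_expSubring M R).mp (intFun_le_expSubring M R f.2)).2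
  (RingEquiv.ofBijective (coeffMap R.subtype).rangeRestrict
    ⟨fun _ _ h => coeffMap_injective R.subtype_injective (congrArg Subtype.val h),
      RingHom.rangeRestrict_surjective _⟩).symm.toRingHom.comp (φ.codRestrict _ hφ)

@[simp] theorem coeffMap_intExp (f : intFun M R) :
    coeffMap R.subtype (intExp M R f) = qExp M (f : ℍ → ℂ) := by
  have h := RingEquiv.apply_symm_apply (RingEquiv.ofBijective (coeffMap R.subtype).rangeRestrict
    ⟨fun _ _ h => coeffMap_injective R.subtype_injective (congrArg Subtype.val h),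
      RingHom.rangeRestrict_surjective _⟩) ⟨qExp M (f : ℍ → ℂ),
        mem_seriesSubring.mpr ((mem_expSubring M R).mp (intFun_le_expSubring M R f.2)).2⟩
  exact congrArg Subtype.val h

theorem coe_intExp_coeff (f : intFun M R) (n : ℤ) :
    (((intExp M R f).coeff n : R) : ℂ) = (qExp M (f : ℍ → ℂ)).coeff n := by
  rw [← coeffMap_intExp]; rfl

theorem qExpHom_injective : Injective (qExpHom M) := by
  intro f g h
  have h2 := qLaurentHom_injective (a₁ := ⟨(f : ℍ → ℂ) ∘ dil M, f.2⟩)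
    (a₂ := ⟨(g : ℍ → ℂ) ∘ dil M, g.2⟩) h
  refine Subtype.ext (funext fun τ => ?_)
  obtain ⟨σ, rfl⟩ : ∃ σ, dil M σ = τ :=
    ⟨(⟨((M : ℝ))⁻¹, inv_pos.mpr (Nat.cast_pos.mpr (NeZero.pos M))⟩ : {x : ℝ // 0 < x}) • τ, by
      ext; simp [NeZero.ne M]⟩
  exact congrFun (congrArg Subtype.val h2) σ

theorem intExp_injective : Injective (intExp M R) := by
  intro f g h
  have h1 : qExp M (f : ℍ → ℂ) = qExp M (g : ℍ → ℂ) := by
    rw [← coeffMap_intExp, h, coeffMap_intExp]
  have := qExpHom_injective M (a₁ := ⟨_, ((mem_expSubring M R).mp (intFun_le_expSubring M R f.2)).1⟩)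
    (a₂ := ⟨_, ((mem_expSubring M R).mp (intFun_le_expSubring M R g.2)).1⟩) h1
  exact Subtype.ext (congrArg Subtype.val this :)

instance : IsDomain (intFun M R) :=
  Injective.isDomain (intExp M R) (intExp_injective M R)

/-- Reduction of the expansion at `∞` along a ring homomorphism on coefficients. -/
def redExp {k : Type*} [CommRing k] (ρ : R →+* k) : intFun M R →+* LaurentSeries k :=
  (coeffMap ρ).comp (intExp M R)

/-- The kernel of the reduced expansion, a prime ideal when `k` is a domain. -/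
def redKer {k : Type*} [CommRing k] (ρ : R →+* k) : Ideal (intFun M R) :=
  RingHom.ker (redExp M R ρ)

instance {k : Type*} [CommRing k] [IsDomain k] (ρ : R →+* k) : (redKer M R ρ).IsPrime :=
  RingHom.ker_isPrime _

end FermatAgent.Igusa

end
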