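import Fermat.Agent.Igusa.RatChart

/-!
# The fibres of the Igusa charts in characteristic `ℓ` are domains
-/

set_option autoImplicit false

noncomputable section

open Function Polynomial TensorProduct

namespace FermatAgent.Igusa

open FermatAgent.ModFun ModularCurve ModularCurve.IgusaScheme
open GaloisRep (ratLocalizedAt)

variable {N : ℕ} [NeZero N] {ℓ : ℕ} [Fact ℓ.Prime]
variable {K : Type*} [Field K] [CharP K ℓ] [Algebra (ratLocalizedAt ℓ) K]

theorem algebraMap_eq_castHom_zlRes (a : ratLocalizedAt ℓ) :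
    algebraMap (ratLocalizedAt ℓ) K a = ZMod.castHom dvd_rfl K (zlRes ℓ (zlCast' ℓ a)) := by
  have hmul : a * ((a : ℚ).den : ratLocalizedAt ℓ) = ((a : ℚ).num : ratLocalizedAt ℓ) :=
    Subtype.ext (by
      rw [Subring.coe_mul, Subring.coe_natCast, Subring.coe_intCast]
      exact Rat.mul_den_eq_num _)
  set f : ratLocalizedAt ℓ →+* K :=
    (ZMod.castHom dvd_rfl K).comp ((zlRes ℓ).comp (zlCast' ℓ))
  have hne : (((a : ℚ).den : ℕ) : K) ≠ 0 := by
    rw [Ne, CharP.cast_eq_zero_iff K ℓ, ← (Fact.out : ℓ.Prime).coprime_iff_not_dvd, Nat.coprime_comm]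
    exact a.2
  show algebraMap (ratLocalizedAt ℓ) K a = f a
  refine mul_right_cancel₀ hne ?_
  rw [← map_natCast (algebraMap (ratLocalizedAt ℓ) K) (a : ℚ).den, ← map_mul, hmul, map_intCast,
    map_natCast, ← map_natCast f (a : ℚ).den, ← map_mul, hmul, map_intCast]

omit [Fact ℓ.Prime] [CharP K ℓ] in
theorem algebraMap_series_eq (a : ratLocalizedAt ℓ) :
    algebraMap (ratLocalizedAt ℓ) (LaurentSeries K) a =
      HahnSeries.C (algebraMap (ratLocalizedAt ℓ) K a) := by
  rw [HahnSeries.algebraMap_apply', HahnSeries.C_apply, PowerSeries.algebraMap_apply,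
    HahnSeries.ofPowerSeries_C]
  rfl

/-- The constants as an algebra map. -/
def constAlgHom : K →ₐ[ratLocalizedAt ℓ] LaurentSeries K where
  __ := (HahnSeries.C : K →+* LaurentSeries K)
  commutes' a := (algebraMap_series_eq a).symm

omit [Fact ℓ.Prime] [CharP K ℓ] in
@[simp] theorem constAlgHom_apply (c : K) : constAlgHom (ℓ := ℓ) c = HahnSeries.C c := rfl

/-- The tower for the algebra structure on Laurent series. -/
instance isScalarTower_series : @IsScalarTower (ratLocalizedAt ℓ) (ratLocalizedAt ℓ)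
    (LaurentSeries K) _ Algebra.toSMul Algebra.toSMul :=
  IsScalarTower.of_algebraMap_eq fun _ => rfl

variable (ℓ) (B : Type*) [CommRing B] [Algebra (ratLocalizedAt ℓ) B]

/-- If reduction `B → 𝔽_ℓ((q))` has kernel `ℓB`, then `B ⊗ K` embeds into `K((q))`. -/
theorem exists_injective_to_laurentSeries (φ : B →+* LaurentSeries (ZMod ℓ))
    (hφ : ∀ a : ratLocalizedAt ℓ,
      φ (algebraMap (ratLocalizedAt ℓ) B a) = HahnSeries.C (zlRes ℓ (zlCast' ℓ a)))
    (hker : ∀ x, φ x = 0 → ∃ y, x = (ℓ : B) * y) :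
    ∃ Φ : B ⊗[ratLocalizedAt ℓ] K →+* LaurentSeries K, Injective Φ := by
  classical
  let _ := ZMod.algebra K ℓ
  set ψ : B →+* LaurentSeries K := (coeffMap (ZMod.castHom dvd_rfl K)).comp φ with hψ
  have hψa : ∀ a : ratLocalizedAt ℓ, ψ (algebraMap (ratLocalizedAt ℓ) B a) =
      algebraMap (ratLocalizedAt ℓ) (LaurentSeries K) a := by
    intro a
    rw [hψ, RingHom.comp_apply, hφ, coeffMap_C, ← algebraMap_eq_castHom_zlRes,
      algebraMap_series_eq]
  set ψA : B →ₐ[ratLocalizedAt ℓ] LaurentSeries K := { ψ with commutes' := hψa }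
  set cA : K →ₐ[ratLocalizedAt ℓ] LaurentSeries K :=
    constAlgHom
  set Φ : B ⊗[ratLocalizedAt ℓ] K →ₐ[ratLocalizedAt ℓ] LaurentSeries K :=
    Algebra.TensorProduct.lift ψA cA fun _ _ => Commute.all _ _
  refine ⟨Φ.toRingHom, (injective_iff_map_eq_zero _).mpr fun x hx => ?_⟩
  set e := Module.Basis.ofVectorSpace (ZMod ℓ) K
  obtain ⟨f, rfl⟩ : ∃ f : Module.Basis.ofVectorSpaceIndex (ZMod ℓ) K →₀ B,
      f.sum (fun i b => b ⊗ₜ[ratLocalizedAt ℓ] e i) = x := by
    clear hx
    induction x using TensorProduct.induction_on with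
    | zero => exact ⟨0, Finsupp.sum_zero_index⟩
    | tmul b c =>
      refine ⟨(e.repr c).mapRange (fun n => (n.val : ℕ) • b) (by simp), ?_⟩
      rw [Finsupp.sum_mapRange_index (by simp)]
      conv_rhs => rw [← e.linearCombination_repr c, Finsupp.linearCombination_apply,
        Finsupp.sum, TensorProduct.tmul_sum]
      refine Finset.sum_congr rfl fun i _ => ?_
      show (((e.repr c) i).val • b) ⊗ₜ[ratLocalizedAt ℓ] e i = _
      rw [TensorProduct.smul_tmul (R := ratLocalizedAt ℓ) (r := ((e.repr c i).val : ℕ))]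
      congr 1
      rw [Algebra.smul_def (e.repr c i), nsmul_eq_mul]
      congr 1
      exact ((map_natCast (algebraMap (ZMod ℓ) K) _).symm.trans
        (congrArg _ (ZMod.natCast_zmod_val (e.repr c i))))
    | add x y hx hy =>
      obtain ⟨f, rfl⟩ := hx
      obtain ⟨g, rfl⟩ := hy
      exact ⟨f + g, Finsupp.sum_add_index (by simp) fun i _ b b' => TensorProduct.add_tmul b b' _⟩
  have hval : ∀ i, φ (f i) = 0 := by
    intro i
    ext n
    have h := congrArg (fun s : LaurentSeries K => s.coeff n) hx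
    simp only [AlgHom.toRingHom_eq_coe, RingHom.coe_coe, Finsupp.sum, map_sum, HahnSeries.coeff_sum,
      HahnSeries.coeff_zero] at h
    have hterm : ∀ j, (Φ (f j ⊗ₜ[ratLocalizedAt ℓ] e j)).coeff n = (φ (f j)).coeff n • e j := by
      intro j
      rw [Algebra.TensorProduct.lift_tmul]
      show (ψ (f j) * cA (e j)).coeff n = _
      rw [constAlgHom_apply, HahnSeries.C_apply, mul_comm,
        HahnSeries.coeff_single_zero_mul, hψ, RingHom.comp_apply, coeffMap_coeff, Algebra.smul_def,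
        mul_comm]
      rfl
    simp only [hterm] at h
    by_cases hi : i ∈ f.support
    · rw [HahnSeries.coeff_zero]
      exact linearIndependent_iff'.mp e.linearIndependent f.support _ h i hi
    · simp [Finsupp.notMem_support_iff.mp hi]
  refine Finset.sum_eq_zero fun i _ => ?_
  obtain ⟨y, hy⟩ := hker _ (hval i)
  show f i ⊗ₜ[ratLocalizedAt ℓ] e i = 0
  rw [hy, ← nsmul_eq_mul, TensorProduct.smul_tmul, nsmul_eq_mul,
    show (ℓ : K) = 0 from CharP.cast_eq_zero K ℓ, zero_mul, TensorProduct.tmul_zero]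

theorem isDomain_tensor (φ : B →+* LaurentSeries (ZMod ℓ))
    (hφ : ∀ a : ratLocalizedAt ℓ,
      φ (algebraMap (ratLocalizedAt ℓ) B a) = HahnSeries.C (zlRes ℓ (zlCast' ℓ a)))
    (hker : ∀ x, φ x = 0 → ∃ y, x = (ℓ : B) * y) :
    IsDomain (B ⊗[ratLocalizedAt ℓ] K) := by
  obtain ⟨Φ, hΦ⟩ := exists_injective_to_laurentSeries ℓ B (K := K) φ hφ hker
  exact Injective.isDomain Φ hΦ

variable (N) (hℓN : ¬ ℓ ∣ N)

theorem isChartVar_jFull :
    IsChartVar (zlVal ℓ) (zlRes ℓ) N ((jFull N : modularFunctionFieldFull N) : LaurentSeries ℚ) := by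
  rw [coe_jFull, ← jqModC_rat]
  exact isChartVar_jqModC (zlVal ℓ) (zlRes ℓ) N

include hℓN in
theorem isChartVar_jFull_inv :
    IsChartVar (zlVal ℓ) (zlRes ℓ) N
      (((jFull N)⁻¹ : modularFunctionFieldFull N) : LaurentSeries ℚ) := by
  rw [show (((jFull N)⁻¹ : modularFunctionFieldFull N) : LaurentSeries ℚ) =
      ((jFull N : modularFunctionFieldFull N) : LaurentSeries ℚ)⁻¹ from map_inv₀ (fieldCoe N) _,
    coe_jFull, ← jqModC_rat]
  exact isChartVar_inv (zlVal ℓ) (zlRes ℓ) N ℓ hℓN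

include hℓN in
theorem isDomain_chartFin_tensor : IsDomain (chartAlgFin N ℓ ⊗[ratLocalizedAt ℓ] K) :=
  isDomain_tensor ℓ _ (chartRed N ℓ (jFull N) hℓN (isChartVar_jFull N ℓ))
    (chartRed_algebraMap N ℓ _ hℓN _) fun _ h => exists_eq_mul_of_chartRed_eq_zero N ℓ _ hℓN _ h

include hℓN in
theorem isDomain_chartInf_tensor : IsDomain (chartAlgInf N ℓ ⊗[ratLocalizedAt ℓ] K) :=
  isDomain_tensor ℓ _ (chartRed N ℓ (jFull N)⁻¹ hℓN (isChartVar_jFull_inv N ℓ hℓN))
    (chartRed_algebraMap N ℓ _ hℓN _) fun _ h => exists_eq_mul_of_chartRed_eq_zero N ℓ _ hℓN _ h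

include hℓN in
theorem nontrivial_chartMid_tensor : Nontrivial (chartAlgMid N ℓ ⊗[ratLocalizedAt ℓ] K) := by
  let := (inclFin N ℓ).toRingHom.toAlgebra
  have := isLocalization_away_inclFin N ℓ
  have hs := isChartVar_jFull N ℓ
  set φ := chartRed N ℓ (jFull N) hℓN hs
  set ψ : chartAlgFin N ℓ →+* LaurentSeries K := (coeffMap (ZMod.castHom dvd_rfl K)).comp φ with hψ
  have hj : IsUnit (ψ (jChartFin N ℓ)) := by
    refine isUnit_iff_ne_zero.mpr ?_
    rw [hψ, RingHom.comp_apply, map_ne_zero_iff _ (coeffMap_injective (ZMod.castHom dvd_rfl K).injective)]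
    intro h
    obtain ⟨hm, hred⟩ := coeffMap_mem_gaussRing (zlVal ℓ) (zlRes ℓ) N ℓ hℓN
      (y := jqModC (zlVal ℓ)) (by rw [coeffMap_jqModC]; exact jqModC_mem ℚ N)
    rw [coeffMap_jqModC (zlRes ℓ)] at hred
    refine jqModC_ne_zero_of_nontrivial (ZMod ℓ) (hred.symm.trans (Eq.trans ?_ h))
    refine congrArg (gaussRed (zlVal ℓ) (zlRes ℓ) N) (Subtype.ext ?_)
    refine (coeffMap_jqModC _).trans ?_
    rw [jqModC_rat]
    exact (coe_jFull N).symm
  set χ := IsLocalization.Away.lift (S := chartAlgMid N ℓ) (jChartFin N ℓ) hj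
  set χA : chartAlgMid N ℓ →ₐ[ratLocalizedAt ℓ] LaurentSeries K :=
    { χ with
      commutes' := fun a => by
        have h1 : algebraMap (chartAlgFin N ℓ) (chartAlgMid N ℓ)
            (algebraMap (ratLocalizedAt ℓ) (chartAlgFin N ℓ) a) =
            algebraMap (ratLocalizedAt ℓ) (chartAlgMid N ℓ) a := (inclFin N ℓ).commutes a
        show χ _ = _
        rw [← h1, IsLocalization.Away.lift_eq, hψ, RingHom.comp_apply, chartRed_algebraMap,
          coeffMap_C, ← algebraMap_eq_castHom_zlRes, algebraMap_series_eq] }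
  exact RingHom.domain_nontrivial (Algebra.TensorProduct.lift χA
    (constAlgHom)
    fun _ _ => Commute.all _ _).toRingHom

end FermatAgent.Igusa

end
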