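import Fermat.Agent.Igusa.Decomposition

/-!
# Transitivity of the decomposition group on the cosets of `Γ₀(N)`
-/

set_option autoImplicit false

noncomputable section

open UpperHalfPlane hiding I
open Complex Filter Function Polynomial
open scoped Real Topology MatrixGroups Manifold ModularForm

namespace FermatAgent.Igusa

open FermatAgent.ModFun ModularCurve

theorem order_eq_of_coeff {A : Type*} [Zero A] {x : LaurentSeries A} {n : ℤ}
    (h0 : x.coeff n ≠ 0) (hlt : ∀ i < n, x.coeff i = 0) : x.order = n := by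
  refine le_antisymm (HahnSeries.order_le_of_coeff_ne_zero h0) ?_
  by_contra h
  have hx : x ≠ 0 := fun h' => h0 (by simp [h'])
  exact HahnSeries.coeff_order_eq_zero.not.mpr hx (hlt _ (not_le.mp h))

theorem order_qExpand {A : Type*} [CommRing A] (m : ℕ) [NeZero m] {x : LaurentSeries A}
    (hx : x ≠ 0) : (qExpand A m x).order = (m : ℤ) * x.order := by
  refine order_eq_of_coeff ?_ fun i hi => ?_
  · rw [qExpand_coeff_mul]; exact HahnSeries.coeff_order_eq_zero.not.mpr hx
  · by_cases hd : (m : ℤ) ∣ i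
    · obtain ⟨c, rfl⟩ := hd
      rw [qExpand_coeff_mul]
      exact HahnSeries.coeff_eq_zero_of_lt_order
        (lt_of_mul_lt_mul_left hi (Int.natCast_nonneg m))
    · exact qExpand_coeff_of_not_dvd _ _ hd

theorem order_deltaModC (A : Type*) [CommRing A] [Nontrivial A] : (deltaModC A).order = 1 := by
  refine order_eq_of_coeff ?_ fun i hi => ?_
  · rw [deltaModC, HahnSeries.coeff_single_mul, sub_self, one_mul,
      show (0 : ℤ) = ((0 : ℕ) : ℤ) from rfl, HahnSeries.ofPowerSeries_apply_coeff,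
      PowerSeries.coeff_map, PowerSeries.coeff_zero_eq_constantCoeff,
      constantCoeff_dedekindEtaUnit, map_one]
    exact one_ne_zero
  · rw [deltaModC, HahnSeries.coeff_single_mul, ofPowerSeries_coeff_of_neg _ (by omega), mul_zero]

theorem order_invDeltaModC (A : Type*) [CommRing A] [Nontrivial A] :
    (invDeltaModC A).order = -1 := by
  refine order_eq_of_coeff ?_ fun i hi => ?_
  · rw [invDeltaModC, HahnSeries.coeff_single_mul, sub_self, one_mul,
      show (0 : ℤ) = ((0 : ℕ) : ℤ) from rfl, HahnSeries.ofPowerSeries_apply_coeff,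
      PowerSeries.coeff_map, PowerSeries.coeff_zero_eq_constantCoeff,
      constantCoeff_dedekindEtaUnitInv, map_one]
    exact one_ne_zero
  · rw [invDeltaModC, HahnSeries.coeff_single_mul, ofPowerSeries_coeff_of_neg _ (by omega), mul_zero]

theorem qExpand_jqModC_transcendental (k : Type*) [Field k] (m : ℕ) [NeZero m] (P : k[X])
    (hP : P ≠ 0) : (aeval (qExpand k m (jqModC k)) P) ≠ 0 ∧
      (aeval (qExpand k m (jqModC k)) P).order ≤ -((m : ℤ) * P.natDegree) := by
  have hq : aeval (qExpand k m (jqModC k)) P = qExpandAlgHomC k m (aeval (jqModC k) P) := by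
    rw [← aeval_algHom_apply]; rfl
  have hc : (aeval (jqModC k) P).coeff (-(P.natDegree : ℤ)) = P.leadingCoeff := by
    rw [aeval_eq_sum_range, HahnSeries.coeff_sum, Finset.sum_eq_single P.natDegree]
    · rw [Algebra.smul_def, algebraMap_laurentSeries_eq_single, HahnSeries.coeff_single_zero_mul,
        coeff_jqModC_pow_self, mul_one, Polynomial.leadingCoeff]
    · intro i hi hne
      have : i < P.natDegree := by simp only [Finset.mem_range] at hi; omega
      rw [Algebra.smul_def, algebraMap_laurentSeries_eq_single, HahnSeries.coeff_single_zero_mul,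
        coeff_jqModC_pow_of_lt k (by omega), mul_zero]
    · simp
  have hl : P.leadingCoeff ≠ 0 := leadingCoeff_ne_zero.mpr hP
  have hne : (aeval (qExpand k m (jqModC k)) P).coeff ((m : ℤ) * (-(P.natDegree : ℤ))) ≠ 0 := by
    rw [hq, qExpandAlgHomC_apply, qExpand_coeff_mul, hc]; exact hl
  refine ⟨fun h => hne (by rw [h]; rfl), ?_⟩
  rw [← mul_neg]
  exact HahnSeries.order_le_of_coeff_ne_zero hne

section

variable {M : ℕ} [NeZero M] {R : Subring ℂ} {k : Type*} [Field k] (ρ : R →+* k)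

theorem eval₂_C_comp (P : R[X]) (x : LaurentSeries k) :
    P.eval₂ (HahnSeries.C.comp ρ) x = aeval x (P.map ρ) := by
  rw [aeval_def, eval₂_map]
  congr 1
  refine RingHom.ext fun c => ?_
  rw [RingHom.comp_apply, RingHom.comp_apply, algebraMap_laurentSeries_eq_single,
    HahnSeries.C_apply]

theorem redExp_polyInt' (P : R[X]) :
    redExp M R ρ (polyInt M R P) = aeval (qExpand k M (jqModC k)) (P.map ρ) := by
  rw [redExp_polyInt, eval₂_C_comp]

/-- An element of the form `Δ(p τ)/Δ(τ)` is moved by the decomposition group. -/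
theorem exists_not_dvd_of_prime (hR : HasRoots M R) (hM : (M : ℂ)⁻¹ ∈ R) {p : ℕ}
    (hp : p.Prime) (hpM : p ∣ M) :
    ∃ δ ∈ decompGroup (M := M) ρ, ¬ (p : ℤ) ∣ δ 1 0 := by
  by_contra hcon
  push Not at hcon
  have : NeZero p := ⟨hp.ne_zero⟩
  set u : intFun M R := ⟨deltaRatio p, (deltaRatio_mem_intFun hR hM hpM).1⟩ with hu
  have hfix : ∀ δ ∈ decompGroup (M := M) ρ, δ • u = u := fun δ hδ =>
    Subtype.ext <| funext fun τ => by
      show deltaRatio p (δ⁻¹ • τ) = deltaRatio p τ
      exact (deltaRatio_smul_of_dvd p (hcon _ (inv_mem hδ)) τ).1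
  obtain ⟨P, Q, hQ, hPQ⟩ := exists_rational_of_fixed ρ hfix
  obtain ⟨F, hFm, hF⟩ := exists_monic_root u
  set J : LaurentSeries k := qExpand k M (jqModC k) with hJ
  rw [redExp_polyInt', redExp_polyInt'] at hPQ
  rw [redExp_polyInt'] at hQ
  have hinj : Injective (aeval J : k[X] →ₐ[k] LaurentSeries k) :=
    (injective_iff_map_eq_zero _).mpr fun p' h => by
      by_contra hp'
      exact (qExpand_jqModC_transcendental k M p' hp').1 h
  -- `red u` is `P/Q` and integral over `k[J]`
  set φ : RatFunc k →ₐ[k] LaurentSeries k := RatFunc.liftAlgHom (aeval J) fun s hs => by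
    rw [Submonoid.mem_comap, mem_nonZeroDivisors_iff_ne_zero]
    exact (map_ne_zero_iff _ hinj).mpr (mem_nonZeroDivisors_iff_ne_zero.mp hs) with hφ
  have hφX : ∀ G : k[X], φ (algebraMap k[X] (RatFunc k) G) = aeval J G := fun G => by
    rw [hφ, RatFunc.liftAlgHom_apply, RatFunc.num_algebraMap, RatFunc.denom_algebraMap, map_one,
      div_one]
  set r : RatFunc k := algebraMap k[X] (RatFunc k) (P.map ρ) / algebraMap k[X] (RatFunc k) (Q.map ρ)
    with hr
  have hru : φ r = redExp M R ρ u := by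
    rw [hr, map_div₀, hφX, hφX, div_eq_iff hQ, ← hPQ, mul_comm]
  have hint : IsIntegral k[X] r := by
    refine ⟨F.map (mapRingHom ρ), hFm.map _, φ.injective ?_⟩
    rw [map_zero]
    show φ.toRingHom _ = 0
    rw [eval₂_map, hom_eval₂]
    have h0 : redExp M R ρ (F.eval₂ (polyInt M R) u) = 0 := by rw [hF, map_zero]
    rw [hom_eval₂] at h0
    show eval₂ _ (φ r) F = 0
    rw [hru, ← h0]
    congr 1
    refine RingHom.ext fun G => ?_
    simp only [RingHom.comp_apply, AlgHom.coe_toRingHom, coe_mapRingHom, hφX, redExp_polyInt',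
      AlgHom.toRingHom_eq_coe, hJ]
  obtain ⟨G, hG⟩ := IsIntegrallyClosed.isIntegral_iff.mp hint
  have hue : redExp M R ρ u = qExpand k (M * p) (deltaModC k) * qExpand k M (invDeltaModC k) := by
    have : intExp M R u = qExpand R (M * p) (deltaModC R) * qExpand R M (invDeltaModC R) := by
      apply coeffMap_injective R.subtype_injective
      rw [coeffMap_intExp, map_mul, coeffMap_qExpand, coeffMap_qExpand, coeffMap_deltaModC,
        coeffMap_invDeltaModC, hu, qExp_deltaRatio]
    rw [redExp, RingHom.comp_apply, this, map_mul, coeffMap_qExpand, coeffMap_qExpand,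
      coeffMap_deltaModC, coeffMap_invDeltaModC]
  have hne1 : deltaModC k ≠ 0 := left_ne_zero_of_mul_eq_one (deltaModC_mul_inv k)
  have hne2 : invDeltaModC k ≠ 0 := right_ne_zero_of_mul_eq_one (deltaModC_mul_inv k)
  have hord : (redExp M R ρ u).order = (M : ℤ) * p - M := by
    rw [hue, HahnSeries.order_mul ((_root_.map_ne_zero _).mpr hne1) ((_root_.map_ne_zero _).mpr hne2),
      order_qExpand _ hne1, order_qExpand _ hne2, order_deltaModC, order_invDeltaModC]
    push_cast; ring
  have hu0 : redExp M R ρ u ≠ 0 := by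
    rw [hue]; exact mul_ne_zero ((_root_.map_ne_zero _).mpr hne1) ((_root_.map_ne_zero _).mpr hne2)
  rw [← hru, ← hG, hφX] at hord hu0
  have hG0 : G ≠ 0 := fun h => hu0 (by rw [h, map_zero])
  have hle := (qExpand_jqModC_transcendental k M G hG0).2
  rw [hord] at hle
  have h1 : (0 : ℤ) < M := by exact_mod_cast NeZero.pos M
  have h2 : (2 : ℤ) ≤ p := by exact_mod_cast hp.two_le
  have h3 : (0 : ℤ) ≤ (M : ℤ) * G.natDegree := by positivity
  nlinarith

theorem T_mem_decompGroup (hR : HasRoots M R) : ModularGroup.T ∈ decompGroup (M := M) ρ := by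
  suffices h : ModularGroup.T⁻¹ ∈ decompGroup (M := M) ρ by simpa using inv_mem h
  intro x
  have hex : ∀ n : ℤ, (qExp M (((ModularGroup.T⁻¹ • x : intFun M R)) : ℍ → ℂ)).coeff n =
      (((expUnit ((1 : ℝ) / M)) ^ n : ℂˣ) : ℂ) * (qExp M (x : ℍ → ℂ)).coeff n := by
    intro n
    have hxc := ((mem_expSubring M R).mp (intFun_le_expSubring M R x.2)).1
    rw [qExp, qExp, ← twist_coeff, ← qLaurent_comp_vadd (f := (x : ℍ → ℂ) ∘ dil M) hxc]
    congr 2
    funext τ
    simp only [comp_apply, smul_apply, inv_inv, modular_T_smul]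
    refine congrArg _ (UpperHalfPlane.ext ?_)
    simp only [coe_vadd, coe_dil, Complex.ofReal_one, Complex.ofReal_div, Complex.ofReal_natCast]
    rw [mul_add, mul_one_div_cancel (Nat.cast_ne_zero.mpr (NeZero.ne M))]
  have hz : ∀ n : ℤ, (((expUnit ((1 : ℝ) / M)) ^ n : ℂˣ) : ℂ) ∈ R := fun n => by
    simpa using hR.expUnit_zpow_mem dvd_rfl 1 n
  set z : ℤ → R := fun n => ⟨_, hz n⟩ with hzd
  have hρz : ∀ n, ρ (z n) ≠ 0 := by
    intro n h
    have h1 : z n * z (-n) = 1 := by
      apply Subtype.ext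
      rw [Subring.coe_mul, hzd, Subring.coe_one, ← Units.val_mul, ← zpow_add, add_neg_cancel,
        zpow_zero, Units.val_one]
    simpa [h] using congrArg ρ h1
  have hc : ∀ n : ℤ, (redExp M R ρ (ModularGroup.T⁻¹ • x)).coeff n =
      ρ (z n) * (redExp M R ρ x).coeff n := by
    intro n
    simp only [redExp, RingHom.comp_apply, coeffMap_coeff, ← map_mul]
    congr 1
    apply Subtype.ext
    rw [Subring.coe_mul, coe_intExp_coeff, coe_intExp_coeff, hex]
  simp only [redKer, RingHom.mem_ker]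
  constructor <;> intro h <;> ext n
  · have := hc n
    rw [h, HahnSeries.coeff_zero, zero_eq_mul] at this
    rw [HahnSeries.coeff_zero]
    exact this.resolve_left (hρz n)
  · rw [hc, h, HahnSeries.coeff_zero, mul_zero]

theorem T_zpow_mul_apply (m : ℤ) (γ : SL(2, ℤ)) :
    (ModularGroup.T ^ m * γ) 0 0 = γ 0 0 + m * γ 1 0 ∧ (ModularGroup.T ^ m * γ) 1 0 = γ 1 0 := by
  simp [ModularGroup.coe_T_zpow, Matrix.mul_apply, Fin.sum_univ_two]

theorem not_dvd_left_of_dvd_right {γ : SL(2, ℤ)} {p : ℕ} (hp : p.Prime) (h : (p : ℤ) ∣ γ 1 0) :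
    ¬ (p : ℤ) ∣ γ 0 0 := fun h' => by
  have hdet := γ.det_coe
  rw [Matrix.det_fin_two] at hdet
  have : (p : ℤ) ∣ 1 := hdet ▸ dvd_sub (h'.mul_right _) (h.mul_left _)
  exact hp.one_lt.ne' (Nat.dvd_one.mp (by exact_mod_cast this))

/-- The decomposition group acts transitively on `SL(2, ℤ) / Γ₀(M)`. -/
theorem exists_decompGroup_mul_mem_gamma0 (hR : HasRoots M R) (hM : (M : ℂ)⁻¹ ∈ R)
    (γ : SL(2, ℤ)) :
    ∃ δ ∈ decompGroup (M := M) ρ, δ * γ ∈ CongruenceSubgroup.Gamma0 M := by
  classical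
  -- step 1: make the lower left entry prime to `M`
  have step1 : ∀ g : SL(2, ℤ), ∀ S : Finset ℕ, S ⊆ M.primeFactors →
      ∃ δ ∈ decompGroup (M := M) ρ, ∀ p ∈ S, ¬ (p : ℤ) ∣ (δ * g) 1 0 := by
    intro g S hS
    induction S using Finset.induction_on with
    | empty => exact ⟨1, one_mem _, by simp⟩
    | @insert p₀ S hp₀ ih =>
      obtain ⟨hp₀M, hS'⟩ := Finset.insert_subset_iff.mp hS
      obtain ⟨δ, hδ, hgood⟩ := ih hS'
      by_cases hc : (p₀ : ℤ) ∣ (δ * g) 1 0
      swap
      · exact ⟨δ, hδ, (Finset.forall_mem_insert _ _ _).mpr ⟨hc, hgood⟩⟩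
      have hp₀' := Nat.prime_of_mem_primeFactors hp₀M
      obtain ⟨h, hh, hh10⟩ :=
        exists_not_dvd_of_prime ρ hR hM hp₀' (Nat.dvd_of_mem_primeFactors hp₀M)
      set a := (δ * g) 0 0 with ha
      set c := (δ * g) 1 0 with hcdef
      -- choose the translation
      let m₀ : ℕ → ℕ := fun p => if (p : ℤ) ∣ h 1 0 * a + h 1 1 * c then 1 else 0
      have hpw : Set.Pairwise (S : Set ℕ) (Nat.Coprime on id) := fun p hp q hq hne =>
        (Nat.coprime_primes (Nat.prime_of_mem_primeFactors (hS' hp))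
          (Nat.prime_of_mem_primeFactors (hS' hq))).mpr hne
      obtain ⟨m, hm⟩ := Nat.chineseRemainderOfFinset m₀ id S
        (fun p hp => (Nat.prime_of_mem_primeFactors (hS' hp)).ne_zero) hpw
      refine ⟨h * ModularGroup.T ^ (m : ℤ) * δ,
        mul_mem (mul_mem hh (zpow_mem (T_mem_decompGroup ρ hR) _)) hδ, ?_⟩
      have hval : (h * ModularGroup.T ^ (m : ℤ) * δ * g) 1 0 =
          h 1 0 * (a + (m : ℤ) * c) + h 1 1 * c := by
        rw [mul_assoc, mul_assoc]
        obtain ⟨e0, e1⟩ := T_zpow_mul_apply (m : ℤ) (δ * g)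
        simp only [Matrix.SpecialLinearGroup.coe_mul, Matrix.mul_apply, Fin.sum_univ_two] at e0 e1 ⊢
        rw [e0, e1]
        simp [ha, hcdef, Matrix.mul_apply, Fin.sum_univ_two]
      refine (Finset.forall_mem_insert _ _ _).mpr ⟨fun hd => ?_, fun p hp hd => ?_⟩
      · rw [hval] at hd
        have h1 : (p₀ : ℤ) ∣ h 1 0 * a := by
          have h2 := dvd_sub hd (dvd_add (hc.mul_left (h 1 0 * m)) (hc.mul_left (h 1 1)))
          rwa [show h 1 0 * (a + (m : ℤ) * c) + h 1 1 * c -
            (h 1 0 * (m : ℤ) * c + h 1 1 * c) = h 1 0 * a by ring] at h2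
        rcases (Nat.prime_iff_prime_int.mp hp₀').dvd_or_dvd h1 with h2 | h2
        · exact hh10 h2
        · exact not_dvd_left_of_dvd_right hp₀' hc h2
      · rw [hval] at hd
        have hp' := Nat.prime_of_mem_primeFactors (hS' hp)
        have hpi := Nat.prime_iff_prime_int.mp hp'
        have hmp : (p : ℤ) ∣ (m : ℤ) - (m₀ p : ℕ) := by
          have := (Nat.modEq_iff_dvd.mp (hm p hp).symm)
          simpa using this
        have hd2 : (p : ℤ) ∣ h 1 0 * a + h 1 1 * c + h 1 0 * c * (m₀ p : ℕ) := by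
          have h2 := dvd_sub hd (hmp.mul_left (h 1 0 * c))
          rwa [show h 1 0 * (a + (m : ℤ) * c) + h 1 1 * c -
            h 1 0 * c * ((m : ℤ) - (m₀ p : ℕ)) =
            h 1 0 * a + h 1 1 * c + h 1 0 * c * (m₀ p : ℕ) by ring] at h2
        simp only [m₀] at hd2
        split_ifs at hd2 with hif
        · rw [Nat.cast_one, mul_one, dvd_add_right hif] at hd2
          rcases hpi.dvd_or_dvd hd2 with h2 | h2
          · have h3 : (p : ℤ) ∣ h 1 1 * c := (dvd_add_right (h2.mul_right a)).mp hif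
            rcases hpi.dvd_or_dvd h3 with h4 | h4
            · have hdet := h.det_coe
              rw [Matrix.det_fin_two] at hdet
              have : (p : ℤ) ∣ 1 := hdet ▸ dvd_sub (h4.mul_left _) (h2.mul_left _)
              exact hp'.one_lt.ne' (Nat.dvd_one.mp (by exact_mod_cast this))
            · exact hgood p hp h4
          · exact hgood p hp h2
        · simp at hd2
          exact hif hd2
  -- step 2: the upper left entry can then be killed modulo `M`
  have step2 : ∀ g : SL(2, ℤ), ∃ δ ∈ decompGroup (M := M) ρ, (M : ℤ) ∣ (δ * g) 0 0 := by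
    intro g
    obtain ⟨δ, hδ, hgood⟩ := step1 g M.primeFactors subset_rfl
    have hcop : Nat.Coprime (((δ * g) 1 0).natAbs) M := by
      rw [Nat.coprime_comm]
      by_contra hnc
      obtain ⟨p, hp, h1, h2⟩ := Nat.Prime.not_coprime_iff_dvd.mp hnc
      exact hgood p (Nat.mem_primeFactors.mpr ⟨hp, h1, NeZero.ne M⟩)
        (Int.natCast_dvd.mpr h2)
    obtain ⟨x, y, hxy⟩ : IsCoprime ((δ * g) 1 0) (M : ℤ) := by
      rw [Int.isCoprime_iff_nat_coprime]
      simpa using hcop
    refine ⟨ModularGroup.T ^ (-(δ * g) 0 0 * x) * δ,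
      mul_mem (zpow_mem (T_mem_decompGroup ρ hR) _) hδ, ?_⟩
    rw [mul_assoc, (T_zpow_mul_apply _ _).1]
    refine ⟨(δ * g) 0 0 * y, ?_⟩
    linear_combination (-(δ * g) 0 0) * hxy
  obtain ⟨δ₁, hδ₁, h1⟩ := step2 γ
  obtain ⟨δ₂, hδ₂, h2⟩ := step2 1
  refine ⟨δ₂⁻¹ * δ₁, mul_mem (inv_mem hδ₂) hδ₁, ?_⟩
  rw [mul_one] at h2
  rw [CongruenceSubgroup.Gamma0_mem, ZMod.intCast_zmod_eq_zero_iff_dvd, mul_assoc]
  simp only [Matrix.SpecialLinearGroup.coe_mul, Matrix.SpecialLinearGroup.coe_inv,
    Matrix.adjugate_fin_two, Matrix.mul_apply, Fin.sum_univ_two] at h1 ⊢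
  simp only [Matrix.of_apply, Matrix.cons_val', Matrix.cons_val_zero, Matrix.cons_val_one,
    Matrix.cons_val_fin_one]
  exact dvd_add (h1.mul_left _) (h2.mul_right _)

end

end FermatAgent.Igusa

end
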